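import Mathlib.Logic.Relation
import Mathlib.Data.List.Infix
import Mathlib.Tactic.Common
import Mathlib.Data.Fin.VecNotation
import Mathlib.Data.Fintype.Option
import Mathlib.Data.Fintype.Sum

/-!
# Derivations as matches of tiles

`t` is derived from `s` by rules with nonempty sides if and only if some tiles match. The letters
of the tops follow a separator and those of the bottoms precede one, so that a match begins with
the tile of `s`. An injective coding gives tiles over two letters.
-/

set_option autoImplicit false

namespace FA.Undecidability

variable {A : Type*}

/-- One replacement of a left side by a right side. -/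
inductive RewriteStep (R : List (List A × List A)) : List A → List A → Prop
  | intro (u v : List A) {l r : List A} (h : (l, r) ∈ R) : RewriteStep R (u ++ l ++ v) (u ++ r ++ v)

/-- The word of the tops. -/
def tops (L : List (List A × List A)) : List A := L.flatMap Prod.fst

/-- The word of the bottoms. -/
def bottoms (L : List (List A × List A)) : List A := L.flatMap Prod.snd

/-- **The correspondence problem**: a nonempty sequence with the same two words. -/
def HasMatch (ts : List (List A × List A)) : Prop :=
  ∃ L, L ≠ [] ∧ (∀ t ∈ L, t ∈ ts) ∧ tops L = bottoms L

/-- A match ending with a given tile. -/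
def HasMatchEnd (ts : List (List A × List A)) (e : List A × List A) : Prop :=
  ∃ L, (∀ t ∈ L, t ∈ ts) ∧ tops (L ++ [e]) = bottoms (L ++ [e])

theorem HasMatchEnd.hasMatch {ts : List (List A × List A)} {e : List A × List A}
    (h : HasMatchEnd ts e) (he : e ∈ ts) : HasMatch ts := by
  obtain ⟨L, hL, h⟩ := h
  refine ⟨L ++ [e], by simp, fun t ht => ?_, h⟩
  rcases List.mem_append.1 ht with h1 | h1
  · exact hL t h1
  · exact List.mem_singleton.1 h1 ▸ he

/-- The letters of the tiles; `mid none` separates two words of a derivation. -/
inductive TileLetter (A : Type*) where
  | mid (o : Option A)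
  | star
  | first
  | last
  deriving DecidableEq

open TileLetter

instance [Fintype A] [DecidableEq A] : Fintype (TileLetter A) :=
  Fintype.ofSurjective (fun x : Option A ⊕ Fin 3 => x.elim mid ![star, first, last]) fun
    | mid o => ⟨Sum.inl o, rfl⟩
    | TileLetter.star => ⟨Sum.inr 0, rfl⟩
    | first => ⟨Sum.inr 1, rfl⟩
    | last => ⟨Sum.inr 2, rfl⟩

/-- A separator before every letter. -/
def before (z : List (Option A)) : List (TileLetter A) := z.flatMap fun o => [star, mid o]

/-- A separator after every letter. -/
def after (z : List (Option A)) : List (TileLetter A) := z.flatMap fun o => [mid o, star]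

@[simp] theorem before_nil : before ([] : List (Option A)) = [] := rfl

@[simp] theorem before_cons (o : Option A) (z : List (Option A)) :
    before (o :: z) = star :: mid o :: before z := rfl

theorem before_append (z w : List (Option A)) : before (z ++ w) = before z ++ before w :=
  List.flatMap_append

theorem star_after (z : List (Option A)) : star :: after z = before z ++ [star] := by
  induction z with
  | nil => rfl
  | cons o z ih =>
    rw [after, List.flatMap_cons, before_cons, ← after]
    simp [ih]

theorem before_comparable : ∀ {x z : List (Option A)} {X Y : List (TileLetter A)},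
    before x ++ X = before z ++ star :: Y → x <+: z ∨ z <+: x := by
  intro x
  induction x with
  | nil => exact fun _ => Or.inl List.nil_prefix
  | cons o x ih =>
    intro z X Y h
    cases z with
    | nil => exact Or.inr List.nil_prefix
    | cons o' z =>
      simp only [before_cons, List.cons_append, List.cons.injEq, mid.injEq, true_and] at h
      obtain ⟨rfl, h⟩ := h
      exact (ih h).imp (List.prefix_cons_inj o).2 (List.prefix_cons_inj o).2

theorem before_end : ∀ {x z : List (Option A)} {X Y : List (TileLetter A)},
    before x ++ [star, last] ++ X = before z ++ star :: last :: Y → x = z := by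
  intro x
  induction x with
  | nil => intro z X Y h; cases z <;> simp_all
  | cons o x ih =>
    intro z X Y h
    cases z with
    | nil => simp at h
    | cons o' z =>
      simp only [before_cons, List.cons_append, List.cons.injEq, mid.injEq, true_and] at h
      obtain ⟨rfl, h⟩ := h
      rw [ih h]

theorem map_some_prefix : ∀ {l a : List A} {c : List (Option A)},
    l.map some <+: a.map some ++ none :: c → l <+: a := by
  intro l
  induction l with
  | nil => exact fun _ => List.nil_prefix
  | cons x l ih =>
    intro a c h
    cases a with
    | nil => simp [List.prefix_cons_iff] at h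
    | cons y a =>
      simp only [List.map_cons, List.cons_append, List.cons_prefix_cons, Option.some.injEq] at h
      exact h.1 ▸ (List.prefix_cons_inj x).2 (ih h.2)

theorem split_at_none : ∀ {a a' : List A} {b b' : List (Option A)},
    a.map some ++ none :: b = a'.map some ++ none :: b' → a = a' ∧ b = b' := by
  intro a
  induction a with
  | nil => intro a' b b' h; cases a' <;> simp_all
  | cons x a ih =>
    intro a' b b' h
    cases a' with
    | nil => simp at h
    | cons y a' =>
      simp only [List.map_cons, List.cons_append, List.cons.injEq, Option.some.injEq] at h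
      obtain ⟨rfl, h⟩ := h
      obtain ⟨rfl, rfl⟩ := ih h
      exact ⟨rfl, rfl⟩

/-- The tile of the first word. -/
def firstTile (s : List A) : List (TileLetter A) × List (TileLetter A) :=
  ([star, first], [star, first, star] ++ after (s.map some ++ [none]))

/-- The tile of the last word. -/
def lastTile (t : List A) : List (TileLetter A) × List (TileLetter A) :=
  (before (t.map some ++ [none]) ++ [star, last], [last])

/-- A tile of a copy or of a rule. -/
def pairTile (p : List (Option A) × List (Option A)) : List (TileLetter A) × List (TileLetter A) :=
  (before p.1, after p.2)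

/-- The tiles which do not depend on the first word. -/
def fixedTiles (alph : List A) (R : List (List A × List A)) (t : List A) :
    List (List (TileLetter A) × List (TileLetter A)) :=
  lastTile t :: (((none :: alph.map some).map fun o => pairTile ([o], [o])) ++
    R.map fun p => pairTile (p.1.map some, p.2.map some))

/-- All tiles. -/
def derivationTiles (alph : List A) (R : List (List A × List A)) (s t : List A) :
    List (List (TileLetter A) × List (TileLetter A)) :=
  firstTile s :: fixedTiles alph R t

variable {alph : List A} {R : List (List A × List A)} {s t : List A}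

theorem mem_derivationTiles {x : List (TileLetter A) × List (TileLetter A)}
    (h : x ∈ derivationTiles alph R s t) : x = firstTile s ∨ x = lastTile t ∨
      (∃ o, x = pairTile ([o], [o])) ∨
      ∃ l r, (l, r) ∈ R ∧ x = pairTile (l.map some, r.map some) := by
  simp only [derivationTiles, fixedTiles, List.mem_cons, List.mem_append, List.mem_map] at h
  rcases h with h | h | ⟨o, -, rfl⟩ | ⟨p, hp, rfl⟩
  exacts [Or.inl h, Or.inr (Or.inl h), Or.inr (Or.inr (Or.inl ⟨o, rfl⟩)),
    Or.inr (Or.inr (Or.inr ⟨p.1, p.2, hp, rfl⟩))]

/-- **A match gives a derivation.** -/
theorem derives_of_match :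
    ∀ {L : List (List (TileLetter A) × List (TileLetter A))} {a b : List A},
      (∀ x ∈ L, x ∈ derivationTiles alph R s t) →
      Relation.ReflTransGen (RewriteStep R) s (b ++ a) →
      before (a.map some ++ none :: b.map some) ++ [star] ++ bottoms L = tops L →
      Relation.ReflTransGen (RewriteStep R) s t := by
  intro L
  induction L with
  | nil => intro a b _ _ h; simp [tops, bottoms] at h
  | cons x L ih =>
    intro a b hmem hder h
    obtain ⟨hx, hL⟩ := List.forall_mem_cons.1 hmem
    simp only [tops, bottoms, List.flatMap_cons] at h
    set z := a.map some ++ none :: b.map some with hz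
    have next : ∀ {y z' : List (Option A)}, x = pairTile (y, z') → ∀ {w}, z = y ++ w →
        before (w ++ z') ++ [star] ++ bottoms L = tops L := by
      intro y z' e w hw
      rw [e, pairTile, hw, before_append, List.append_assoc, List.singleton_append,
        ← List.cons_append, star_after, List.append_assoc, List.append_assoc] at h
      simpa [before_append, tops, bottoms] using List.append_cancel_left h
    rcases mem_derivationTiles hx with e | e | ⟨o, e⟩ | ⟨l, r, hlr, e⟩
    · rw [e, firstTile] at h
      cases a <;> simp [hz] at h
    · rw [e, lastTile] at h
      have h1 : before (t.map some ++ [none]) ++ [star, last] ++ tops L =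
          before z ++ star :: last :: bottoms L := by
        simpa [tops, bottoms] using h.symm
      obtain ⟨rfl, hb⟩ := split_at_none (before_end h1)
      have hb' : b = [] := by simpa using hb.symm
      simpa [hb'] using hder
    · cases a with
      | nil =>
        have ho : o = none := by
          rw [e, pairTile] at h
          simp [hz] at h
          exact h.1.symm
        subst ho
        refine ih (a := b) (b := []) hL (by simpa using hder) ?_
        simpa using next e (w := b.map some) (by simp [hz])
      | cons y a =>
        have ho : o = some y := by
          rw [e, pairTile] at h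
          simp [hz] at h
          exact h.1.symm
        subst ho
        refine ih (a := a) (b := b ++ [y]) hL (by simpa using hder) ?_
        simpa using next e (w := a.map some ++ none :: b.map some) (by simp [hz])
    · have hpre : l.map some <+: z := by
        rw [e, pairTile, List.append_assoc, List.singleton_append] at h
        rcases before_comparable h.symm with h1 | h1
        · exact h1
        · exact absurd (h1.subset (show (none : Option A) ∈ z by simp [hz])) (by simp)
      obtain ⟨a', rfl⟩ := map_some_prefix hpre
      refine ih (a := a') (b := b ++ r) hL (hder.tail ?_) ?_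
      · have := RewriteStep.intro b a' hlr
        simpa [List.append_assoc] using this
      · simpa using next e (w := a'.map some ++ none :: b.map some) (by simp [hz])

/-- The remainder `z` can become `z'`. -/
def TileReach (alph : List A) (R : List (List A × List A)) (s t : List A)
    (z z' : List (Option A)) : Prop :=
  ∃ L, (∀ x ∈ L, x ∈ derivationTiles alph R s t) ∧
    before z ++ [star] ++ bottoms L = tops L ++ before z' ++ [star]

theorem TileReach.trans {z z' z'' : List (Option A)} (h : TileReach alph R s t z z')
    (h' : TileReach alph R s t z' z'') : TileReach alph R s t z z'' := by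
  obtain ⟨L, hL, e⟩ := h
  obtain ⟨L', hL', e'⟩ := h'
  refine ⟨L ++ L', fun x hx => (List.mem_append.1 hx).elim (hL x) (hL' x), ?_⟩
  simp only [tops, bottoms, List.flatMap_append] at *
  rw [← List.append_assoc, e]
  simp only [List.append_assoc] at e' ⊢
  rw [e']

theorem TileReach.of_tile {x y w : List (Option A)}
    (h : pairTile (x, y) ∈ derivationTiles alph R s t) :
    TileReach alph R s t (x ++ w) (w ++ y) := by
  refine ⟨[pairTile (x, y)], by simpa using h, ?_⟩
  simp [tops, bottoms, pairTile, before_append, star_after]

theorem TileReach.copy (halph : ∀ a, a ∈ alph) (x w : List (Option A)) :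
    TileReach alph R s t (x ++ w) (w ++ x) := by
  induction x generalizing w with
  | nil => exact ⟨[], by simp, by simp [tops, bottoms]⟩
  | cons o x ih =>
    have hmem : pairTile ([o], [o]) ∈ derivationTiles alph R s t := by
      refine List.mem_cons_of_mem _ (List.mem_cons_of_mem _ (List.mem_append_left _ ?_))
      refine List.mem_map.2 ⟨o, ?_, rfl⟩
      cases o with
      | none => exact List.mem_cons_self
      | some a => exact List.mem_cons_of_mem _ (List.mem_map_of_mem (halph a))
    have h1 := TileReach.of_tile (w := x ++ w) hmem
    have h2 := ih (w ++ [o])
    simp only [List.cons_append, List.append_assoc] at h1 h2 ⊢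
    exact h1.trans h2

/-- **A derivation gives a match ending with the last tile.** -/
theorem matchEnd_of_derives (halph : ∀ a, a ∈ alph)
    (h : Relation.ReflTransGen (RewriteStep R) s t) :
    HasMatchEnd (derivationTiles alph R s t) (lastTile t) := by
  suffices hd : TileReach alph R s t (s.map some ++ [none]) (t.map some ++ [none]) by
    obtain ⟨L, hL, e⟩ := hd
    refine ⟨firstTile s :: L, List.forall_mem_cons.2 ⟨List.mem_cons_self, hL⟩, ?_⟩
    have e' : star :: (after (s.map some ++ [none]) ++ bottoms L) =
        tops L ++ before (t.map some ++ [none]) ++ [star] := by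
      rw [← List.cons_append, star_after, e]
    have e'' := congrArg (fun X => [star, first] ++ X ++ [last]) e'
    simpa [tops, bottoms, firstTile, lastTile] using e''.symm
  suffices hall : ∀ w, Relation.ReflTransGen (RewriteStep R) s w →
      TileReach alph R s t (s.map some ++ [none]) (w.map some ++ [none]) from hall t h
  intro w hw
  induction hw with
  | refl => exact ⟨[], by simp, by simp [tops, bottoms]⟩
  | tail _ hstep ih =>
    obtain @⟨u, v, l, r, hlr⟩ := hstep
    refine ih.trans ?_
    have c1 := TileReach.copy (R := R) (s := s) (t := t) halph (u.map some)
      (l.map some ++ v.map some ++ [none])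
    have hrule : pairTile (l.map some, r.map some) ∈ derivationTiles alph R s t :=
      List.mem_cons_of_mem _ (List.mem_cons_of_mem _ (List.mem_append_right _
        (List.mem_map.2 ⟨(l, r), hlr, rfl⟩)))
    have c2 := TileReach.of_tile (w := v.map some ++ none :: u.map some) hrule
    have c3 := TileReach.copy (R := R) (s := s) (t := t) halph (v.map some ++ [none])
      (u.map some ++ r.map some)
    simp only [List.map_append, List.append_assoc, List.singleton_append] at c1 c2 c3 ⊢
    exact c1.trans (c2.trans c3)

/-- **Derivations as matches.** -/
theorem derives_iff_match (halph : ∀ a, a ∈ alph) (hR : ∀ p ∈ R, p.1 ≠ [] ∧ p.2 ≠ []) :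
    (HasMatch (derivationTiles alph R s t) ↔ Relation.ReflTransGen (RewriteStep R) s t) ∧
      (HasMatchEnd (derivationTiles alph R s t) (lastTile t) ↔
        Relation.ReflTransGen (RewriteStep R) s t) := by
  have hlast : lastTile t ∈ derivationTiles alph R s t :=
    List.mem_cons_of_mem _ List.mem_cons_self
  have key : HasMatch (derivationTiles alph R s t) → Relation.ReflTransGen (RewriteStep R) s t := by
    rintro ⟨L, hne, hmem, h⟩
    obtain ⟨x, L, rfl⟩ := List.exists_cons_of_ne_nil hne
    obtain ⟨hx, hL⟩ := List.forall_mem_cons.1 hmem
    rcases mem_derivationTiles hx with e | e | ⟨o, e⟩ | ⟨l, r, hlr, e⟩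
    · subst e
      simp only [tops, bottoms, List.flatMap_cons, firstTile, List.cons_append, List.cons.injEq,
        true_and, List.nil_append] at h
      refine derives_of_match (a := s) (b := []) hL (by simpa using Relation.ReflTransGen.refl) ?_
      rw [← List.cons_append, star_after] at h
      simpa [tops, bottoms] using h.symm
    · subst e
      exfalso
      cases t <;> simp [tops, bottoms, lastTile] at h
    · subst e
      simp [tops, bottoms, pairTile, after] at h
    · subst e
      obtain ⟨hl, hr⟩ := hR _ hlr
      obtain ⟨y, r, rfl⟩ := List.exists_cons_of_ne_nil hr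
      obtain ⟨z, l, rfl⟩ := List.exists_cons_of_ne_nil hl
      simp [tops, bottoms, pairTile, after] at h
  exact ⟨⟨key, fun h => (matchEnd_of_derives halph h).hasMatch hlast⟩,
    fun h => key (h.hasMatch hlast), matchEnd_of_derives halph⟩

/-- A coding of letters over two letters. -/
def unaryCode {B : Type*} (f : B → ℕ) (w : List B) : List Bool :=
  w.flatMap fun b => List.replicate (f b) true ++ [false]

theorem unaryCode_append {B : Type*} (f : B → ℕ) (w w' : List B) :
    unaryCode f (w ++ w') = unaryCode f w ++ unaryCode f w' :=
  List.flatMap_append

theorem unaryCode_injective {B : Type*} {f : B → ℕ} (hf : Function.Injective f) :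
    Function.Injective (unaryCode f) := by
  have key : ∀ {i j : ℕ} {X Y : List Bool},
      List.replicate i true ++ false :: X = List.replicate j true ++ false :: Y →
        i = j ∧ X = Y := by
    intro i
    induction i with
    | zero => intro j X Y h; cases j <;> simp_all [List.replicate_succ]
    | succ i ih =>
      intro j X Y h
      cases j with
      | zero => simp [List.replicate_succ] at h
      | succ j =>
        simp only [List.replicate_succ, List.cons_append, List.cons.injEq, true_and] at h
        exact (ih h).imp_left (congrArg Nat.succ)
  intro w
  induction w with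
  | nil => intro w' h; cases w' <;> simp_all [unaryCode]
  | cons b w ih =>
    intro w' h
    cases w' with
    | nil => simp [unaryCode] at h
    | cons b' w' =>
      simp only [unaryCode, List.flatMap_cons, List.append_assoc, List.singleton_append] at h
      obtain ⟨h1, h2⟩ := key h
      rw [hf h1, ih (a₂ := w') h2]

variable {B : Type*}

/-- The coded tile. -/
def codeTile (f : B → ℕ) (x : List B × List B) : List Bool × List Bool :=
  (unaryCode f x.1, unaryCode f x.2)

theorem tops_map_codeTile (f : B → ℕ) (L : List (List B × List B)) :
    tops (L.map (codeTile f)) = unaryCode f (tops L) := by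
  simp [tops, unaryCode, codeTile, List.flatMap_map, List.flatMap_assoc]

theorem bottoms_map_codeTile (f : B → ℕ) (L : List (List B × List B)) :
    bottoms (L.map (codeTile f)) = unaryCode f (bottoms L) := by
  simp [bottoms, unaryCode, codeTile, List.flatMap_map, List.flatMap_assoc]

theorem exists_map_eq {C : Type*} {F : B → C} {ts : List B} :
    ∀ {L : List C}, (∀ x ∈ L, x ∈ ts.map F) →
      ∃ L' : List B, (∀ x ∈ L', x ∈ ts) ∧ L'.map F = L := by
  intro L
  induction L with
  | nil => exact fun _ => ⟨[], by simp, rfl⟩
  | cons x L ih =>
    intro h
    obtain ⟨hx, hL⟩ := List.forall_mem_cons.1 h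
    obtain ⟨y, hy, rfl⟩ := List.mem_map.1 hx
    obtain ⟨L', hL', rfl⟩ := ih hL
    exact ⟨y :: L', List.forall_mem_cons.2 ⟨hy, hL'⟩, rfl⟩

/-- An injective coding does not change the matches. -/
theorem hasMatch_codeTile {f : B → ℕ} (hf : Function.Injective f) (ts : List (List B × List B))
    (e : List B × List B) :
    (HasMatch (ts.map (codeTile f)) ↔ HasMatch ts) ∧
      (HasMatchEnd (ts.map (codeTile f)) (codeTile f e) ↔ HasMatchEnd ts e) := by
  refine ⟨⟨?_, ?_⟩, ?_, ?_⟩
  · rintro ⟨L, hne, hL, h⟩
    obtain ⟨L', hL', rfl⟩ := exists_map_eq hL
    rw [tops_map_codeTile, bottoms_map_codeTile] at h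
    exact ⟨L', by simpa using hne, hL', unaryCode_injective hf h⟩
  · rintro ⟨L, hne, hL, h⟩
    refine ⟨L.map (codeTile f), by simpa using hne, fun x hx => ?_, ?_⟩
    · obtain ⟨y, hy, rfl⟩ := List.mem_map.1 hx
      exact List.mem_map_of_mem (hL y hy)
    · rw [tops_map_codeTile, bottoms_map_codeTile, h]
  · rintro ⟨L, hL, h⟩
    obtain ⟨L', hL', rfl⟩ := exists_map_eq hL
    rw [← List.map_singleton, ← List.map_append, tops_map_codeTile, bottoms_map_codeTile] at h
    exact ⟨L', hL', unaryCode_injective hf h⟩
  · rintro ⟨L, hL, h⟩
    refine ⟨L.map (codeTile f), fun x hx => ?_, ?_⟩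
    · obtain ⟨y, hy, rfl⟩ := List.mem_map.1 hx
      exact List.mem_map_of_mem (hL y hy)
    · rw [← List.map_singleton, ← List.map_append, tops_map_codeTile, bottoms_map_codeTile, h]

end FA.Undecidability
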