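import Mathlib.Computability.TuringMachine.PostTuringMachine
import Mathlib.Data.Fintype.Sum
import Mathlib.Data.Fintype.Prod
import Mathlib.Data.Finset.Dedup
import Mathlib.Data.Fin.VecNotation
import Fermat.Agent.Undecidability.Tiles

/-!
# Turing machines as rewriting rules

A configuration is a word `[left end] u q v [right end]`. The rules follow the machine, pad the two
ends with blanks and, once the machine has halted, erase the tape. Since every word has one mark,
a step in either direction keeps the property "the machine halts" (Markov, Post): the machine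
halts if and only if the initial word is equivalent to the final one.
-/

set_option autoImplicit false

namespace FA.Undecidability

open Turing StateTransition

/-- The letters of the words of configurations. -/
inductive MLetter (Q Γ : Type*) where
  | sym (a : Γ)
  | st (q : Q)
  | lft
  | rgt
  | fin
  deriving DecidableEq

instance {Q Γ : Type*} [Fintype Q] [Fintype Γ] [DecidableEq Q] [DecidableEq Γ] :
    Fintype (MLetter Q Γ) :=
  Fintype.ofSurjective
    (fun x : Γ ⊕ Q ⊕ Fin 3 => x.elim .sym (Sum.elim .st ![.lft, .rgt, .fin]))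
    fun
    | .sym a => ⟨Sum.inl a, rfl⟩
    | .st q => ⟨Sum.inr (Sum.inl q), rfl⟩
    | .lft => ⟨Sum.inr (Sum.inr 0), rfl⟩
    | .rgt => ⟨Sum.inr (Sum.inr 1), rfl⟩
    | .fin => ⟨Sum.inr (Sum.inr 2), rfl⟩

open MLetter

section Words

variable {Q Γ : Type*}

/-- A state or the mark of halting. -/
def IsMark : MLetter Q Γ → Prop
  | st _ => True
  | .fin => True
  | _ => False

/-- The word of a configuration. -/
def word (u : List Γ) (m : MLetter Q Γ) (v : List Γ) : List (MLetter Q Γ) :=
  lft :: u.map sym ++ m :: (v.map sym ++ [rgt])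

theorem split_at_mark : ∀ {x x' y y' : List (MLetter Q Γ)} {m m' : MLetter Q Γ},
    IsMark m → IsMark m' → (∀ z ∈ x', ¬IsMark z) → (∀ z ∈ y', ¬IsMark z) →
    x ++ m :: y = x' ++ m' :: y' → x = x' ∧ m = m' ∧ y = y' := by
  intro x
  induction x with
  | nil =>
    intro x' y y' m m' hm _ hx' _ h
    cases x' with
    | nil => simpa using h
    | cons z x' =>
      simp only [List.nil_append, List.cons_append, List.cons.injEq] at h
      exact absurd (h.1 ▸ hm) (hx' z List.mem_cons_self)
  | cons z x ih =>
    intro x' y y' m m' hm hm' hx' hy' h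
    cases x' with
    | nil =>
      simp only [List.nil_append, List.cons_append, List.cons.injEq] at h
      exact absurd hm (hy' m (h.2 ▸ List.mem_append_right _ List.mem_cons_self))
    | cons z' x' =>
      simp only [List.cons_append, List.cons.injEq] at h
      obtain ⟨rfl, rfl, rfl⟩ := ih hm hm' (fun w hw => hx' w (List.mem_cons_of_mem _ hw)) hy' h.2
      exact ⟨by rw [h.1], rfl, rfl⟩

theorem split_word {x y : List (MLetter Q Γ)} {m m' : MLetter Q Γ} {u v : List Γ} (hm : IsMark m)
    (hm' : IsMark m') (h : x ++ m :: y = word u m' v) :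
    x = lft :: u.map sym ∧ m = m' ∧ y = v.map sym ++ [rgt] := by
  refine split_at_mark hm hm' ?_ ?_ h <;> intro z hz <;> simp at hz
  · rcases hz with rfl | ⟨a, -, rfl⟩ <;> exact id
  · rcases hz with ⟨a, -, rfl⟩ | rfl <;> exact id

theorem map_sym_injective : Function.Injective (List.map (sym : Γ → MLetter Q Γ)) :=
  List.map_injective_iff.2 fun _ _ h => MLetter.sym.inj h

theorem word_inj {u u' v v' : List Γ} {m m' : MLetter Q Γ} (hm : IsMark m) (hm' : IsMark m')
    (h : word u m v = word u' m' v') : u = u' ∧ m = m' ∧ v = v' := by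
  obtain ⟨h1, h2, h3⟩ := split_word hm hm' h
  simp only [List.cons.injEq, true_and, List.append_cancel_right_eq] at h1 h3
  exact ⟨map_sym_injective h1, h2, map_sym_injective h3⟩

theorem split_left : ∀ {s u : List Γ} {x : List (MLetter Q Γ)},
    x ++ s.map sym = lft :: u.map sym → ∃ u0, x = lft :: u0.map sym ∧ u = u0 ++ s := by
  intro s
  induction s using List.reverseRecOn with
  | nil => intro u x h; exact ⟨u, by simpa using h, by simp⟩
  | append_singleton s a ih =>
    intro u x h
    rcases List.eq_nil_or_concat u with rfl | ⟨u', b, rfl⟩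
    · have := congrArg List.getLast? h
      simp [← List.append_assoc] at this
    · rw [List.concat_eq_append] at h ⊢
      rw [List.map_append, List.map_append, ← List.append_assoc, ← List.cons_append] at h
      simp only [List.map_cons, List.map_nil] at h
      have h2 := List.append_inj' h rfl
      obtain ⟨u0, rfl, rfl⟩ := ih h2.1
      obtain rfl : a = b := by simpa using h2.2
      exact ⟨u0, rfl, by simp⟩

theorem split_right : ∀ {s v : List Γ} {y : List (MLetter Q Γ)},
    s.map sym ++ y = v.map sym ++ [rgt] → ∃ v0, y = v0.map sym ++ [rgt] ∧ v = s ++ v0 := by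
  intro s
  induction s with
  | nil => intro v y h; exact ⟨v, by simpa using h, rfl⟩
  | cons a s ih =>
    intro v y h
    cases v with
    | nil => simp at h
    | cons b v =>
      simp only [List.map_cons, List.cons_append, List.cons.injEq, MLetter.sym.injEq] at h
      obtain ⟨rfl, h⟩ := h
      obtain ⟨v0, rfl, rfl⟩ := ih h
      exact ⟨v0, rfl, rfl⟩

/-- A word with one mark between the ends. -/
def Shaped (w : List (MLetter Q Γ)) : Prop := ∃ u m v, IsMark m ∧ w = word u m v

end Words

variable {Q Γ : Type*} [Inhabited Q] [Inhabited Γ] (M : TM0.Machine Γ Q)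

/-- The rules of one transition. -/
def actRules (q : Q) (c a : Γ) : List (List (MLetter Q Γ) × List (MLetter Q Γ)) :=
  match M q a with
  | none => [([st q, sym a], [.fin])]
  | some (q', TM0.Stmt.write b) => [([st q, sym a], [st q', sym b])]
  | some (q', TM0.Stmt.move Dir.right) => [([st q, sym a], [sym a, st q'])]
  | some (q', TM0.Stmt.move Dir.left) => [([sym c, st q, sym a], [st q', sym c, sym a])]

/-- The rules of padding and of erasing. -/
def padRules (q : Q) (a : Γ) : List (List (MLetter Q Γ) × List (MLetter Q Γ)) :=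
  [([st q, rgt], [st q, sym default, rgt]), ([lft, st q], [lft, sym default, st q]),
    ([.fin, sym a], [.fin]), ([sym a, .fin], [.fin])]

/-- All rules. -/
noncomputable def machineRules [Fintype Q] [Fintype Γ] :
    List (List (MLetter Q Γ) × List (MLetter Q Γ)) :=
  (Finset.univ : Finset (Q × Γ × Γ)).toList.flatMap fun x =>
    actRules M x.1 x.2.1 x.2.2 ++ padRules x.1 x.2.2

/-- The configuration of a word. -/
def cfgOf (q : Q) (u v : List Γ) : TM0.Cfg Γ Q :=
  ⟨q, Tape.mk' (ListBlank.mk u.reverse) (ListBlank.mk v)⟩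

/-- The machine halts from a marked word. -/
def HaltsFrom (u : List Γ) (m : MLetter Q Γ) (v : List Γ) : Prop :=
  match m with
  | st q => (eval (TM0.step M) (cfgOf q u v)).Dom
  | .fin => True
  | _ => False

/-- A marked word from which the machine halts. -/
def Halting (w : List (MLetter Q Γ)) : Prop :=
  ∃ u m v, IsMark m ∧ w = word u m v ∧ HaltsFrom M u m v

theorem halting_word {u v : List Γ} {m : MLetter Q Γ} (hm : IsMark m) :
    Halting M (word u m v) ↔ HaltsFrom M u m v := by
  refine ⟨?_, fun h => ⟨u, m, v, hm, rfl, h⟩⟩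
  rintro ⟨u', m', v', hm', e, h⟩
  obtain ⟨rfl, rfl, rfl⟩ := word_inj hm hm' e
  exact h

/-- A rule inside the two ends. -/
theorem inner_step {s₁ s₂ t₁ t₂ : List Γ} {m m' : MLetter Q Γ} (hm : IsMark m) (hm' : IsMark m')
    (hHW : ∀ u v, HaltsFrom M (u ++ s₁) m (s₂ ++ v) ↔ HaltsFrom M (u ++ t₁) m' (t₂ ++ v))
    {x y : List (MLetter Q Γ)}
    (h : Shaped (x ++ (s₁.map sym ++ m :: s₂.map sym) ++ y) ∨
      Shaped (x ++ (t₁.map sym ++ m' :: t₂.map sym) ++ y)) :
    Shaped (x ++ (s₁.map sym ++ m :: s₂.map sym) ++ y) ∧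
      Shaped (x ++ (t₁.map sym ++ m' :: t₂.map sym) ++ y) ∧
      (Halting M (x ++ (s₁.map sym ++ m :: s₂.map sym) ++ y) ↔
        Halting M (x ++ (t₁.map sym ++ m' :: t₂.map sym) ++ y)) := by
  obtain ⟨u0, v0, rfl, rfl⟩ : ∃ u0 v0 : List Γ,
      x = lft :: u0.map sym ∧ y = v0.map sym ++ [rgt] := by
    rcases h with ⟨u, m₀, v, hm₀, e⟩ | ⟨u, m₀, v, hm₀, e⟩
    · obtain ⟨h1, -, h3⟩ := split_word (x := x ++ s₁.map sym) (y := s₂.map sym ++ y) hm hm₀
        (by simpa using e)
      obtain ⟨u0, rfl, -⟩ := split_left h1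
      obtain ⟨v0, rfl, -⟩ := split_right h3
      exact ⟨u0, v0, rfl, rfl⟩
    · obtain ⟨h1, -, h3⟩ := split_word (x := x ++ t₁.map sym) (y := t₂.map sym ++ y) hm' hm₀
        (by simpa using e)
      obtain ⟨u0, rfl, -⟩ := split_left h1
      obtain ⟨v0, rfl, -⟩ := split_right h3
      exact ⟨u0, v0, rfl, rfl⟩
  have e₁ : lft :: u0.map sym ++ (s₁.map sym ++ m :: s₂.map sym) ++ (v0.map sym ++ [rgt]) =
      word (u0 ++ s₁) m (s₂ ++ v0) := by simp [word]
  have e₂ : lft :: u0.map sym ++ (t₁.map sym ++ m' :: t₂.map sym) ++ (v0.map sym ++ [rgt]) =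
      word (u0 ++ t₁) m' (t₂ ++ v0) := by simp [word]
  rw [e₁, e₂, halting_word M hm, halting_word M hm']
  exact ⟨⟨_, m, _, hm, rfl⟩, ⟨_, m', _, hm', rfl⟩, hHW u0 v0⟩

theorem mk_default_nil : ListBlank.mk ([default] : List Γ) = ListBlank.mk [] :=
  (Quotient.sound' (Or.inl ⟨1, rfl⟩)).symm

omit [Inhabited Q] in
theorem cfgOf_pad_right (q : Q) (u : List Γ) : cfgOf q u [default] = cfgOf q u [] := by
  rw [cfgOf, cfgOf, mk_default_nil]

omit [Inhabited Q] in
theorem cfgOf_pad_left (q : Q) (v : List Γ) : cfgOf q [default] v = cfgOf q [] v := by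
  rw [cfgOf, cfgOf, List.reverse_singleton, List.reverse_nil, mk_default_nil]

theorem step_cfgOf_none {q : Q} {a : Γ} (h : M q a = none) (u v : List Γ) :
    TM0.step M (cfgOf q u (a :: v)) = none := by
  simp [TM0.step, cfgOf, ← ListBlank.cons_mk, h]

theorem step_cfgOf_write {q q' : Q} {a b : Γ} (h : M q a = some (q', TM0.Stmt.write b))
    (u v : List Γ) : TM0.step M (cfgOf q u (a :: v)) = some (cfgOf q' u (b :: v)) := by
  simp [TM0.step, cfgOf, ← ListBlank.cons_mk, h]

theorem step_cfgOf_right {q q' : Q} {a : Γ} (h : M q a = some (q', TM0.Stmt.move Dir.right))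
    (u v : List Γ) : TM0.step M (cfgOf q u (a :: v)) = some (cfgOf q' (u ++ [a]) v) := by
  simp [TM0.step, cfgOf, ← ListBlank.cons_mk, h]

theorem step_cfgOf_left {q q' : Q} {a : Γ} (h : M q a = some (q', TM0.Stmt.move Dir.left))
    (c : Γ) (u v : List Γ) :
    TM0.step M (cfgOf q (u ++ [c]) (a :: v)) = some (cfgOf q' u (c :: a :: v)) := by
  simp [TM0.step, cfgOf, ← ListBlank.cons_mk, h]

theorem dom_step {c c' : TM0.Cfg Γ Q} (h : TM0.step M c = some c') :
    (eval (TM0.step M) c).Dom ↔ (eval (TM0.step M) c').Dom := by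
  rw [reaches_eval (Relation.ReflTransGen.single h : Reaches (TM0.step M) c c')]

variable [Fintype Q] [Fintype Γ]

theorem mem_machineRules {p : List (MLetter Q Γ) × List (MLetter Q Γ)} :
    p ∈ machineRules M ↔ ∃ q c a, p ∈ actRules M q c a ∨ p ∈ padRules q a := by
  simp only [machineRules, List.mem_flatMap, Finset.mem_toList, Finset.mem_univ, true_and,
    List.mem_append, Prod.exists]

/-- **The invariant.** -/
theorem step_invariant {w w' : List (MLetter Q Γ)} (h : RewriteStep (machineRules M) w w')
    (hs : Shaped w ∨ Shaped w') : Shaped w ∧ Shaped w' ∧ (Halting M w ↔ Halting M w') := by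
  obtain @⟨x, y, l, r, hlr⟩ := h
  obtain ⟨q, c, a, hlr | hlr⟩ := (mem_machineRules M).1 hlr
  · rcases hq : M q a with _ | ⟨q', d | b⟩
    · simp only [actRules, hq, List.mem_singleton, Prod.mk.injEq] at hlr
      obtain ⟨rfl, rfl⟩ := hlr
      exact inner_step M (s₁ := []) (t₁ := []) (s₂ := [a]) (t₂ := []) (m := st q)
        (m' := .fin) trivial trivial
        (fun u v => iff_of_true (Part.dom_iff_mem.2 ⟨_, mem_eval.2
          ⟨Relation.ReflTransGen.refl, step_cfgOf_none M hq _ _⟩⟩) trivial) hs
    · cases d
      · simp only [actRules, hq, List.mem_singleton, Prod.mk.injEq] at hlr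
        obtain ⟨rfl, rfl⟩ := hlr
        exact inner_step M (s₁ := [c]) (t₁ := []) (s₂ := [a]) (t₂ := [c, a]) (m := st q)
          (m' := st q') trivial trivial
          (fun u v => dom_step M (by simpa using step_cfgOf_left M hq c u v)) hs
      · simp only [actRules, hq, List.mem_singleton, Prod.mk.injEq] at hlr
        obtain ⟨rfl, rfl⟩ := hlr
        exact inner_step M (s₁ := []) (t₁ := [a]) (s₂ := [a]) (t₂ := []) (m := st q)
          (m' := st q') trivial trivial
          (fun u v => dom_step M (by simpa using step_cfgOf_right M hq u v)) hs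
    · simp only [actRules, hq, List.mem_singleton, Prod.mk.injEq] at hlr
      obtain ⟨rfl, rfl⟩ := hlr
      exact inner_step M (s₁ := []) (t₁ := []) (s₂ := [a]) (t₂ := [b]) (m := st q) (m' := st q')
        trivial trivial (fun u v => dom_step M (by simpa using step_cfgOf_write M hq u v)) hs
  · simp only [padRules, List.mem_cons, List.not_mem_nil, or_false, Prod.mk.injEq] at hlr
    rcases hlr with ⟨rfl, rfl⟩ | ⟨rfl, rfl⟩ | ⟨rfl, rfl⟩ | ⟨rfl, rfl⟩
    · obtain ⟨u, rfl, rfl⟩ : ∃ u : List Γ, x = lft :: u.map sym ∧ y = [] := by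
        rcases hs with ⟨u, m₀, v, hm₀, e⟩ | ⟨u, m₀, v, hm₀, e⟩
        · obtain ⟨h1, -, h3⟩ := split_word (x := x) (y := rgt :: y) (m := st q) trivial hm₀
            (by simpa using e)
          cases v <;> simp_all
        · obtain ⟨h1, -, h3⟩ := split_word (x := x) (y := sym default :: rgt :: y) (m := st q)
            trivial hm₀ (by simpa using e)
          rcases v with _ | ⟨b, _ | ⟨b', v⟩⟩ <;> simp_all
      have e₁ : lft :: u.map sym ++ [st q, rgt] ++ [] = word u (st q) [] := by simp [word]
      have e₂ : lft :: u.map sym ++ [st q, sym default, rgt] ++ [] = word u (st q) [default] := by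
        simp [word]
      rw [e₁, e₂, halting_word M (m := st q) trivial, halting_word M (m := st q) trivial]
      exact ⟨⟨_, st q, _, trivial, rfl⟩, ⟨_, st q, _, trivial, rfl⟩,
        by simp [HaltsFrom, cfgOf_pad_right]⟩
    · obtain ⟨v, rfl, rfl⟩ : ∃ v : List Γ, x = [] ∧ y = v.map sym ++ [rgt] := by
        rcases hs with ⟨u, m₀, v, hm₀, e⟩ | ⟨u, m₀, v, hm₀, e⟩
        · obtain ⟨h1, -, h3⟩ := split_word (x := x ++ [lft]) (y := y) (m := st q) trivial hm₀
            (by simpa using e)
          rcases x with _ | ⟨z, x⟩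
          · exact ⟨v, rfl, h3⟩
          · simp at h1
            have : (lft : MLetter Q Γ) ∈ u.map sym := h1.2 ▸ List.mem_append_right _
              List.mem_cons_self
            simp at this
        · obtain ⟨h1, -, h3⟩ := split_word (x := x ++ [lft, sym default]) (y := y) (m := st q)
            trivial hm₀ (by simpa using e)
          rcases x with _ | ⟨z, x⟩
          · exact ⟨v, rfl, h3⟩
          · simp at h1
            have : (lft : MLetter Q Γ) ∈ u.map sym := h1.2 ▸ List.mem_append_right _
              List.mem_cons_self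
            simp at this
      have e₁ : ([] : List (MLetter Q Γ)) ++ [lft, st q] ++ (v.map sym ++ [rgt]) =
          word [] (st q) v := by simp [word]
      have e₂ : ([] : List (MLetter Q Γ)) ++ [lft, sym default, st q] ++ (v.map sym ++ [rgt]) =
          word [default] (st q) v := by simp [word]
      rw [e₁, e₂, halting_word M (m := st q) trivial, halting_word M (m := st q) trivial]
      exact ⟨⟨_, st q, _, trivial, rfl⟩, ⟨_, st q, _, trivial, rfl⟩,
        by simp [HaltsFrom, cfgOf_pad_left]⟩
    · exact inner_step M (s₁ := []) (t₁ := []) (s₂ := [a]) (t₂ := []) (m := .fin) (m' := .fin)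
        trivial trivial (fun u v => Iff.rfl) hs
    · exact inner_step M (s₁ := [a]) (t₁ := []) (s₂ := []) (t₂ := []) (m := .fin) (m' := .fin)
        trivial trivial (fun u v => Iff.rfl) hs

theorem eqvGen_invariant {w w' : List (MLetter Q Γ)}
    (h : Relation.EqvGen (RewriteStep (machineRules M)) w w') :
    Shaped w ∨ Shaped w' → Shaped w ∧ Shaped w' ∧ (Halting M w ↔ Halting M w') := by
  induction h with
  | rel x y h => exact step_invariant M h
  | refl x => exact fun h => ⟨h.elim id id, h.elim id id, Iff.rfl⟩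
  | symm x y _ ih => exact fun h => ⟨(ih h.symm).2.1, (ih h.symm).1, (ih h.symm).2.2.symm⟩
  | trans x y z _ _ ih₁ ih₂ =>
    intro h
    rcases h with h | h
    · obtain ⟨a, b, e⟩ := ih₁ (Or.inl h)
      obtain ⟨-, c, e'⟩ := ih₂ (Or.inl b)
      exact ⟨a, c, e.trans e'⟩
    · obtain ⟨b, c, e'⟩ := ih₂ (Or.inr h)
      obtain ⟨a, -, e⟩ := ih₁ (Or.inr b)
      exact ⟨a, c, e.trans e'⟩

/-- Derivations by the rules. -/
abbrev Derives := Relation.ReflTransGen (RewriteStep (machineRules M))

theorem inner_rule {s₁ s₂ t₁ t₂ : List Γ} {m m' : MLetter Q Γ}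
    (h : (s₁.map sym ++ m :: s₂.map sym, t₁.map sym ++ m' :: t₂.map sym) ∈ machineRules M)
    (u v : List Γ) : Derives M (word (u ++ s₁) m (s₂ ++ v)) (word (u ++ t₁) m' (t₂ ++ v)) := by
  have := RewriteStep.intro (lft :: u.map sym) (v.map sym ++ [rgt]) h
  exact Relation.ReflTransGen.single (by simpa [word] using this)

theorem derives_erase (u v : List Γ) : Derives M (word u .fin v) [lft, .fin, rgt] := by
  induction v generalizing u with
  | nil =>
    induction u using List.reverseRecOn with
    | nil => exact Relation.ReflTransGen.refl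
    | append_singleton u a ih =>
      have h := inner_rule M (s₁ := [a]) (t₁ := []) (s₂ := []) (t₂ := []) (m := .fin) (m' := .fin)
        ((mem_machineRules M).2 ⟨default, a, a, Or.inr (by simp [padRules])⟩) u []
      exact (by simpa using h : Derives M _ _).trans ih
  | cons a v ih =>
    have h := inner_rule M (s₁ := []) (t₁ := []) (s₂ := [a]) (t₂ := []) (m := .fin) (m' := .fin)
      ((mem_machineRules M).2 ⟨default, a, a, Or.inr (by simp [padRules])⟩) u v
    exact (by simpa using h : Derives M _ _).trans (ih u)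

theorem derives_pad_right (q : Q) (u v : List Γ) : ∃ a v',
    cfgOf q u v = cfgOf q u (a :: v') ∧ Derives M (word u (st q) v) (word u (st q) (a :: v')) := by
  cases v with
  | cons a v => exact ⟨a, v, rfl, Relation.ReflTransGen.refl⟩
  | nil =>
    refine ⟨default, [], (cfgOf_pad_right q u).symm, Relation.ReflTransGen.single ?_⟩
    have := RewriteStep.intro (lft :: u.map sym) ([] : List (MLetter Q Γ))
      ((mem_machineRules M).2 ⟨q, default, default, Or.inr (List.mem_cons_self)⟩)
    simpa [word] using this

theorem derives_pad_left (q : Q) (u v : List Γ) : ∃ c u',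
    cfgOf q u v = cfgOf q (u' ++ [c]) v ∧
      Derives M (word u (st q) v) (word (u' ++ [c]) (st q) v) := by
  rcases List.eq_nil_or_concat u with rfl | ⟨u', c, rfl⟩
  · refine ⟨default, [], (cfgOf_pad_left q v).symm, Relation.ReflTransGen.single ?_⟩
    have := RewriteStep.intro ([] : List (MLetter Q Γ)) (v.map sym ++ [rgt])
      ((mem_machineRules M).2 ⟨q, default, default, Or.inr
        (List.mem_cons_of_mem _ List.mem_cons_self)⟩)
    simpa [word] using this
  · rw [List.concat_eq_append]
    exact ⟨c, u', rfl, Relation.ReflTransGen.refl⟩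

/-- **One step is derived.** -/
theorem derives_step (q : Q) (u v : List Γ) :
    (TM0.step M (cfgOf q u v) = none → Derives M (word u (st q) v) [lft, .fin, rgt]) ∧
      ∀ c', TM0.step M (cfgOf q u v) = some c' → ∃ q' u' v',
        c' = cfgOf q' u' v' ∧ Derives M (word u (st q) v) (word u' (st q') v') := by
  obtain ⟨a, v, e, hd⟩ := derives_pad_right M q u v
  rw [e]
  rcases hq : M q a with _ | ⟨q', d | b⟩
  · refine ⟨fun _ => ?_, fun c' h => ?_⟩
    · have h := inner_rule M (s₁ := []) (t₁ := []) (s₂ := [a]) (t₂ := []) (m := st q) (m' := .fin)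
        ((mem_machineRules M).2 ⟨q, a, a, Or.inl (by simp [actRules, hq])⟩) u v
      exact (hd.trans (by simpa using h)).trans (derives_erase M u v)
    · rw [step_cfgOf_none M hq] at h
      exact absurd h (by simp)
  · cases d
    · obtain ⟨c, u', e', hd'⟩ := derives_pad_left M q u (a :: v)
      rw [e', step_cfgOf_left M hq]
      refine ⟨fun h => absurd h (by simp), fun c' h => ⟨q', u', c :: a :: v,
        (Option.some.inj h).symm, (hd.trans hd').trans ?_⟩⟩
      have h := inner_rule M (s₁ := [c]) (t₁ := []) (s₂ := [a]) (t₂ := [c, a]) (m := st q)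
        (m' := st q') ((mem_machineRules M).2 ⟨q, c, a, Or.inl (by simp [actRules, hq])⟩) u' v
      simpa using h
    · rw [step_cfgOf_right M hq]
      refine ⟨fun h => absurd h (by simp), fun c' h => ⟨q', u ++ [a], v,
        (Option.some.inj h).symm, hd.trans ?_⟩⟩
      have h := inner_rule M (s₁ := []) (t₁ := [a]) (s₂ := [a]) (t₂ := []) (m := st q)
        (m' := st q') ((mem_machineRules M).2 ⟨q, a, a, Or.inl (by simp [actRules, hq])⟩) u v
      simpa using h
  · rw [step_cfgOf_write M hq]
    refine ⟨fun h => absurd h (by simp), fun c' h => ⟨q', u, b :: v,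
      (Option.some.inj h).symm, hd.trans ?_⟩⟩
    have h := inner_rule M (s₁ := []) (t₁ := []) (s₂ := [a]) (t₂ := [b]) (m := st q)
      (m' := st q') ((mem_machineRules M).2 ⟨q, a, a, Or.inl (by simp [actRules, hq])⟩) u v
    simpa using h

/-- **Markov and Post.** Halting is derivability, and it is equivalence of words. -/
theorem halts_iff_derives (q : Q) (u v : List Γ) :
    ((eval (TM0.step M) (cfgOf q u v)).Dom ↔ Derives M (word u (st q) v) [lft, .fin, rgt]) ∧
      ((eval (TM0.step M) (cfgOf q u v)).Dom ↔
        Relation.EqvGen (RewriteStep (machineRules M)) (word u (st q) v) [lft, .fin, rgt]) := by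
  have fwd : (eval (TM0.step M) (cfgOf q u v)).Dom →
      Derives M (word u (st q) v) [lft, .fin, rgt] := by
    intro h
    obtain ⟨hreach, hnone⟩ := mem_eval.1 ⟨h, rfl⟩
    suffices hall : ∀ c, Reaches (TM0.step M) c ((eval (TM0.step M) (cfgOf q u v)).get h) →
        ∀ q u v, cfgOf q u v = c → Derives M (word u (st q) v) [lft, .fin, rgt] from
      hall _ hreach q u v rfl
    intro c hc
    induction hc using Relation.ReflTransGen.head_induction_on with
    | refl => exact fun q u v e => (derives_step M q u v).1 (e ▸ hnone)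
    | head hstep _ ih =>
      intro q u v e
      obtain ⟨q', u', v', e', hd⟩ := (derives_step M q u v).2 _ (e ▸ hstep)
      exact hd.trans (ih q' u' v' e'.symm)
  have bwd : Relation.EqvGen (RewriteStep (machineRules M)) (word u (st q) v) [lft, .fin, rgt] →
      (eval (TM0.step M) (cfgOf q u v)).Dom := by
    intro h
    have hw : ([lft, .fin, rgt] : List (MLetter Q Γ)) = word [] .fin [] := rfl
    obtain ⟨-, -, e⟩ := eqvGen_invariant M h (Or.inl ⟨u, st q, v, trivial, rfl⟩)
    rw [hw, halting_word M (m := st q) trivial, halting_word M (m := .fin) trivial] at e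
    exact e.2 trivial
  have mid : Derives M (word u (st q) v) [lft, .fin, rgt] →
      Relation.EqvGen (RewriteStep (machineRules M)) (word u (st q) v) [lft, .fin, rgt] :=
    Relation.EqvGen.reflTransGen_le_eqvGen _ _ _
  exact ⟨⟨fwd, bwd ∘ mid⟩, ⟨mid ∘ fwd, bwd⟩⟩

end FA.Undecidability
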