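import Mathlib.Computability.TuringMachine.ToPartrec
import Mathlib.Computability.TuringMachine.StackTuringMachine
import Mathlib.Computability.TuringMachine.Config
import Mathlib.Computability.Halting
import Mathlib.Computability.PartrecBasis
import Mathlib.Data.Num.Lemmas
import Fermat.Agent.Undecidability.Rewriting

/-!
# A finite machine with an undecidable halting set

The machine runs the partial recursive function which takes `2 ^ n - 1` to the value at zero of
the program with number `n`. Its input for `2 ^ n - 1` is one letter followed by `n` equal letters.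
-/

set_option autoImplicit false

namespace FA.Undecidability

open Turing StateTransition

/-- **A finitely supported machine is a finite machine.** -/
theorem exists_restrict {Γ Λ : Type} [Inhabited Γ] [Inhabited Λ] (M : TM0.Machine Γ Λ)
    (S : Finset Λ) (ss : TM0.Supports M (↑S : Set Λ)) :
    ∃ (Q : Type) (_ : Fintype Q) (_ : Inhabited Q) (M' : TM0.Machine Γ Q),
      ∀ l, (TM0.eval M' l).Dom ↔ (TM0.eval M l).Dom := by
  let : Inhabited {x // x ∈ S} := ⟨⟨default, ss.1⟩⟩
  let M' : TM0.Machine Γ {x // x ∈ S} := fun q a =>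
    match h : M q.1 a with
    | none => none
    | some (q', s) => some (⟨q', ss.2 h q.2⟩, s)
  let tr : TM0.Cfg Γ {x // x ∈ S} → TM0.Cfg Γ Λ := fun c => ⟨c.q.1, c.Tape⟩
  refine ⟨_, inferInstance, inferInstance, M', fun l => ?_⟩
  have H : Respects (TM0.step M') (TM0.step M) fun a b => tr a = b := by
    refine fun_respects.2 fun ⟨q, T⟩ => ?_
    rcases hq : M q.1 T.1 with _ | ⟨q', s⟩
    · have h' : M' q T.1 = none := by grind
      simp [TM0.step, h', FRespects, tr, hq]
    · have h' : M' q T.1 = some (⟨q', ss.2 hq q.2⟩, s) := by grind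
      simp only [TM0.step, h', FRespects, Option.map_some]
      exact Relation.TransGen.single (by simp [tr, TM0.step, hq])
  exact (tr_eval_dom (a₁ := TM0.init l) (a₂ := TM0.init l) H rfl).symm

instance : Fintype PartrecToTM2.K' :=
  ⟨{.main, .rev, .aux, .stack}, fun k => by cases k <;> simp⟩

/-- The letters of the tape. -/
abbrev TapeLetter := TM2to1.Γ' PartrecToTM2.K' fun _ => PartrecToTM2.Γ'

/-- **A code is run by a finite machine.** -/
theorem exists_machine (c : ToPartrec.Code) :
    ∃ (Q : Type) (_ : Fintype Q) (_ : Inhabited Q) (M : TM0.Machine TapeLetter Q),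
      ∀ v, (TM0.eval M (TM2to1.trInit PartrecToTM2.K'.main (PartrecToTM2.trList v))).Dom ↔
        (c.eval v).Dom := by
  classical
  let iL : Inhabited PartrecToTM2.Λ' :=
    ⟨PartrecToTM2.trNormal c PartrecToTM2.Cont'.halt⟩
  have h1 := PartrecToTM2.tr_supports c PartrecToTM2.Cont'.halt
  have h2 := TM2to1.tr_supports PartrecToTM2.tr h1
  have h3 := TM1to0.tr_supports (TM2to1.tr PartrecToTM2.tr) h2
  obtain ⟨Q, iF, iI, M, hM⟩ := exists_restrict _ _ h3
  refine ⟨Q, iF, iI, M, fun v => ?_⟩
  rw [hM, TM1to0.tr_eval]
  refine (TM2to1.tr_eval_dom _ _ _).trans ?_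
  have e : TM2.init PartrecToTM2.K'.main (PartrecToTM2.trList v) = PartrecToTM2.init c v := by
    refine congrArg (TM2.Cfg.mk (some _) none) (funext fun k => ?_)
    cases k <;> rfl
  change (StateTransition.eval (TM2.step PartrecToTM2.tr) (TM2.init _ _)).Dom ↔ _
  rw [e, PartrecToTM2.tr_eval]
  rfl

theorem trNat_bit1 (m : ℕ) :
    PartrecToTM2.trNat (2 * m + 1) = PartrecToTM2.Γ'.bit1 :: PartrecToTM2.trNat m := by
  have e : ((2 * m + 1 : ℕ) : Num) = (m : Num).bit1 := by
    rw [← Num.to_nat_inj]
    cases h : (m : Num) with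
    | zero =>
      have : m = 0 := by simpa using congrArg (fun x : Num => (x : ℕ)) h
      subst this
      rfl
    | pos p =>
      have hm : m = (p : ℕ) := by simpa using congrArg (fun x : Num => (x : ℕ)) h
      rw [Num.to_of_nat, hm]
      simp [Num.bit1, PosNum.cast_bit1, two_mul]
  rw [PartrecToTM2.trNat, PartrecToTM2.trNat, e]
  cases (m : Num) <;> rfl

theorem trNat_ones : ∀ n : ℕ,
    PartrecToTM2.trNat (2 ^ n - 1) = List.replicate n PartrecToTM2.Γ'.bit1
  | 0 => by simp
  | n + 1 => by
    rw [show 2 ^ (n + 1) - 1 = 2 * (2 ^ n - 1) + 1 by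
      have := Nat.two_pow_pos n; omega, trNat_bit1, trNat_ones n, List.replicate_succ]

/-- The cell of the bottom of the stack with a separator. -/
def cellHead : TapeLetter :=
  (true, Function.update (fun _ => none) PartrecToTM2.K'.main (some PartrecToTM2.Γ'.cons))

/-- The cell of a digit one. -/
def cellOne : TapeLetter :=
  (false, Function.update (fun _ => none) PartrecToTM2.K'.main (some PartrecToTM2.Γ'.bit1))

theorem trInit_ones (n : ℕ) :
    TM2to1.trInit PartrecToTM2.K'.main (PartrecToTM2.trList [2 ^ n - 1]) =
      cellHead :: List.replicate n cellOne := by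
  simp only [TM2to1.trInit, PartrecToTM2.trList, trNat_ones, cellHead, cellOne,
    List.reverse_append, List.reverse_cons, List.reverse_nil, List.nil_append,
    List.singleton_append, List.reverse_replicate]
  exact congrArg₂ List.cons rfl List.map_replicate

theorem primrec_two_pow : Primrec fun i : ℕ => 2 ^ i :=
  ((Primrec.nat_rec₁ 1 (Primrec.nat_mul.comp (Primrec.const 2) Primrec.snd).to₂)).of_eq fun i => by
    induction i with
    | zero => rfl
    | succ i ih => simp only [ih, pow_succ']

/-- **A finite machine runs every program.** It halts on the input with `n` ones if and only if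
the program with number `n` has a value at zero. -/
theorem exists_universal_machine :
    ∃ (Q : Type) (_ : Fintype Q) (_ : Inhabited Q) (M : TM0.Machine TapeLetter Q),
      ∀ n, (StateTransition.eval (TM0.step M)
        (cfgOf default [] (cellHead :: List.replicate n cellOne))).Dom ↔
        (Nat.Partrec.Code.eval (Denumerable.ofNat Nat.Partrec.Code n) 0).Dom := by
  set k : ℕ → ℕ := fun m => (m + 1).findGreatest fun i => 2 ^ i ≤ m + 1 with hk
  have hkp : Primrec k := Primrec.nat_findGreatest Primrec.succ
    (Primrec.nat_le.comp₂ (primrec_two_pow.comp Primrec.snd).to₂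
      (Primrec.succ.comp Primrec.fst).to₂)
  have hkn : ∀ n, k (2 ^ n - 1) = n := by
    intro n
    have h0 := Nat.two_pow_pos n
    rw [hk, Nat.findGreatest_eq_iff]
    have := Nat.lt_two_pow_self (n := n)
    refine ⟨by omega, fun _ => by omega, fun i hi _ h => ?_⟩
    have := Nat.pow_lt_pow_right Nat.one_lt_two hi
    omega
  set g : ℕ →. ℕ := fun m => Nat.Partrec.Code.eval (Denumerable.ofNat Nat.Partrec.Code (k m)) 0
    with hg
  have hgp : Partrec g := Nat.Partrec.Code.eval_part.comp
    ((Computable.ofNat _).comp hkp.to_comp) (Computable.const 0)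
  obtain ⟨c, hc⟩ := ToPartrec.Code.exists_code (Nat.Partrec'.part_iff₁.2 hgp)
  obtain ⟨Q, iF, iI, M, hM⟩ := exists_machine c
  refine ⟨Q, iF, iI, M, fun n => ?_⟩
  have h1 := hM [2 ^ n - 1]
  rw [trInit_ones] at h1
  have h2 : c.eval [2 ^ n - 1] = pure <$> g (2 ^ n - 1) := hc ⟨[2 ^ n - 1], rfl⟩
  rw [h2, hg] at h1
  simp only [hkn] at h1
  exact h1

/-- **Turing.** A finite machine with an undecidable halting set. -/
theorem exists_undecidable_machine :
    ∃ (Q : Type) (_ : Fintype Q) (_ : Inhabited Q) (M : TM0.Machine TapeLetter Q),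
      ¬ComputablePred fun n => (StateTransition.eval (TM0.step M)
        (cfgOf default [] (cellHead :: List.replicate n cellOne))).Dom := by
  obtain ⟨Q, iF, iI, M, key⟩ := exists_universal_machine
  refine ⟨Q, iF, iI, M, fun h => ComputablePred.halting_problem 0 ?_⟩
  obtain ⟨f, hf, e⟩ := ComputablePred.computable_iff.1 h
  refine ComputablePred.computable_iff.2
    ⟨fun p => f (Encodable.encode p), hf.comp Computable.encode, funext fun p => propext ?_⟩
  have h3 := (key (Encodable.encode p)).symm.trans (iff_of_eq (congrFun e (Encodable.encode p)))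
  rwa [Denumerable.ofNat_encode] at h3

end FA.Undecidability
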