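import Fermat.Agent.Undecidability.FinitelyPresented

/-!
# A tower of HNN extensions

If stable letters conjugate ranges of endomorphisms of `K` which treat a subgroup `T` alike, the
subgroup generated by `T` and these letters meets `K` in `T` (Britton). One more letter centralising
that subgroup then commutes with an element of `K` if and only if it lies in `T`.
-/

set_option autoImplicit false

namespace FA.Undecidability

open HNNExtension

variable {G : Type*} [Group G] {A B : Subgroup G} {φ : A ≃* B}

/-- Products of reduced words with all letters in `P`. -/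
theorem exists_reduced_inside {P : Subgroup G} (hP : ∀ a : A, (a : G) ∈ P ↔ (φ a : G) ∈ P)
    {x : HNNExtension G A B φ} (h : x ∈ Subgroup.closure (of '' (P : Set G) ∪ {t})) :
    ∃ w : NormalWord.ReducedWord G A B,
      w.prod φ = x ∧ w.head ∈ P ∧ ∀ p ∈ w.toList, p.2 ∈ P := by
  have hu : ∀ (u : ℤˣ) (w : NormalWord.ReducedWord G A B), w.head ∈ P →
      (∀ p ∈ w.toList, p.2 ∈ P) → ∃ w' : NormalWord.ReducedWord G A B,
      w'.prod φ = t ^ (u : ℤ) * w.prod φ ∧ w'.head ∈ P ∧ ∀ p ∈ w'.toList, p.2 ∈ P := by
    rintro u ⟨h₀, l, hc⟩ h0 hl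
    by_cases hcan : h₀ ∈ toSubgroup A B u ∧ ∃ g l', l = (-u, g) :: l'
    · obtain ⟨hmem, g, l', rfl⟩ := hcan
      refine ⟨⟨(toSubgroupEquiv φ u ⟨h₀, hmem⟩ : G) * g, l', (List.isChain_cons.1 hc).2⟩, ?_,
        mul_mem ?_ (hl _ List.mem_cons_self), fun p hp => hl p (List.mem_cons_of_mem _ hp)⟩
      · rcases Int.units_eq_one_or u with rfl | rfl
        · have := t_mul_of (φ := φ) ⟨h₀, hmem⟩
          simp only [NormalWord.ReducedWord.prod, List.map_cons, List.prod_cons, map_mul,
            Units.val_neg, Units.val_one, zpow_neg, zpow_one, toSubgroupEquiv_one, mul_assoc]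
          rw [← mul_assoc t, this]
          simp [mul_assoc]
          rfl
        · have := inv_t_mul_of (φ := φ) ⟨h₀, hmem⟩
          simp only [NormalWord.ReducedWord.prod, List.map_cons, List.prod_cons, map_mul,
            Units.val_neg, Units.val_one, zpow_neg, zpow_one, mul_assoc, neg_neg]
          rw [← mul_assoc t⁻¹, this]
          simp [mul_assoc]
          rfl
      · rcases Int.units_eq_one_or u with rfl | rfl
        · exact (hP ⟨h₀, hmem⟩).1 h0
        · exact (hP (φ.symm ⟨h₀, hmem⟩)).2 (by simpa using h0)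
    · refine ⟨⟨1, (u, h₀) :: l, List.isChain_cons.2 ⟨?_, hc⟩⟩, ?_, one_mem _,
        List.forall_mem_cons.2 ⟨h0, hl⟩⟩
      · rintro ⟨u', g⟩ hu' hmem
        by_contra hne
        refine hcan ⟨hmem, g, l.tail, ?_⟩
        cases l with
        | nil => simp at hu'
        | cons p l' =>
          obtain rfl : p = (u', g) := by simpa using hu'
          have hne' : u ≠ u' := hne
          simp [Int.units_ne_iff_eq_neg.1 hne'.symm]
      · simp [NormalWord.ReducedWord.prod, mul_assoc]
  induction h using Subgroup.closure_induction_left with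
  | one =>
    exact ⟨NormalWord.ReducedWord.empty G A B, by simp [NormalWord.ReducedWord.prod], one_mem P,
      by simp⟩
  | mul_left y hy z _ ih =>
    obtain ⟨w, rfl, h0, hl⟩ := ih
    rcases hy with ⟨p, hp, rfl⟩ | rfl
    · exact ⟨⟨p * w.head, w.toList, w.chain⟩, by simp [NormalWord.ReducedWord.prod, mul_assoc],
        mul_mem hp h0, hl⟩
    · simpa using hu 1 w h0 hl
  | inv_mul_cancel y hy z _ ih =>
    obtain ⟨w, rfl, h0, hl⟩ := ih
    rcases hy with ⟨p, hp, rfl⟩ | rfl
    · exact ⟨⟨p⁻¹ * w.head, w.toList, w.chain⟩, by simp [NormalWord.ReducedWord.prod, mul_assoc],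
        mul_mem (inv_mem hp) h0, hl⟩
    · simpa using hu (-1) w h0 hl

/-- The stable letter adds nothing inside the base group. -/
theorem closure_inter_base {P : Subgroup G} (hP : ∀ a : A, (a : G) ∈ P ↔ (φ a : G) ∈ P) {g : G}
    (h : (of g : HNNExtension G A B φ) ∈ Subgroup.closure (of '' (P : Set G) ∪ {t})) : g ∈ P := by
  obtain ⟨w, hw, h0, -⟩ := exists_reduced_inside hP h
  have hnil := ReducedWord.toList_eq_nil_of_mem_of_range φ w ⟨g, hw.symm⟩
  rw [NormalWord.ReducedWord.prod, hnil] at hw
  exact of_injective φ (by simpa using hw) ▸ h0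

/-- The letter centralising `P` commutes with nothing else in the base group. -/
theorem commute_stable_iff {P : Subgroup G} (g : G) :
    Commute (t : HNNExtension G P P (MulEquiv.refl P)) (of g) ↔ g ∈ P := by
  constructor
  · intro h
    by_contra hg
    let w : NormalWord.ReducedWord G P P :=
      ⟨1, [(1, g), (-1, g⁻¹)], by simp [hg]⟩
    have hw : w.prod (MulEquiv.refl P) = 1 := by
      simp [w, NormalWord.ReducedWord.prod, ← mul_assoc, h.eq]
    have := ReducedWord.toList_eq_nil_of_mem_of_range _ w (hw ▸ one_mem _)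
    simp [w] at this
  · exact fun hg => t_mul_of (φ := MulEquiv.refl P) ⟨g, hg⟩

/-- Endomorphisms to be conjugated, with the subgroup treated alike. -/
def Compatible {K : Type} [Group K] (T : Subgroup K) (f g : K →* K) : Prop :=
  Function.Injective f ∧ Function.Injective g ∧ T.comap f = T.comap g

/-- **The tower.** -/
theorem exists_tower {K : Type} [Group K] (T : Subgroup K) :
    ∀ {n : ℕ} (f g : Fin n → K →* K), (∀ i, Compatible T (f i) (g i)) →
      ∃ (G : Type) (_ : Group G) (ι : K →* G) (r : Fin n → G), Function.Injective ι ∧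
        (∀ i z, r i * ι (f i z) = ι (g i z) * r i) ∧
        (Group.IsFinitelyPresented K → Group.IsFinitelyPresented G) ∧
        ∀ z, ι z ∈ Subgroup.closure (ι '' (T : Set K) ∪ Set.range r) → z ∈ T := by
  intro n
  induction n with
  | zero =>
    intro f g _
    refine ⟨K, inferInstance, MonoidHom.id K, Fin.elim0, Function.injective_id, fun i => i.elim0,
      id, fun z hz => ?_⟩
    simpa [Set.range_eq_empty, Subgroup.closure_eq] using hz
  | succ n ih =>
    intro f g hc
    obtain ⟨G, _, ι, r, hι, hr, hfp, hT⟩ := ih (fun i => f i.castSucc) (fun i => g i.castSucc)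
      fun i => hc _
    obtain ⟨hf, hg, hfg⟩ := hc (Fin.last n)
    have hA : Function.Injective (ι.comp (f (Fin.last n))) := hι.comp hf
    have hB : Function.Injective (ι.comp (g (Fin.last n))) := hι.comp hg
    let φ := (MonoidHom.ofInjective hA).symm.trans (MonoidHom.ofInjective hB)
    let P := Subgroup.closure (ι '' (T : Set K) ∪ Set.range r)
    have hιT : ∀ z, ι z ∈ P ↔ z ∈ T :=
      fun z => ⟨hT z, fun h => Subgroup.subset_closure (Or.inl ⟨z, h, rfl⟩)⟩
    have hP : ∀ a : (ι.comp (f (Fin.last n))).range, (a : G) ∈ P ↔ (φ a : G) ∈ P := by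
      intro a
      obtain ⟨z, rfl⟩ := (MonoidHom.ofInjective hA).surjective a
      simp only [φ, MulEquiv.trans_apply, MulEquiv.symm_apply_apply, MonoidHom.ofInjective_apply,
        MonoidHom.comp_apply, hιT]
      exact SetLike.ext_iff.1 hfg z
    refine ⟨HNNExtension G _ _ φ, inferInstance, of.comp ι,
      Fin.snoc (fun i => of (r i)) t, (of_injective φ).comp hι, ?_,
      fun hK => fp_hnn (hfp hK) φ (fg_range hK _), fun z hz => ?_⟩
    · intro i z
      induction i using Fin.lastCases with
      | last =>
        have := t_mul_of (φ := φ) (MonoidHom.ofInjective hA z)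
        simpa [φ, MonoidHom.ofInjective_apply] using this
      | cast i => simp [← map_mul, hr]
    · refine hT z (closure_inter_base hP ?_)
      refine Subgroup.closure_mono ?_ hz
      rintro _ (⟨y, hy, rfl⟩ | ⟨i, rfl⟩)
      · exact Or.inl ⟨ι y, Subgroup.subset_closure (Or.inl ⟨y, hy, rfl⟩), rfl⟩
      · induction i using Fin.lastCases with
        | last => simp
        | cast i => exact Or.inl ⟨r i, Subgroup.subset_closure (Or.inr ⟨i, rfl⟩), by simp⟩

/-- **A letter which commutes exactly with `T`.** -/
theorem exists_detector {K : Type} [Group K] (T : Subgroup K) {n : ℕ} (f g : Fin n → K →* K)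
    (hc : ∀ i, Compatible T (f i) (g i)) :
    ∃ (G : Type) (_ : Group G) (ι : K →* G) (r : Fin n → G) (k : G),
      (∀ i z, r i * ι (f i z) = ι (g i z) * r i) ∧ (∀ i, Commute k (r i)) ∧
        ∀ z, Commute k (ι z) ↔ z ∈ T := by
  obtain ⟨G, _, ι, r, -, hr, -, hT⟩ := exists_tower T f g hc
  let P := Subgroup.closure (ι '' (T : Set K) ∪ Set.range r)
  refine ⟨HNNExtension G P P (MulEquiv.refl P), inferInstance, of.comp ι, fun i => of (r i), t,
    fun i z => by simp [← map_mul, hr],
    fun i => (commute_stable_iff _).2 (Subgroup.subset_closure (Or.inr ⟨i, rfl⟩)), fun z => ?_⟩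
  exact (commute_stable_iff _).trans
    ⟨hT z, fun h => Subgroup.subset_closure (Or.inl ⟨z, h, rfl⟩)⟩

end FA.Undecidability
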