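import Mathlib.GroupTheory.FreeGroup.Reduce
import Mathlib.GroupTheory.SemidirectProduct
import Mathlib.Algebra.Group.Int.TypeTags
import Mathlib.Algebra.Group.TypeTags.Hom
import Mathlib.Algebra.Group.Prod
import Mathlib.Algebra.Ring.Int.Defs
import Mathlib.Tactic.Ring
import Fermat.Agent.Undecidability.Tower

/-!
# The group `⟨x, y, t | x y = y x⟩`

It is the free group on the points `t(u, v) = x^u y^v t y^(-v) x^(-u)` extended by the plane. A
dilation of the plane followed by a translation induces an injective endomorphism, and two of them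
treat the subgroup of a set of points alike when the preimages of the set agree.
-/

set_option autoImplicit false

namespace FA.Undecidability

open SemidirectProduct Multiplicative

/-- Translations of the plane on the free group. -/
def shiftAction : Multiplicative (ℤ × ℤ) →* MulAut (FreeGroup (ℤ × ℤ)) where
  toFun v := FreeGroup.freeGroupCongr (Equiv.addLeft v.toAdd)
  map_one' := MulEquiv.ext fun w => by
    change FreeGroup.map (fun x : ℤ × ℤ => 0 + x) w = w
    simp only [zero_add]
    exact FreeGroup.map.id w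
  map_mul' v w := MulEquiv.ext fun z => by
    change FreeGroup.map (fun x : ℤ × ℤ => v.toAdd + w.toAdd + x) z =
      FreeGroup.map (fun x => v.toAdd + x) (FreeGroup.map (fun x => w.toAdd + x) z)
    rw [FreeGroup.map.comp]
    simp only [Function.comp_def, add_assoc]

/-- The group of the plane. -/
abbrev PlaneGroup := FreeGroup (ℤ × ℤ) ⋊[shiftAction] Multiplicative (ℤ × ℤ)

/-- The point letter. -/
def pointLetter (P : ℤ × ℤ) : PlaneGroup := inl (FreeGroup.of P)

theorem pointLetter_eq (P : ℤ × ℤ) :
    pointLetter P = inr (ofAdd P) * pointLetter 0 * (inr (ofAdd P))⁻¹ := by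
  rw [← map_inv, pointLetter, pointLetter, ← inl_aut]
  change _ = inl (FreeGroup.map (fun x => P + x) (FreeGroup.of 0))
  rw [FreeGroup.map.of, add_zero]

/-- A dilation and a translation. -/
structure PlaneMap where
  base : ℤ × ℤ
  dil : ℤ × ℤ

/-- The value at a point. -/
def PlaneMap.app (F : PlaneMap) (P : ℤ × ℤ) : ℤ × ℤ :=
  (F.base.1 + F.dil.1 * P.1, F.base.2 + F.dil.2 * P.2)

/-- The linear part. -/
def PlaneMap.lin (F : PlaneMap) : Multiplicative (ℤ × ℤ) →* Multiplicative (ℤ × ℤ) :=
  AddMonoidHom.toMultiplicative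
    { toFun := fun P => (F.dil.1 * P.1, F.dil.2 * P.2)
      map_zero' := by simp
      map_add' := fun P Q => by simp [mul_add] }

/-- The induced endomorphism. -/
def PlaneMap.hom (F : PlaneMap) : PlaneGroup →* PlaneGroup :=
  SemidirectProduct.lift (inl.comp (FreeGroup.map F.app)) (inr.comp F.lin) fun v => by
    refine FreeGroup.ext_hom _ _ fun P => ?_
    change inl (FreeGroup.map F.app (FreeGroup.map (fun x => v.toAdd + x) (FreeGroup.of P))) =
      inr (F.lin v) * inl (FreeGroup.map F.app (FreeGroup.of P)) * (inr (F.lin v))⁻¹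
    rw [← map_inv, ← inl_aut, FreeGroup.map.of, FreeGroup.map.of, FreeGroup.map.of]
    change _ = inl (FreeGroup.map (fun x => (F.lin v).toAdd + x) (FreeGroup.of _))
    rw [FreeGroup.map.of]
    refine congrArg (fun z => inl (FreeGroup.of z)) (Prod.ext ?_ ?_) <;>
      simp [PlaneMap.app, PlaneMap.lin] <;> ring

theorem PlaneMap.hom_apply (F : PlaneMap) (z : PlaneGroup) :
    F.hom z = ⟨FreeGroup.map F.app z.left, F.lin z.right⟩ :=
  (mk_eq_inl_mul_inr _ _).symm

theorem PlaneMap.hom_pointLetter (F : PlaneMap) (P : ℤ × ℤ) :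
    F.hom (pointLetter P) = pointLetter (F.app P) := by
  simp [PlaneMap.hom, pointLetter]

theorem PlaneMap.hom_inr (F : PlaneMap) (P : ℤ × ℤ) :
    F.hom (inr (ofAdd P)) = inr (ofAdd (F.dil.1 * P.1, F.dil.2 * P.2)) :=
  (SemidirectProduct.lift_inr _ _ _ _).trans rfl

/-- Both dilations are nonzero. -/
def PlaneMap.Nondeg (F : PlaneMap) : Prop := F.dil.1 ≠ 0 ∧ F.dil.2 ≠ 0

theorem PlaneMap.app_injective {F : PlaneMap} (h : F.Nondeg) : Function.Injective F.app := by
  intro P Q e
  simp only [PlaneMap.app, Prod.mk.injEq, add_right_inj, mul_eq_mul_left_iff, h.1, h.2,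
    or_false] at e
  exact Prod.ext e.1 e.2

theorem PlaneMap.lin_injective {F : PlaneMap} (h : F.Nondeg) : Function.Injective F.lin := by
  intro P Q e
  have e' : (F.dil.1 * P.toAdd.1, F.dil.2 * P.toAdd.2) =
      (F.dil.1 * Q.toAdd.1, F.dil.2 * Q.toAdd.2) := congrArg Multiplicative.toAdd e
  simp only [Prod.mk.injEq, mul_eq_mul_left_iff, h.1, h.2, or_false] at e'
  exact Multiplicative.toAdd.injective (Prod.ext e'.1 e'.2)

theorem PlaneMap.hom_injective {F : PlaneMap} (h : F.Nondeg) : Function.Injective F.hom := by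
  intro z w e
  rw [F.hom_apply, F.hom_apply] at e
  exact SemidirectProduct.ext
    (FreeGroup.map_injective (PlaneMap.app_injective h) (congrArg SemidirectProduct.left e))
    (PlaneMap.lin_injective h (congrArg SemidirectProduct.right e))

open scoped Classical in
/-- The letters outside `S` are deleted. -/
noncomputable def keepIn {α : Type*} (S : Set α) : FreeGroup α →* FreeGroup α :=
  FreeGroup.lift fun P => if P ∈ S then FreeGroup.of P else 1

theorem keepIn_map {α β : Type*} (f : α → β) (S : Set β) (w : FreeGroup α) :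
    keepIn S (FreeGroup.map f w) = FreeGroup.map f (keepIn (f ⁻¹' S) w) := by
  refine DFunLike.congr_fun (f := (keepIn S).comp (FreeGroup.map f))
    (g := (FreeGroup.map f).comp (keepIn (f ⁻¹' S))) ?_ w
  ext a
  by_cases h : f a ∈ S <;> simp [keepIn, h]

/-- The subgroup of a set of points. -/
noncomputable def pointSubgroup (S : Set (ℤ × ℤ)) : Subgroup PlaneGroup :=
  ((keepIn S).eqLocus (MonoidHom.id _)).map inl

theorem mem_pointSubgroup {S : Set (ℤ × ℤ)} {z : PlaneGroup} :
    z ∈ pointSubgroup S ↔ keepIn S z.left = z.left ∧ z.right = 1 := by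
  constructor
  · rintro ⟨w, hw, rfl⟩
    exact ⟨hw, rfl⟩
  · rintro ⟨h1, h2⟩
    exact ⟨z.left, h1, SemidirectProduct.ext rfl h2.symm⟩

theorem pointLetter_mem_iff {S : Set (ℤ × ℤ)} {P : ℤ × ℤ} :
    pointLetter P ∈ pointSubgroup S ↔ P ∈ S := by
  rw [mem_pointSubgroup]
  by_cases h : P ∈ S <;> simp [pointLetter, keepIn, h, eq_comm (a := (1 : FreeGroup (ℤ × ℤ))),
    FreeGroup.of_ne_one]

theorem comap_hom {F : PlaneMap} (h : F.Nondeg) (S : Set (ℤ × ℤ)) :
    (pointSubgroup S).comap F.hom = pointSubgroup (F.app ⁻¹' S) := by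
  ext z
  rw [Subgroup.mem_comap, mem_pointSubgroup, mem_pointSubgroup, F.hom_apply]
  refine and_congr ?_ ?_
  · rw [keepIn_map]
    exact (FreeGroup.map_injective (PlaneMap.app_injective h)).eq_iff
  · exact (PlaneMap.lin_injective h).eq_iff' (map_one _)

theorem compatible_hom {F F' : PlaneMap} (h : F.Nondeg) (h' : F'.Nondeg) {S : Set (ℤ × ℤ)}
    (e : ∀ P, F.app P ∈ S ↔ F'.app P ∈ S) : Compatible (pointSubgroup S) F.hom F'.hom :=
  ⟨PlaneMap.hom_injective h, PlaneMap.hom_injective h', by
    rw [comap_hom h, comap_hom h', show F.app ⁻¹' S = F'.app ⁻¹' S from Set.ext e]⟩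

end FA.Undecidability
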