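import Mathlib.Data.Nat.Digits.Defs
import Mathlib.Data.Fintype.EquivFin
import Mathlib.Logic.Equiv.Fin.Basic
import Mathlib.Tactic.Ring
import Mathlib.Tactic.Linarith
import Fermat.Agent.Undecidability.HaltingMachine
import Fermat.Agent.Undecidability.PlaneGroup

/-!
# Turing machines as affine maps of the plane

A configuration becomes the point (state and left half in base `m`, right half in base `m`). The
rules are pairs of dilations with translations; the points from which the machine halts are the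
smallest set containing the origin which every rule preserves in both directions.
-/

set_option autoImplicit false

namespace FA.Undecidability

open Turing StateTransition

/-- Numbers for the states and the letters; the number zero is kept for halting. -/
structure MachineCode (Q Γ : Type) [Inhabited Γ] where
  n : ℕ
  m : ℕ
  sq : Q → ℕ
  dg : Γ → ℕ
  un : ℕ → Γ
  one_lt : 1 < m
  sq_pos : ∀ q, 0 < sq q
  sq_lt : ∀ q, sq q < n
  sq_inj : Function.Injective sq
  dg_lt : ∀ a, dg a < m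
  un_dg : ∀ a, un (dg a) = a
  dg_un : ∀ i < m, dg (un i) = i
  dg_default : dg default = 0

variable {Q Γ : Type} [Inhabited Q] [Inhabited Γ] (C : MachineCode Q Γ) (M : TM0.Machine Γ Q)

omit [Inhabited Q] in
theorem MachineCode.exists_code [Fintype Q] [Fintype Γ] [Nontrivial Γ] :
    Nonempty (MachineCode Q Γ) := by
  classical
  have : NeZero (Fintype.card Γ) := ⟨Fintype.card_ne_zero⟩
  let e := (Fintype.equivFin Γ).trans (Equiv.swap (Fintype.equivFin Γ default) 0)
  exact ⟨{
    n := Fintype.card Q + 1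
    m := Fintype.card Γ
    sq := fun q => (Fintype.equivFin Q q).1 + 1
    dg := fun a => (e a).1
    un := fun i => if h : i < Fintype.card Γ then e.symm ⟨i, h⟩ else default
    one_lt := Fintype.one_lt_card
    sq_pos := fun q => Nat.succ_pos _
    sq_lt := fun q => Nat.succ_lt_succ (Fintype.equivFin Q q).2
    sq_inj := fun q q' h => (Fintype.equivFin Q).injective (Fin.ext (Nat.succ_injective h))
    dg_lt := fun a => (e a).2
    un_dg := fun a => by simp
    dg_un := fun i hi => by simp [hi]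
    dg_default := by simp [e] }⟩

/-- The half tape of a number. -/
def MachineCode.blankOf (N : ℕ) : ListBlank Γ := ListBlank.mk ((Nat.digits C.m N).map C.un)

omit [Inhabited Q] in
theorem MachineCode.blankOf_add {a : ℕ} (ha : a < C.m) (X : ℕ) :
    C.blankOf (a + C.m * X) = ListBlank.cons (C.un a) (C.blankOf X) := by
  rw [MachineCode.blankOf, MachineCode.blankOf, ListBlank.cons_mk]
  rcases Nat.eq_zero_or_pos (a + X) with h | h
  · obtain ⟨rfl, rfl⟩ : a = 0 ∧ X = 0 := by omega
    have h0 : C.un 0 = default := by rw [← C.dg_default, C.un_dg]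
    simp [h0, mk_default_nil]
  · rw [Nat.digits_add C.m C.one_lt a X ha (by omega), List.map_cons]

/-- The configuration of numbers. -/
def MachineCode.cfg (q : Q) (L R : ℕ) : TM0.Cfg Γ Q :=
  ⟨q, Tape.mk' (C.blankOf L) (C.blankOf R)⟩

/-- The machine halts, or has halted. -/
def MachineCode.Good (s L R : ℕ) : Prop :=
  s = 0 ∨ ∃ q, C.sq q = s ∧ (eval (TM0.step M) (C.cfg q L R)).Dom

theorem MachineCode.good_sq (q : Q) (L R : ℕ) :
    C.Good M (C.sq q) L R ↔ (eval (TM0.step M) (C.cfg q L R)).Dom := by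
  refine ⟨?_, fun h => Or.inr ⟨q, rfl, h⟩⟩
  rintro (h | ⟨q', e, h⟩)
  · exact absurd h (C.sq_pos q).ne'
  · rwa [← C.sq_inj e]

/-- The points from which the machine halts. -/
def MachineCode.haltSet : Set (ℤ × ℤ) :=
  {P | ∃ s L R : ℕ, s < C.n ∧ P = ((s : ℤ) + C.n * L, (R : ℤ)) ∧ C.Good M s L R}

theorem MachineCode.mem_haltSet {s : ℕ} (hs : s < C.n) (L R : ℤ) :
    ((s : ℤ) + C.n * L, R) ∈ C.haltSet M ↔
      ∃ L' R' : ℕ, L = L' ∧ R = R' ∧ C.Good M s L' R' := by
  constructor
  · rintro ⟨s', L', R', hs', e, h⟩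
    simp only [Prod.mk.injEq] at e
    have hn : (0 : ℤ) < C.n := by omega
    have h1 : ((s : ℤ) + C.n * L) % C.n = s := by
      rw [Int.add_mul_emod_self_left, Int.emod_eq_of_lt (by omega) (by omega)]
    have h2 : ((s' : ℤ) + C.n * L') % C.n = s' := by
      rw [Int.add_mul_emod_self_left, Int.emod_eq_of_lt (by omega) (by omega)]
    rw [e.1, h2] at h1
    obtain rfl : s' = s := by exact_mod_cast h1
    exact ⟨L', R', mul_left_cancel₀ hn.ne' (by linarith [e.1]), e.2, h⟩
  · rintro ⟨L', R', rfl, rfl, h⟩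
    exact ⟨s, L', R', hs, rfl, h⟩

theorem digit_split {a m : ℕ} (ha : a < m) {X : ℤ} {Y : ℕ} (h : (a : ℤ) + m * X = Y) :
    ∃ X' : ℕ, X = X' ∧ Y = a + m * X' := by
  have h0 : 0 ≤ X := by
    by_contra hX
    have : (m : ℤ) * X ≤ m * (-1) := Int.mul_le_mul_of_nonneg_left (by omega) (by omega)
    omega
  obtain ⟨X', rfl⟩ := Int.eq_ofNat_of_zero_le h0
  exact ⟨X', rfl, by exact_mod_cast h.symm⟩

theorem MachineCode.mem_right {s a : ℕ} (hs : s < C.n) (ha : a < C.m) (L R : ℤ) :
    ((s : ℤ) + C.n * L, (a : ℤ) + C.m * R) ∈ C.haltSet M ↔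
      ∃ L' R' : ℕ, L = L' ∧ R = R' ∧ C.Good M s L' (a + C.m * R') := by
  rw [C.mem_haltSet M hs]
  constructor
  · rintro ⟨L', Y, hL, hR, h⟩
    obtain ⟨R', rfl, rfl⟩ := digit_split ha hR
    exact ⟨L', R', hL, rfl, h⟩
  · rintro ⟨L', R', rfl, rfl, h⟩
    exact ⟨L', _, rfl, by push_cast; ring, h⟩

theorem MachineCode.mem_left {s a : ℕ} (hs : s < C.n) (ha : a < C.m) (L R : ℤ) :
    ((s : ℤ) + C.n * ((a : ℤ) + C.m * L), R) ∈ C.haltSet M ↔
      ∃ L' R' : ℕ, L = L' ∧ R = R' ∧ C.Good M s (a + C.m * L') R' := by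
  rw [C.mem_haltSet M hs]
  constructor
  · rintro ⟨Y, R', hL, hR, h⟩
    obtain ⟨L', rfl, rfl⟩ := digit_split ha hL
    exact ⟨L', R', rfl, hR, h⟩
  · rintro ⟨L', R', rfl, rfl, h⟩
    exact ⟨_, R', by push_cast; ring, rfl, h⟩

theorem MachineCode.mem_both {s a c : ℕ} (hs : s < C.n) (ha : a < C.m) (hc : c < C.m) (L R : ℤ) :
    ((s : ℤ) + C.n * ((c : ℤ) + C.m * L), (a : ℤ) + C.m * R) ∈ C.haltSet M ↔
      ∃ L' R' : ℕ, L = L' ∧ R = R' ∧ C.Good M s (c + C.m * L') (a + C.m * R') := by
  rw [C.mem_right M hs ha]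
  constructor
  · rintro ⟨Y, R', hL, hR, h⟩
    obtain ⟨L', rfl, rfl⟩ := digit_split hc hL
    exact ⟨L', R', rfl, hR, h⟩
  · rintro ⟨L', R', rfl, rfl, h⟩
    exact ⟨_, R', by push_cast; ring, rfl, h⟩

theorem MachineCode.mem_two {s a c : ℕ} (hs : s < C.n) (ha : a < C.m) (hc : c < C.m) (L R : ℤ) :
    ((s : ℤ) + C.n * L, (c : ℤ) + C.m * ((a : ℤ) + C.m * R)) ∈ C.haltSet M ↔
      ∃ L' R' : ℕ, L = L' ∧ R = R' ∧ C.Good M s L' (c + C.m * (a + C.m * R')) := by
  rw [C.mem_right M hs hc]
  constructor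
  · rintro ⟨L', Y, hL, hR, h⟩
    obtain ⟨R', rfl, rfl⟩ := digit_split ha hR
    exact ⟨L', R', hL, rfl, h⟩
  · rintro ⟨L', R', rfl, rfl, h⟩
    exact ⟨L', _, rfl, by push_cast; ring, h⟩

/-- The rules of one transition and of erasing. -/
def MachineCode.rulesAt (q : Q) (c a : Γ) : List (PlaneMap × PlaneMap) :=
  (match M q a with
    | none => [(⟨(C.sq q, C.dg a), (C.n, C.m)⟩, ⟨(0, 0), (C.n, 1)⟩)]
    | some (q', TM0.Stmt.write b) =>
      [(⟨(C.sq q, C.dg a), (C.n, C.m)⟩, ⟨(C.sq q', C.dg b), (C.n, C.m)⟩)]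
    | some (q', TM0.Stmt.move Dir.right) =>
      [(⟨(C.sq q, C.dg a), (C.n, C.m)⟩, ⟨(C.sq q' + C.n * C.dg a, 0), (C.n * C.m, 1)⟩)]
    | some (q', TM0.Stmt.move Dir.left) =>
      [(⟨(C.sq q + C.n * C.dg c, C.dg a), (C.n * C.m, C.m)⟩,
        ⟨(C.sq q', C.dg c + C.m * C.dg a), (C.n, C.m * C.m)⟩)]) ++
  [(⟨(0, C.dg a), (C.n, C.m)⟩, ⟨(0, 0), (C.n, 1)⟩),
    (⟨(C.n * C.dg a, 0), (C.n * C.m, 1)⟩, ⟨(0, 0), (C.n, 1)⟩)]

/-- All rules. -/
noncomputable def MachineCode.rules [Fintype Q] [Fintype Γ] : List (PlaneMap × PlaneMap) :=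
  (Finset.univ : Finset (Q × Γ × Γ)).toList.flatMap fun x => C.rulesAt M x.1 x.2.1 x.2.2

theorem MachineCode.step_none {q : Q} {a : Γ} (h : M q a = none) (L R : ℕ) :
    TM0.step M (C.cfg q L (C.dg a + C.m * R)) = none := by
  simp [TM0.step, MachineCode.cfg, C.blankOf_add (C.dg_lt a), C.un_dg, h]

theorem MachineCode.step_write {q q' : Q} {a b : Γ} (h : M q a = some (q', TM0.Stmt.write b))
    (L R : ℕ) : TM0.step M (C.cfg q L (C.dg a + C.m * R)) =
      some (C.cfg q' L (C.dg b + C.m * R)) := by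
  simp [TM0.step, MachineCode.cfg, C.blankOf_add (C.dg_lt a), C.blankOf_add (C.dg_lt b),
    C.un_dg, h]

theorem MachineCode.step_right {q q' : Q} {a : Γ}
    (h : M q a = some (q', TM0.Stmt.move Dir.right)) (L R : ℕ) :
    TM0.step M (C.cfg q L (C.dg a + C.m * R)) = some (C.cfg q' (C.dg a + C.m * L) R) := by
  simp [TM0.step, MachineCode.cfg, C.blankOf_add (C.dg_lt a), C.un_dg, h]

theorem MachineCode.step_left {q q' : Q} {a : Γ}
    (h : M q a = some (q', TM0.Stmt.move Dir.left)) (c : Γ) (L R : ℕ) :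
    TM0.step M (C.cfg q (C.dg c + C.m * L) (C.dg a + C.m * R)) =
      some (C.cfg q' L (C.dg c + C.m * (C.dg a + C.m * R))) := by
  simp [TM0.step, MachineCode.cfg, C.blankOf_add (C.dg_lt a), C.blankOf_add (C.dg_lt c),
    C.un_dg, h]

variable [Fintype Q] [Fintype Γ]

theorem MachineCode.mem_rules {p : PlaneMap × PlaneMap} :
    p ∈ C.rules M ↔ ∃ q c a, p ∈ C.rulesAt M q c a := by
  simp only [MachineCode.rules, List.mem_flatMap, Finset.mem_toList, Finset.mem_univ, true_and,
    Prod.exists]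

/-- **The rules preserve the halting points.** -/
theorem MachineCode.rules_invariant {p : PlaneMap × PlaneMap} (hp : p ∈ C.rules M) :
    (p.1.Nondeg ∧ p.2.Nondeg) ∧
      ∀ P, p.1.app P ∈ C.haltSet M ↔ p.2.app P ∈ C.haltSet M := by
  have hm : C.m ≠ 0 := by have := C.one_lt; omega
  have hn0 : 0 < C.n := (C.sq_pos default).trans (C.sq_lt default)
  have hn : C.n ≠ 0 := hn0.ne'
  obtain ⟨q, c, a, hp⟩ := (C.mem_rules M).1 hp
  simp only [MachineCode.rulesAt, List.mem_append, List.mem_cons, List.not_mem_nil, or_false] at hp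
  have ha := C.dg_lt a
  have hq := C.sq_lt q
  rcases hp with hp | rfl | rfl
  · rcases hM : M q a with _ | ⟨q', d | b⟩
    · simp only [hM, List.mem_singleton] at hp
      subst hp
      refine ⟨by simp [PlaneMap.Nondeg, hn, hm], fun P => ?_⟩
      simp only [PlaneMap.app, one_mul]
      rw [C.mem_right M hq ha, ← Nat.cast_zero, C.mem_haltSet M hn0, Nat.cast_zero, zero_add]
      refine exists_congr fun L => exists_congr fun R => and_congr_right fun _ =>
        and_congr_right fun _ => iff_of_true ?_ (Or.inl rfl)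
      exact (C.good_sq M q _ _).2
        (Part.dom_iff_mem.2 ⟨_, mem_eval.2 ⟨Relation.ReflTransGen.refl, C.step_none M hM L R⟩⟩)
    · cases d
      · simp only [hM, List.mem_singleton] at hp
        subst hp
        refine ⟨by simp [PlaneMap.Nondeg, hn, hm], fun P => ?_⟩
        have e1 : (C.sq q : ℤ) + C.n * C.dg c + C.n * C.m * P.1 =
            C.sq q + C.n * (C.dg c + C.m * P.1) := by ring
        have e2 : (C.dg c : ℤ) + C.m * C.dg a + C.m * C.m * P.2 =
            C.dg c + C.m * (C.dg a + C.m * P.2) := by ring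
        simp only [PlaneMap.app]
        rw [e1, e2, C.mem_both M hq ha (C.dg_lt c), C.mem_two M (C.sq_lt q') ha (C.dg_lt c)]
        refine exists_congr fun L => exists_congr fun R => and_congr_right fun _ =>
          and_congr_right fun _ => ?_
        rw [C.good_sq, C.good_sq]
        exact dom_step M (C.step_left M hM c L R)
      · simp only [hM, List.mem_singleton] at hp
        subst hp
        refine ⟨by simp [PlaneMap.Nondeg, hn, hm], fun P => ?_⟩
        have e1 : (C.sq q' : ℤ) + C.n * C.dg a + C.n * C.m * P.1 =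
            C.sq q' + C.n * (C.dg a + C.m * P.1) := by ring
        simp only [PlaneMap.app, one_mul, zero_add]
        rw [e1, C.mem_right M hq ha, C.mem_left M (C.sq_lt q') ha]
        refine exists_congr fun L => exists_congr fun R => and_congr_right fun _ =>
          and_congr_right fun _ => ?_
        rw [C.good_sq, C.good_sq]
        exact dom_step M (C.step_right M hM L R)
    · simp only [hM, List.mem_singleton] at hp
      subst hp
      refine ⟨by simp [PlaneMap.Nondeg, hn, hm], fun P => ?_⟩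
      simp only [PlaneMap.app]
      rw [C.mem_right M hq ha, C.mem_right M (C.sq_lt q') (C.dg_lt b)]
      refine exists_congr fun L => exists_congr fun R => and_congr_right fun _ =>
        and_congr_right fun _ => ?_
      rw [C.good_sq, C.good_sq]
      exact dom_step M (C.step_write M hM L R)
  · refine ⟨by simp [PlaneMap.Nondeg, hn, hm], fun P => ?_⟩
    simp only [PlaneMap.app, one_mul]
    rw [← Nat.cast_zero, C.mem_right M hn0 ha, C.mem_haltSet M hn0 P.1 ((0 : ℕ) + P.2)]
    simp [MachineCode.Good]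
  · refine ⟨by simp [PlaneMap.Nondeg, hn, hm], fun P => ?_⟩
    simp only [PlaneMap.app, one_mul, zero_add]
    have e1 : (C.n : ℤ) * C.dg a + C.n * C.m * P.1 =
        ((0 : ℕ) : ℤ) + C.n * (C.dg a + C.m * P.1) := by push_cast; ring
    have e2 : (C.n : ℤ) * P.1 = ((0 : ℕ) : ℤ) + C.n * P.1 := by simp
    rw [e1, e2, C.mem_left M hn0 ha, C.mem_haltSet M hn0]
    simp [MachineCode.Good]

omit [Inhabited Q] [Fintype Q] [Fintype Γ] in
theorem MachineCode.split_digit (N : ℕ) : ∃ a R, N = C.dg a + C.m * R := by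
  refine ⟨C.un (N % C.m), N / C.m, ?_⟩
  rw [C.dg_un _ (Nat.mod_lt _ (by have := C.one_lt; omega))]
  exact (Nat.mod_add_div N C.m).symm

/-- **The halting points are derived from the origin.** -/
theorem MachineCode.haltSet_induction {Φ : ℤ × ℤ → Prop} (h0 : Φ (0, 0))
    (hr : ∀ p ∈ C.rules M, ∀ P, Φ (p.1.app P) ↔ Φ (p.2.app P)) :
    ∀ P ∈ C.haltSet M, Φ P := by
  have hm := C.one_lt
  have erase : ∀ L R : ℕ, Φ ((C.n : ℤ) * L, (R : ℤ)) := by
    intro L R
    induction R using Nat.strong_induction_on generalizing L with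
    | _ R ih =>
    rcases Nat.eq_zero_or_pos R with rfl | hR
    · induction L using Nat.strong_induction_on with
      | _ L ihL =>
      rcases Nat.eq_zero_or_pos L with rfl | hL
      · simpa using h0
      · obtain ⟨a, L', rfl⟩ := C.split_digit L
        have hp : (⟨((C.n : ℤ) * C.dg a, 0), ((C.n : ℤ) * C.m, 1)⟩,
            (⟨(0, 0), ((C.n : ℤ), 1)⟩ : PlaneMap)) ∈ C.rules M :=
          (C.mem_rules M).2 ⟨default, a, a, List.mem_append_right _ (by simp)⟩
        have h1 := hr _ hp ((L' : ℤ), 0)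
        simp only [PlaneMap.app, one_mul, zero_add] at h1
        have e : (((C.n : ℤ) * (C.dg a + C.m * L' : ℕ), ((0 : ℕ) : ℤ)) : ℤ × ℤ) =
            ((C.n : ℤ) * C.dg a + C.n * C.m * L', 0) := by
          simp only [Nat.cast_add, Nat.cast_mul, Nat.cast_zero, mul_add, mul_assoc]
        rw [e]
        exact h1.2 (by simpa using ihL L' (by nlinarith))
    · obtain ⟨a, R', rfl⟩ := C.split_digit R
      have hp : (⟨(0, (C.dg a : ℤ)), ((C.n : ℤ), (C.m : ℤ))⟩,
          (⟨(0, 0), ((C.n : ℤ), 1)⟩ : PlaneMap)) ∈ C.rules M :=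
        (C.mem_rules M).2 ⟨default, a, a, List.mem_append_right _ (by simp)⟩
      have h1 := hr _ hp ((L : ℤ), (R' : ℤ))
      simp only [PlaneMap.app, one_mul, zero_add] at h1
      simpa using h1.2 (ih R' (by nlinarith) L)
  rintro P ⟨s, L, R, hs, rfl, hG⟩
  rcases hG with rfl | ⟨q, rfl, hD⟩
  · simpa using erase L R
  obtain ⟨hreach, hnone⟩ := mem_eval.1 ⟨hD, rfl⟩
  suffices hall : ∀ c, Reaches (TM0.step M) c ((eval (TM0.step M) (C.cfg q L R)).get hD) →
      ∀ q L R, C.cfg q L R = c → Φ ((C.sq q : ℤ) + C.n * L, (R : ℤ)) from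
    hall _ hreach q L R rfl
  intro c hc
  induction hc using Relation.ReflTransGen.head_induction_on with
  | refl =>
    intro q L R e
    obtain ⟨a, R', rfl⟩ := C.split_digit R
    rw [← e] at hnone
    rcases hM : M q a with _ | ⟨q', d | b⟩
    · have hp : (⟨((C.sq q : ℤ), (C.dg a : ℤ)), ((C.n : ℤ), (C.m : ℤ))⟩,
          (⟨(0, 0), ((C.n : ℤ), 1)⟩ : PlaneMap)) ∈ C.rules M :=
        (C.mem_rules M).2 ⟨q, a, a, List.mem_append_left _ (by simp [hM])⟩
      have h1 := hr _ hp ((L : ℤ), (R' : ℤ))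
      simp only [PlaneMap.app, one_mul, zero_add] at h1
      simpa using h1.2 (erase L R')
    · obtain ⟨c', L', rfl⟩ := C.split_digit L
      cases d
      · rw [C.step_left M hM] at hnone; simp at hnone
      · rw [C.step_right M hM] at hnone; simp at hnone
    · rw [C.step_write M hM] at hnone; simp at hnone
  | head hstep _ ih =>
    intro q L R e
    obtain ⟨a, R', rfl⟩ := C.split_digit R
    rw [← e, Option.mem_def] at hstep
    rcases hM : M q a with _ | ⟨q', d | b⟩
    · rw [C.step_none M hM] at hstep; simp at hstep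
    · obtain ⟨c', L', rfl⟩ := C.split_digit L
      cases d
      · rw [C.step_left M hM] at hstep
        have h2 := ih q' L' (C.dg c' + C.m * (C.dg a + C.m * R')) (Option.some.inj hstep)
        have hp : (⟨((C.sq q : ℤ) + C.n * C.dg c', (C.dg a : ℤ)), ((C.n : ℤ) * C.m, (C.m : ℤ))⟩,
            (⟨((C.sq q' : ℤ), (C.dg c' : ℤ) + C.m * C.dg a), ((C.n : ℤ), (C.m : ℤ) * C.m)⟩ :
              PlaneMap)) ∈ C.rules M :=
          (C.mem_rules M).2 ⟨q, c', a, List.mem_append_left _ (by simp [hM])⟩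
        have h1 := hr _ hp ((L' : ℤ), (R' : ℤ))
        simp only [PlaneMap.app] at h1
        push_cast at h2 ⊢
        convert h1.2 (by convert h2 using 2; ring) using 2
        ring
      · rw [C.step_right M hM] at hstep
        have h2 := ih q' (C.dg a + C.m * (C.dg c' + C.m * L')) R' (Option.some.inj hstep)
        have hp : (⟨((C.sq q : ℤ), (C.dg a : ℤ)), ((C.n : ℤ), (C.m : ℤ))⟩,
            (⟨((C.sq q' : ℤ) + C.n * C.dg a, 0), ((C.n : ℤ) * C.m, 1)⟩ : PlaneMap)) ∈ C.rules M :=
          (C.mem_rules M).2 ⟨q, c', a, List.mem_append_left _ (by simp [hM])⟩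
        have h1 := hr _ hp (((C.dg c' + C.m * L' : ℕ) : ℤ), (R' : ℤ))
        simp only [PlaneMap.app, one_mul, zero_add] at h1
        push_cast at h1 h2 ⊢
        refine h1.2 ?_
        convert h2 using 2
        ring
    · rw [C.step_write M hM] at hstep
      have h2 := ih q' L (C.dg b + C.m * R') (Option.some.inj hstep)
      have hp : (⟨((C.sq q : ℤ), (C.dg a : ℤ)), ((C.n : ℤ), (C.m : ℤ))⟩,
          (⟨((C.sq q' : ℤ), (C.dg b : ℤ)), ((C.n : ℤ), (C.m : ℤ))⟩ : PlaneMap)) ∈ C.rules M :=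
        (C.mem_rules M).2 ⟨q, a, a, List.mem_append_left _ (by simp [hM])⟩
      have h1 := hr _ hp ((L : ℤ), (R' : ℤ))
      simp only [PlaneMap.app] at h1
      push_cast at h2 ⊢
      exact h1.2 h2

/-- **An affine system with an undecidable set.** -/
theorem exists_affine_system :
    ∃ (L : List (PlaneMap × PlaneMap)) (S : Set (ℤ × ℤ)) (s₀ : ℕ) (R : ℕ → ℕ),
      (∀ p ∈ L, (p.1.Nondeg ∧ p.2.Nondeg) ∧ ∀ P, p.1.app P ∈ S ↔ p.2.app P ∈ S) ∧
      (0, 0) ∈ S ∧
      (∀ Φ : ℤ × ℤ → Prop, Φ (0, 0) → (∀ p ∈ L, ∀ P, Φ (p.1.app P) ↔ Φ (p.2.app P)) →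
        ∀ P ∈ S, Φ P) ∧
      Primrec R ∧ ¬ComputablePred fun k => ((s₀ : ℤ), (R k : ℤ)) ∈ S := by
  obtain ⟨Q, _, _, M, hM⟩ := exists_undecidable_machine
  have : Nontrivial TapeLetter := ⟨⟨cellHead, cellOne, fun h => by
    simpa [cellHead, cellOne] using congrArg Prod.fst h⟩⟩
  obtain ⟨C⟩ := MachineCode.exists_code (Q := Q) (Γ := TapeLetter)
  let ones : ℕ → ℕ := fun k => Nat.rec 0 (fun _ v => C.dg cellOne + C.m * v) k
  have hones : Primrec ones :=
    Primrec.nat_rec₁ 0 (Primrec.nat_add.comp (Primrec.const _)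
      (Primrec.nat_mul.comp (Primrec.const _) Primrec.snd)).to₂
  refine ⟨C.rules M, C.haltSet M, C.sq default, fun k => C.dg cellHead + C.m * ones k,
    fun p hp => C.rules_invariant M hp, ?_, fun Φ h0 hr => C.haltSet_induction M h0 hr,
    Primrec.nat_add.comp (Primrec.const _) (Primrec.nat_mul.comp (Primrec.const _) hones),
    fun h => hM (h.of_eq fun k => ?_)⟩
  · have hn0 : 0 < C.n := (C.sq_pos default).trans (C.sq_lt default)
    exact ⟨0, 0, 0, hn0, by simp, Or.inl rfl⟩
  · have hb : ∀ j, C.blankOf (ones j) = ListBlank.mk (List.replicate j cellOne) := by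
      intro j
      induction j with
      | zero => simp [ones, MachineCode.blankOf]
      | succ j ih =>
        change C.blankOf (C.dg cellOne + C.m * ones j) = _
        rw [C.blankOf_add (C.dg_lt _), C.un_dg, ih, ListBlank.cons_mk, List.replicate_succ]
    have e : C.cfg default 0 (C.dg cellHead + C.m * ones k) =
        cfgOf default [] (cellHead :: List.replicate k cellOne) := by
      rw [MachineCode.cfg, C.blankOf_add (C.dg_lt _), C.un_dg, hb, ListBlank.cons_mk, cfgOf]
      simp [MachineCode.blankOf]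
    have h1 := C.mem_haltSet M (C.sq_lt default) 0 ((C.dg cellHead + C.m * ones k : ℕ) : ℤ)
    rw [mul_zero, add_zero] at h1
    rw [h1]
    constructor
    · rintro ⟨L', R', hL, hR, h⟩
      obtain rfl : L' = 0 := by exact_mod_cast hL.symm
      obtain rfl : R' = C.dg cellHead + C.m * ones k := by exact_mod_cast hR.symm
      exact e ▸ (C.good_sq M default _ _).1 h
    · exact fun h => ⟨0, _, rfl, rfl, (C.good_sq M default _ _).2 (e ▸ h)⟩

end FA.Undecidability
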