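import Mathlib.GroupTheory.PresentedGroup
import Mathlib.Computability.Reduce
import Mathlib.Algebra.Group.Commute.Hom
import Fermat.Agent.Undecidability.AffineMachine

/-!
# The word problem for groups

The generators are `x, y, t, k` and one letter for each pair of affine maps. Each such letter
conjugates the image of the plane group by the first map to the image by the second, and `k`
commutes with `t` and these letters. Then `k` commutes with the letter of a point if and only if
the machine halts from it: the relations give one direction, the tower the other.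
-/

set_option autoImplicit false

namespace FA.Undecidability

variable {G : Type*} [Group G]

/-- The conjugate of `t` at a point. -/
def tauOf (x y t : G) (P : ℤ × ℤ) : G := x ^ P.1 * y ^ P.2 * t * (x ^ P.1 * y ^ P.2)⁻¹

/-- The relations, as properties of elements of a group. -/
structure PlaneRelations {n : ℕ} (f g : Fin n → PlaneMap) (x y t k : G) (r : Fin n → G) : Prop where
  xy : Commute x y
  kt : Commute k t
  kr : ∀ i, Commute k (r i)
  base : ∀ i, SemiconjBy (r i) (tauOf x y t (f i).base) (tauOf x y t (g i).base)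
  dil₁ : ∀ i, SemiconjBy (r i) (x ^ (f i).dil.1) (x ^ (g i).dil.1)
  dil₂ : ∀ i, SemiconjBy (r i) (y ^ (f i).dil.2) (y ^ (g i).dil.2)

theorem PlaneRelations.invariant {n : ℕ} {f g : Fin n → PlaneMap} {x y t k : G} {r : Fin n → G}
    (h : PlaneRelations f g x y t k r) (i : Fin n) (P : ℤ × ℤ) :
    Commute k (tauOf x y t ((f i).app P)) ↔ Commute k (tauOf x y t ((g i).app P)) := by
  have hc : ∀ F : PlaneMap, tauOf x y t (F.app P) =
      (x ^ F.dil.1) ^ P.1 * (y ^ F.dil.2) ^ P.2 * tauOf x y t F.base *
        ((x ^ F.dil.1) ^ P.1 * (y ^ F.dil.2) ^ P.2)⁻¹ := by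
    intro F
    have e : x ^ (F.app P).1 * y ^ (F.app P).2 =
        (x ^ F.dil.1) ^ P.1 * (y ^ F.dil.2) ^ P.2 * (x ^ F.base.1 * y ^ F.base.2) := by
      simp only [PlaneMap.app, ← zpow_mul]
      rw [add_comm F.base.1, add_comm F.base.2, zpow_add, zpow_add,
        (h.xy.zpow_zpow F.base.1 (F.dil.2 * P.2)).mul_mul_mul_comm]
    rw [tauOf, e, tauOf]
    simp [mul_assoc]
  have hs : SemiconjBy (r i) (tauOf x y t ((f i).app P)) (tauOf x y t ((g i).app P)) := by
    rw [hc, hc]
    have h1 := ((h.dil₁ i).zpow_right P.1).mul_right ((h.dil₂ i).zpow_right P.2)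
    exact (h1.mul_right (h.base i)).mul_right h1.inv_right
  have e : tauOf x y t ((g i).app P) = r i * tauOf x y t ((f i).app P) * (r i)⁻¹ := by
    rw [hs.eq, mul_inv_cancel_right]
  have ek : r i * k * (r i)⁻¹ = k := by rw [← (h.kr i).eq, mul_inv_cancel_right]
  constructor
  · intro hk
    have := Commute.map hk (MulAut.conj (r i)).toMonoidHom
    simp only [MulEquiv.coe_toMonoidHom, MulAut.conj_apply] at this
    rwa [ek, ← e] at this
  · intro hk
    rw [e] at hk
    nth_rewrite 1 [← ek] at hk
    have := Commute.map hk (MulAut.conj (r i)⁻¹).toMonoidHom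
    simpa [MulEquiv.coe_toMonoidHom, MulAut.conj_apply, mul_assoc] using this

/-- The relation list. -/
def planeRels {n : ℕ} (f g : Fin n → PlaneMap) : List (FreeGroup (Fin (4 + n))) :=
  let e : Fin 4 → FreeGroup (Fin (4 + n)) := fun j => FreeGroup.of (Fin.castAdd n j)
  let r : Fin n → FreeGroup (Fin (4 + n)) := fun i => FreeGroup.of (Fin.natAdd 4 i)
  let tau := tauOf (e 0) (e 1) (e 2)
  [e 0 * e 1 * (e 1 * e 0)⁻¹, e 3 * e 2 * (e 2 * e 3)⁻¹] ++ (List.finRange n).flatMap fun i =>
    [e 3 * r i * (r i * e 3)⁻¹, r i * tau (f i).base * (tau (g i).base * r i)⁻¹,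
      r i * e 0 ^ (f i).dil.1 * (e 0 ^ (g i).dil.1 * r i)⁻¹,
      r i * e 1 ^ (f i).dil.2 * (e 1 ^ (g i).dil.2 * r i)⁻¹]

theorem map_tauOf {H : Type*} [Group H] (φ : G →* H) (x y t : G) (P : ℤ × ℤ) :
    φ (tauOf x y t P) = tauOf (φ x) (φ y) (φ t) P := by
  simp [tauOf, map_zpow]

theorem planeRelations_of_map {n : ℕ} (f g : Fin n → PlaneMap) (φ : FreeGroup (Fin (4 + n)) →* G) :
    (∀ w ∈ planeRels f g, φ w = 1) ↔ PlaneRelations f g (φ (.of (Fin.castAdd n 0)))
      (φ (.of (Fin.castAdd n 1))) (φ (.of (Fin.castAdd n 2))) (φ (.of (Fin.castAdd n 3)))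
      (fun i => φ (.of (Fin.natAdd 4 i))) := by
  simp only [planeRels, List.forall_mem_append, List.forall_mem_cons, List.not_mem_nil,
    IsEmpty.forall_iff, implies_true, and_true, List.mem_flatMap, List.mem_finRange, true_and,
    forall_exists_index, map_mul, map_inv, mul_inv_eq_one]
  constructor
  · rintro ⟨⟨h1, h2⟩, h3⟩
    refine ⟨h1, h2, fun i => ?_, fun i => ?_, fun i => ?_, fun i => ?_⟩ <;>
      refine mul_inv_eq_one.1 ?_
    · simpa using h3 _ i (List.mem_cons_self)
    · simpa [map_tauOf, SemiconjBy] using h3 _ i (List.mem_cons_of_mem _ List.mem_cons_self)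
    · simpa [SemiconjBy] using
        h3 _ i (List.mem_cons_of_mem _ (List.mem_cons_of_mem _ List.mem_cons_self))
    · simpa [SemiconjBy] using h3 _ i
        (List.mem_cons_of_mem _
          (List.mem_cons_of_mem _ (List.mem_cons_of_mem _ List.mem_cons_self)))
  · intro h
    refine ⟨⟨h.xy, h.kt⟩, fun w i hw => ?_⟩
    simp only [List.mem_cons, List.not_mem_nil, or_false] at hw
    rcases hw with rfl | rfl | rfl | rfl <;>
      simp only [map_mul, map_inv, map_zpow, map_tauOf, mul_inv_eq_one]
    exacts [h.kr i, h.base i, h.dil₁ i, h.dil₂ i]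

theorem freeMk_append {α : Type*} (L L' : List (α × Bool)) :
    FreeGroup.mk (L ++ L') = FreeGroup.mk L * FreeGroup.mk L' :=
  FreeGroup.mul_mk.symm

theorem freeMk_replicate {α : Type*} (a : α) (b : Bool) (j : ℕ) :
    FreeGroup.mk (List.replicate j (a, b)) = cond b (FreeGroup.of a) (FreeGroup.of a)⁻¹ ^ j := by
  induction j with
  | zero => rfl
  | succ j ih =>
    rw [List.replicate_succ, ← List.singleton_append, freeMk_append, ih, pow_succ']
    cases b <;> rfl

/-- The commutator word of `k` and the letter of a point. -/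
def pointWord {n : ℕ} (s R : ℕ) : List (Fin (4 + n) × Bool) :=
  let conj := fun b : Bool =>
    List.replicate s (Fin.castAdd n 0, true) ++ List.replicate R (Fin.castAdd n 1, true) ++
      [(Fin.castAdd n 2, b)] ++
      List.replicate R (Fin.castAdd n 1, false) ++ List.replicate s (Fin.castAdd n 0, false)
  [(Fin.castAdd n 3, true)] ++ conj true ++ [(Fin.castAdd n 3, false)] ++ conj false

theorem map_pointWord {n : ℕ} (s R : ℕ) (φ : FreeGroup (Fin (4 + n)) →* G) :
    φ (FreeGroup.mk (pointWord s R)) = 1 ↔ Commute (φ (.of (Fin.castAdd n 3)))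
      (tauOf (φ (.of (Fin.castAdd n 0))) (φ (.of (Fin.castAdd n 1))) (φ (.of (Fin.castAdd n 2)))
        ((s : ℤ), (R : ℤ))) := by
  have one : ∀ (a : Fin (4 + n)) (b : Bool),
      FreeGroup.mk [(a, b)] = cond b (FreeGroup.of a) (FreeGroup.of a)⁻¹ := by
    intro a b
    cases b <;> rfl
  refine Iff.trans ?_ mul_inv_eq_one
  refine iff_of_eq (congrArg (· = (1 : G)) ?_)
  simp only [pointWord, freeMk_append, freeMk_replicate, one, map_mul]
  simp [tauOf, mul_assoc]

theorem primrec_replicate {α : Type*} [Primcodable α] (a : α) :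
    Primrec fun j : ℕ => List.replicate j a :=
  ((Primrec.list_map Primrec.list_range (Primrec.const a).to₂)).of_eq fun j => by simp

theorem primrec_pointWord {n : ℕ} (s : ℕ) {R : ℕ → ℕ} (hR : Primrec R) :
    Primrec fun j => pointWord (n := n) s (R j) := by
  have rep : ∀ a : Fin (4 + n) × Bool, Primrec fun j => List.replicate (R j) a :=
    fun a => (primrec_replicate a).comp hR
  have app := @Primrec.list_append (Fin (4 + n) × Bool) _
  exact app.comp (app.comp (app.comp (Primrec.const _)
      (app.comp (app.comp (app.comp (app.comp (Primrec.const _) (rep _)) (Primrec.const _)) (rep _))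
        (Primrec.const _))) (Primrec.const _))
    (app.comp (app.comp (app.comp (app.comp (Primrec.const _) (rep _)) (Primrec.const _)) (rep _))
      (Primrec.const _))

theorem tauOf_plane (P : ℤ × ℤ) :
    tauOf (G := PlaneGroup) (SemidirectProduct.inr (Multiplicative.ofAdd (1, 0)))
      (SemidirectProduct.inr (Multiplicative.ofAdd (0, 1))) (pointLetter 0) P = pointLetter P := by
  rw [tauOf, ← map_zpow SemidirectProduct.inr, ← map_zpow SemidirectProduct.inr, ← map_mul,
    pointLetter_eq P, ← ofAdd_zsmul, ← ofAdd_zsmul, ← ofAdd_add]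
  simp

/-- **Novikov and Boone.** A finitely presented group with an undecidable word problem. -/
theorem exists_hard_group :
    ∃ (m : ℕ) (rels : List (FreeGroup (Fin m))),
      ¬ComputablePred fun w : List (Fin m × Bool) =>
        PresentedGroup.mk {r | r ∈ rels} (FreeGroup.mk w) = 1 := by
  obtain ⟨L, S, s, R, hL, h0, hind, hR, hS⟩ := exists_affine_system
  let f : Fin L.length → PlaneMap := fun i => (L.get i).1
  let g : Fin L.length → PlaneMap := fun i => (L.get i).2
  refine ⟨4 + L.length, planeRels f g, fun hC => hS (ComputablePred.computable_of_manyOneReducible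
    ⟨fun j => pointWord s (R j), (primrec_pointWord s hR).to_comp, fun j => ?_⟩ hC)⟩
  rw [map_pointWord]
  constructor
  · intro hj
    let π := PresentedGroup.mk {r | r ∈ planeRels f g}
    have hrel := (planeRelations_of_map f g π).1 fun w hw => PresentedGroup.one_of_mem hw
    refine hind (fun P => Commute (π (.of (Fin.castAdd _ 3)))
      (tauOf (π (.of (Fin.castAdd _ 0))) (π (.of (Fin.castAdd _ 1)))
        (π (.of (Fin.castAdd _ 2))) P)) ?_ (fun p hp P => ?_) _ hj
    · simpa [tauOf] using hrel.kt
    · obtain ⟨i, rfl⟩ := List.get_of_mem hp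
      exact hrel.invariant i P
  · intro hj
    obtain ⟨H, _, ι, r, k, hr, hkr, hk⟩ := exists_detector (pointSubgroup S)
      (fun i => (f i).hom) (fun i => (g i).hom)
      fun i => compatible_hom (hL _ (List.get_mem L i)).1.1 (hL _ (List.get_mem L i)).1.2
        (hL _ (List.get_mem L i)).2
    let x : PlaneGroup := SemidirectProduct.inr (Multiplicative.ofAdd (1, 0))
    let y : PlaneGroup := SemidirectProduct.inr (Multiplicative.ofAdd (0, 1))
    let v : Fin (4 + L.length) → H :=
      Fin.addCases ![ι x, ι y, ι (pointLetter 0), k] r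
    let φ : FreeGroup (Fin (4 + L.length)) →* H := FreeGroup.lift v
    have hv : φ (.of (Fin.castAdd _ 0)) = ι x ∧ φ (.of (Fin.castAdd _ 1)) = ι y ∧
        φ (.of (Fin.castAdd _ 2)) = ι (pointLetter 0) ∧ φ (.of (Fin.castAdd _ 3)) = k ∧
        (fun i => φ (.of (Fin.natAdd 4 i))) = r := by
      simp [φ, v]
    have hrel : ∀ w ∈ planeRels f g, φ w = 1 := by
      rw [planeRelations_of_map, hv.1, hv.2.1, hv.2.2.1, hv.2.2.2.1, hv.2.2.2.2]
      refine ⟨?_, (hk _).2 (pointLetter_mem_iff.2 h0), hkr, fun i => ?_, fun i => ?_, fun i => ?_⟩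
      · exact Commute.map ((Commute.all _ _).map SemidirectProduct.inr) ι
      · rw [← map_tauOf, ← map_tauOf, tauOf_plane, tauOf_plane]
        have := hr i (pointLetter 0)
        rwa [PlaneMap.hom_pointLetter, PlaneMap.hom_pointLetter,
          show (f i).app 0 = (f i).base by simp [PlaneMap.app],
          show (g i).app 0 = (g i).base by simp [PlaneMap.app]] at this
      · rw [← map_zpow, ← map_zpow]
        have := hr i x
        simp only [x, PlaneMap.hom_inr, ← map_zpow, ← ofAdd_zsmul] at this ⊢
        simpa [SemiconjBy] using this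
      · rw [← map_zpow, ← map_zpow]
        have := hr i y
        simp only [y, PlaneMap.hom_inr, ← map_zpow, ← ofAdd_zsmul] at this ⊢
        simpa [SemiconjBy] using this
    have hw := Commute.map hj (PresentedGroup.toGroup hrel)
    refine pointLetter_mem_iff.1 ((hk _).1 ?_)
    rw [← tauOf_plane, map_tauOf]
    rw [map_tauOf] at hw
    change Commute (φ (.of (Fin.castAdd _ 3))) (tauOf (φ (.of (Fin.castAdd _ 0)))
      (φ (.of (Fin.castAdd _ 1))) (φ (.of (Fin.castAdd _ 2))) _) at hw
    rwa [hv.2.2.2.1, hv.1, hv.2.1, hv.2.2.1] at hw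

end FA.Undecidability
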