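import Fermat.Agent.Undecidability.FreeLetters

/-!
# A group which dies with a given element

From an element `w ≠ 1` of `U` a group containing `U` is built, with finitely many more elements
whose relations force everything to be trivial when `w = 1` (Rabin, in Miller's manner).
-/

set_option autoImplicit false

namespace FA.Undecidability

open HNNExtension

variable {G : Type*} [Group G]

/-- The commutator of the `k`-th power of `z` and `w`. -/
def powComm (z w : G) (k : ℕ) : G := z ^ k * w * (z ^ k)⁻¹ * w⁻¹

theorem powComm_one (z : G) (k : ℕ) : powComm z 1 k = 1 := by simp [powComm]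

theorem map_powComm {H : Type*} [Group H] (f : G →* H) (z w : G) (k : ℕ) :
    f (powComm z w k) = powComm (f z) (f w) k := by
  simp [powComm]

/-- `U` with a free letter. -/
abbrev FreeLetter (U : Type*) [Group U] := HNNExtension U ⊥ ⊥ (MulEquiv.refl (⊥ : Subgroup U))

variable {U : Type} [Group U]

/-- The pairs of a power of a commutator. -/
def commPairs (w : U) (b : Bool) : List (ℤˣ × U) :=
  cond b [(1, w), (-1, w⁻¹)] [(1, 1), (1, w), (-1, 1), (-1, w⁻¹)]

theorem commPairs_chain {w : U} (hw : w ≠ 1) : ∀ L : List Bool,
    (L.flatMap (commPairs w)).IsChain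
      (fun a b => a.2 ∈ toSubgroup (⊥ : Subgroup U) ⊥ a.1 → a.1 = b.1) ∧
      ∀ p ∈ (L.flatMap (commPairs w)).head?, p.1 = 1 := by
  intro L
  induction L with
  | nil => simp
  | cons b L ih =>
    obtain ⟨h1, -⟩ := ih
    have hw' : w⁻¹ ≠ 1 := inv_ne_one.2 hw
    cases b <;> simpa [commPairs, List.isChain_cons, hw, hw', toSubgroup] using h1

/-- The product of the commutators along a list of choices. -/
theorem commPairs_prod (w : U) : ∀ L : List Bool,
    ((L.flatMap (commPairs w)).map fun x => (t : FreeLetter U) ^ (x.1 : ℤ) * of x.2).prod =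
      (L.map fun b => powComm t (of w) (cond b 1 2)).prod := by
  intro L
  induction L with
  | nil => simp
  | cons b L ih =>
    cases b <;> simp [commPairs, powComm, pow_two, mul_assoc] at ih ⊢ <;> rw [ih]

theorem commPairs_eq_one {w : U} (hw : w ≠ 1) (L : List Bool)
    (h : (L.map fun b => powComm (t : FreeLetter U) (of w) (cond b 1 2)).prod = 1) : L = [] := by
  let W : NormalWord.ReducedWord U ⊥ ⊥ := ⟨1, L.flatMap (commPairs w), (commPairs_chain hw L).1⟩
  have hW : W.prod (MulEquiv.refl (⊥ : Subgroup U)) = 1 := by
    simpa [W, NormalWord.ReducedWord.prod, commPairs_prod] using h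
  have := ReducedWord.toList_eq_nil_of_mem_of_range _ W (hW ▸ one_mem _)
  cases L with
  | nil => rfl
  | cons b L => cases b <;> simp [W, commPairs] at this

/-- **The two commutators have no common power.** -/
theorem powComm_independent {w : U} (hw : w ≠ 1) {i j : ℤ}
    (h : powComm (t : FreeLetter U) (of w) 1 ^ i = powComm t (of w) 2 ^ j) : i = 0 ∧ j = 0 := by
  set u := powComm (t : FreeLetter U) (of w) 1
  set v := powComm (t : FreeLetter U) (of w) 2
  have hl : ∀ (b : Bool) (k : ℕ), ((List.replicate k b).map fun c =>
      powComm (t : FreeLetter U) (of w) (cond c 1 2)).prod = cond b u v ^ k := by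
    intro b k
    cases b <;> simp [u, v]
  have same : ∀ a c : ℕ, u ^ a = v ^ c → a = 0 ∧ c = 0 := by
    intro a c hac
    let W : Bool → ℕ → NormalWord.ReducedWord U ⊥ ⊥ := fun b k =>
      ⟨1, (List.replicate k b).flatMap (commPairs w), (commPairs_chain hw _).1⟩
    have hp : ∀ b k, (W b k).prod (MulEquiv.refl (⊥ : Subgroup U)) = cond b u v ^ k := by
      intro b k
      simp [W, NormalWord.ReducedWord.prod, commPairs_prod]
      cases b <;> rfl
    have hm := (ReducedWord.map_fst_eq_and_of_prod_eq _ (w₁ := W true a) (w₂ := W false c)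
      (by rw [hp, hp]; exact hac)).1
    cases a with
    | zero => cases c with
      | zero => exact ⟨rfl, rfl⟩
      | succ c => simp [W, commPairs, List.replicate_succ] at hm
    | succ a => cases c with
      | zero => simp [W, commPairs, List.replicate_succ] at hm
      | succ c => simp [W, commPairs, List.replicate_succ] at hm
  have mixed : ∀ a c : ℕ, u ^ a * v ^ c = 1 → a = 0 ∧ c = 0 := by
    intro a c hac
    have := commPairs_eq_one hw (List.replicate a true ++ List.replicate c false)
      (by rw [List.map_append, List.prod_append, hl, hl]; exact hac)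
    simpa using this
  rcases Int.eq_nat_or_neg i with ⟨a, rfl | rfl⟩ <;> rcases Int.eq_nat_or_neg j with ⟨c, rfl | rfl⟩
  · simpa using same a c (by simpa using h)
  · simpa using mixed a c (by simpa [eq_inv_iff_mul_eq_one] using h)
  · simpa using mixed a c (by simpa [inv_eq_iff_mul_eq_one] using h)
  · simpa using same a c (by simpa using h)

theorem powComm_injective {w : U} (hw : w ≠ 1) :
    Function.Injective (zpowersHom (FreeLetter U) (powComm t (of w) 1)) ∧
      Function.Injective (zpowersHom (FreeLetter U) (powComm t (of w) 2)) := by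
  constructor <;> rw [injective_iff_map_eq_one] <;> intro m hm <;>
    refine Multiplicative.toAdd.injective ?_
  · exact (powComm_independent hw (i := m.toAdd) (j := 0) (by simpa using hm)).1
  · exact (powComm_independent hw (i := 0) (j := m.toAdd) (by simpa using hm.symm)).2

theorem exists_zpow_single {α : Type*} [Subsingleton α] (a : α) (x : FreeGroup α) :
    ∃ k : ℤ, x = FreeGroup.of a ^ k := by
  induction x with
  | C1 => exact ⟨0, by simp⟩
  | of i => exact ⟨1, by simp [Subsingleton.elim i a]⟩
  | inv_of i _ => exact ⟨-1, by simp [Subsingleton.elim i a]⟩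
  | mul x y hx hy =>
    obtain ⟨m, rfl⟩ := hx
    obtain ⟨n, rfl⟩ := hy
    exact ⟨m + n, (zpow_add _ _ _).symm⟩

/-- **Stable letters onto one element.** -/
theorem exists_stable_letters {w : U} (hw : w ≠ 1) : ∀ {m : ℕ} (a : Fin m → FreeLetter U)
    (e : FreeLetter U →* Multiplicative ℤ), (e (of w) = 1) → (∀ i, (e (a i)).toAdd ≠ 0) →
      ∃ (G : Type) (_ : Group G) (ι : FreeLetter U →* G) (s : Fin m → G), Function.Injective ι ∧
        (∀ i, s i * ι (a i) * (s i)⁻¹ = ι (powComm t (of w) 1)) ∧
        Function.Injective
          (FreeGroup.lift (Fin.cons (ι (powComm t (of w) 2)) s : Fin (m + 1) → G)) ∧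
        ∀ x y, FreeGroup.lift (Fin.cons (ι (powComm t (of w) 2)) s : Fin (m + 1) → G) x = ι y →
          ∃ k : ℤ, y = powComm t (of w) 2 ^ k := by
  intro m
  induction m with
  | zero =>
    intro a e _ _
    have key : ∀ x : FreeGroup (Fin 1), ∃ k : ℤ, x = FreeGroup.of 0 ^ k := exists_zpow_single 0
    refine ⟨FreeLetter U, inferInstance, MonoidHom.id _, Fin.elim0, Function.injective_id,
      fun i => i.elim0, ?_, fun x y h => ?_⟩
    · rw [injective_iff_map_eq_one]
      intro x hx
      obtain ⟨k, rfl⟩ := key x
      obtain rfl : k = 0 := (powComm_independent hw (i := 0) (j := k) (by simpa using hx.symm)).2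
      simp
    · obtain ⟨k, rfl⟩ := key x
      exact ⟨k, by simpa using h.symm⟩
  | succ m ih =>
    intro a e he ha
    obtain ⟨G, _, ι, s, hι, hs, hfree, hmeet⟩ := ih (fun i => a i.castSucc) e he fun i => ha _
    set u := powComm (t : FreeLetter U) (of w) 1
    set v := powComm (t : FreeLetter U) (of w) 2
    set F := FreeGroup.lift (Fin.cons (ι v) s : Fin (m + 1) → G)
    have hev : e v = 1 := by simp [v, map_powComm, he, powComm_one]
    have hA : Function.Injective (ι.comp (zpowersHom _ (a (Fin.last m)))) :=
      hι.comp (zpowersHom_injective_of_map e (ha _))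
    have hB : Function.Injective (ι.comp (zpowersHom _ u)) := hι.comp (powComm_injective hw).1
    let φ := (MonoidHom.ofInjective hA).symm.trans (MonoidHom.ofInjective hB)
    have tA : ∀ x, F x ∈ (ι.comp (zpowersHom _ (a (Fin.last m)))).range → x = 1 := by
      rintro x ⟨k, hk⟩
      obtain ⟨l, hl⟩ := hmeet x _ hk.symm
      have h0 := congrArg (fun z => (e z).toAdd) hl
      simp only [zpowersHom_apply, map_zpow, hev, one_zpow, toAdd_zpow, toAdd_one, smul_eq_mul,
        mul_eq_zero, ha (Fin.last m), or_false] at h0
      exact hfree (by rw [← hk, map_one]; simp [h0])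
    have tB : ∀ x, F x ∈ (ι.comp (zpowersHom _ u)).range → x = 1 := by
      rintro x ⟨k, hk⟩
      obtain ⟨l, hl⟩ := hmeet x _ hk.symm
      have h0 := (powComm_independent hw (i := k.toAdd) (j := l) (by simpa using hl)).1
      exact hfree (by rw [← hk, map_one]; simp [h0])
    have e1 : (Fin.cons (of (φ := φ) (ι v)) (Fin.snoc (fun i => of (s i)) t) :
          Fin (m + 1 + 1) → _) =
        Fin.snoc (fun i => of ((Fin.cons (ι v) s : Fin (m + 1) → G) i)) t := by
      rw [Fin.cons_snoc_eq_snoc_cons]
      congr 1
      funext i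
      induction i using Fin.cases <;> simp
    refine ⟨HNNExtension G _ _ φ, inferInstance, of.comp ι, Fin.snoc (fun i => of (s i)) t,
      (of_injective φ).comp hι, ?_, ?_, fun x y h => ?_⟩
    · intro i
      induction i using Fin.lastCases with
      | last =>
        have := equiv_eq_conj (φ := φ) (MonoidHom.ofInjective hA (Multiplicative.ofAdd 1))
        simpa [φ, MonoidHom.ofInjective_apply] using this.symm
      | cast i => simp [← map_mul, ← map_inv, hs, u]
    · rw [MonoidHom.comp_apply, e1]
      exact free_snoc hfree tA tB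
    · rw [MonoidHom.comp_apply, e1] at h
      have hP : ∀ b : (ι.comp (zpowersHom _ (a (Fin.last m)))).range,
          (b : G) ∈ F.range ↔ (φ b : G) ∈ F.range := by
        intro b
        have one : ∀ c : (ι.comp (zpowersHom _ (a (Fin.last m)))).range,
            (c : G) ∈ F.range → c = 1 := fun c hc => by
          obtain ⟨x, hx⟩ := hc
          exact Subtype.ext (by rw [← hx, tA x (hx ▸ c.2), map_one]; rfl)
        refine ⟨fun hb => by simp [one b hb], ?_⟩
        rintro ⟨x, hx⟩
        have h1 : φ b = 1 := Subtype.ext (by rw [← hx, tB x (hx ▸ (φ b).2), map_one]; rfl)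
        rw [show b = 1 from φ.injective (h1.trans (map_one φ).symm)]
        exact one_mem _
      obtain ⟨x', hx'⟩ := closure_inter_base hP (g := ι y) (by
        rw [← MonoidHom.comp_apply, ← h]
        refine (FreeGroup.range_lift_le ?_) ⟨x, rfl⟩
        rintro _ ⟨i, rfl⟩
        induction i using Fin.lastCases with
        | last => exact Subgroup.subset_closure (Or.inr (by simp))
        | cast i =>
          exact Subgroup.subset_closure (Or.inl ⟨F (FreeGroup.of i), ⟨_, rfl⟩, by simp [F]⟩))
      exact hmeet x' y hx'

/-- **The group.** The relations which kill everything with `w`, and `U` inside. -/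
theorem exists_killing {n : ℕ} (x : Fin n → U) {w : U} (hw : w ≠ 1) :
    ∃ (H : Type) (_ : Group H) (j : U →* H) (z r q t : H) (s : Fin (n + 1) → H),
      Function.Injective j ∧
      (∀ i, s i * ((Fin.cons 1 fun k => j (x k) : Fin (n + 1) → H) i * z) * (s i)⁻¹ =
        powComm z (j w) 1) ∧
      q * r * q⁻¹ = r ^ 2 ∧ t * q * t⁻¹ = q ^ 2 ∧
      ∀ i : Fin (n + 2), (Fin.cons (powComm z (j w) 2) s : Fin (n + 2) → H) i =
        r ^ i.1 * t * (r ^ i.1)⁻¹ := by
  let e : FreeLetter U →* Multiplicative ℤ :=
    HNNExtension.lift 1 (Multiplicative.ofAdd 1) fun a => by simp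
  obtain ⟨G, _, ι, s, hι, hs, hfree, -⟩ := exists_stable_letters hw
    (fun i => of ((Fin.cons 1 x : Fin (n + 1) → U) i) * t) e (by simp [e]) (fun i => by simp [e])
  obtain ⟨Q, _, r, q, t', hqr, htq, hQ⟩ := exists_twoStep
  let c : Fin (n + 2) → Q := fun i => r ^ i.1 * t' * (r ^ i.1)⁻¹
  have hc : Function.Injective (FreeGroup.lift c) :=
    free_conjugates (v := ![r, t']) hQ (n + 2)
  let F₁ := (MonoidHom.inl G Q).comp (FreeGroup.lift (Fin.cons (ι (powComm t (of w) 2)) s))
  let F₂ := (MonoidHom.inr G Q).comp (FreeGroup.lift c)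
  have h1 : Function.Injective F₁ :=
    (show Function.Injective (MonoidHom.inl G Q) from fun a b h => congrArg Prod.fst h).comp hfree
  have h2 : Function.Injective F₂ :=
    (show Function.Injective (MonoidHom.inr G Q) from fun a b h => congrArg Prod.snd h).comp hc
  let φ := (MonoidHom.ofInjective h1).symm.trans (MonoidHom.ofInjective h2)
  let L : G →* HNNExtension (G × Q) _ _ φ :=
    ((MulAut.conj t).toMonoidHom.comp of).comp (MonoidHom.inl G Q)
  let R : Q →* HNNExtension (G × Q) _ _ φ := of.comp (MonoidHom.inr G Q)
  have hL : Function.Injective L := (MulAut.conj _).injective.comp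
    ((of_injective φ).comp fun a b h => congrArg Prod.fst h)
  refine ⟨HNNExtension (G × Q) _ _ φ, inferInstance, (L.comp ι).comp of, L (ι t), R r, R q, R t',
    fun i => L (s i), hL.comp (hι.comp (of_injective _)), fun i => ?_, ?_, ?_, fun i => ?_⟩
  · have := congrArg L (hs i)
    simp only [map_mul, map_inv, map_powComm] at this
    refine Eq.trans ?_ (this.trans rfl)
    induction i using Fin.cases <;> simp
  · simpa using congrArg R hqr
  · simpa using congrArg R htq
  · have := equiv_eq_conj (φ := φ) (MonoidHom.ofInjective h1 (FreeGroup.of i))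
    simp only [φ, MulEquiv.trans_apply, MulEquiv.symm_apply_apply,
      MonoidHom.ofInjective_apply] at this
    have e1 : (Fin.cons (powComm (L (ι t)) (((L.comp ι).comp of) w) 2) (fun i => L (s i)) :
        Fin (n + 2) → HNNExtension (G × Q) _ _ φ) i =
        L ((Fin.cons (ι (powComm t (of w) 2)) s : Fin (n + 2) → G) i) := by
      induction i using Fin.cases <;> simp [map_powComm]
    rw [e1]
    simp only [L, R, MonoidHom.comp_apply, ← map_pow, ← map_inv, ← map_mul]
    simpa [F₁, F₂, c, MulAut.conj_apply] using this.symm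

end FA.Undecidability
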