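import Mathlib.Computability.Reduce
import Mathlib.GroupTheory.PresentedGroup
import Fermat.Agent.Undecidability.GroupProblem
import Fermat.Agent.Undecidability.Killing

/-!
# The theorem of Adian and Rabin

From a word `w` a finite presentation is computed which gives `G₊` if `w = 1` in a fixed group
with undecidable word problem, and a group containing `G₋` otherwise.
-/

set_option autoImplicit false

namespace FA.Undecidability

/-- The generators: the letters of `U₀` and of `G₋`, the stable letters, six letters `z r q t` and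
the two commutators, and the letters of `G₊`. -/
abbrev RabinGen (a b c : ℕ) := (Fin a ⊕ Fin b) ⊕ Fin (a + b + 1) ⊕ Fin 6 ⊕ Fin c

/-- The relators of a finite list of words. -/
def wordRels {N : ℕ} (L : List (List (Fin N × Bool))) : Set (FreeGroup (Fin N)) :=
  {r | ∃ w ∈ L, FreeGroup.mk w = r}

theorem primrec_invRev {α : Type*} [Primcodable α] :
    Primrec (FreeGroup.invRev : List (α × Bool) → List (α × Bool)) :=
  Primrec.list_reverse.comp (Primrec.list_map Primrec.id
    ((Primrec.pair (Primrec.fst.comp Primrec.snd)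
      ((Primrec.dom_finite not).comp (Primrec.snd.comp Primrec.snd))).to₂))

/-- The word of `powComm z w k`. -/
def powCommWord {α : Type*} (z : α) (k : ℕ) (W : List (α × Bool)) : List (α × Bool) :=
  List.replicate k (z, true) ++ W ++ List.replicate k (z, false) ++ FreeGroup.invRev W

theorem mk_powCommWord {α : Type*} (z : α) (k : ℕ) (W : List (α × Bool)) :
    FreeGroup.mk (powCommWord z k W) = powComm (FreeGroup.of z) (FreeGroup.mk W) k := by
  simp only [powCommWord, freeMk_append, freeMk_replicate, ← FreeGroup.inv_mk, powComm, cond_true,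
    cond_false, inv_pow]

theorem primrec_powCommWord {α β : Type*} [Primcodable α] [Primcodable β] (z : α) (k : ℕ)
    {f : β → List (α × Bool)} (hf : Primrec f) : Primrec fun x => powCommWord z k (f x) :=
  Primrec.list_append.comp (Primrec.list_append.comp
    (Primrec.list_append.comp (Primrec.const _) hf) (Primrec.const _)) (primrec_invRev.comp hf)

/-- The word in the new letters. -/
def moveWord {α β : Type*} (f : α → β) (w : List (α × Bool)) : List (β × Bool) :=
  w.map fun x => (f x.1, x.2)

theorem primrec_moveWord {α β : Type*} [Primcodable α] [Finite α] [Primcodable β] (f : α → β) :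
    Primrec (moveWord f) :=
  Primrec.list_map Primrec.id ((Primrec.pair
    ((Primrec.dom_finite f).comp (Primrec.fst.comp Primrec.snd))
    (Primrec.snd.comp Primrec.snd)).to₂)

variable {a b c : ℕ}

/-- A letter of the big group. -/
noncomputable def rabinLetter (x : RabinGen a b c) : Fin (Fintype.card (RabinGen a b c)) :=
  Fintype.equivFin _ x

/-- A letter as an element. -/
noncomputable def rabinOf (x : RabinGen a b c) : FreeGroup (Fin (Fintype.card (RabinGen a b c))) :=
  FreeGroup.of (rabinLetter x)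

/-- The letters of `U`, after a first trivial one. -/
noncomputable def rabinBase (i : Fin (a + b + 1)) :
    FreeGroup (Fin (Fintype.card (RabinGen a b c))) :=
  (Fin.cons 1 fun k => rabinOf (.inl (finSumFinEquiv.symm k)) : Fin (a + b + 1) → _) i

/-- The relators which do not depend on the word. -/
noncomputable def rabinFixed (R₀ : List (FreeGroup (Fin a))) (Rb : List (FreeGroup (Fin b)))
    (Rc : List (FreeGroup (Fin c))) :
    List (FreeGroup (Fin (Fintype.card (RabinGen a b c)))) :=
  let s := fun i => rabinOf (a := a) (b := b) (c := c) (.inr (.inl i))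
  let g := fun j : Fin 6 => rabinOf (a := a) (b := b) (c := c) (.inr (.inr (.inl j)))
  R₀.map (FreeGroup.map fun i => rabinLetter (.inl (.inl i))) ++
  Rb.map (FreeGroup.map fun i => rabinLetter (.inl (.inr i))) ++
  Rc.map (FreeGroup.map fun i => rabinLetter (.inr (.inr (.inr i)))) ++
  [g 2 * g 1 * (g 2)⁻¹ * (g 1 ^ 2)⁻¹, g 3 * g 2 * (g 3)⁻¹ * (g 2 ^ 2)⁻¹] ++
  (List.finRange (a + b + 1)).map (fun i => s i * (rabinBase i * g 0) * (s i)⁻¹ * (g 4)⁻¹) ++
  (List.finRange (a + b + 2)).map fun i =>
    (Fin.cons (g 5) s : Fin (a + b + 2) → _) i * (g 1 ^ i.1 * g 3 * (g 1 ^ i.1)⁻¹)⁻¹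

/-- **The presentation of a word.** -/
noncomputable def rabinWords (R₀ : List (FreeGroup (Fin a))) (Rb : List (FreeGroup (Fin b)))
    (Rc : List (FreeGroup (Fin c))) (w : List (Fin a × Bool)) :
    List (List (Fin (Fintype.card (RabinGen a b c)) × Bool)) :=
  let W := moveWord (fun i => rabinLetter (.inl (.inl i))) w
  let z := rabinLetter (.inr (.inr (.inl 0)))
  (rabinFixed R₀ Rb Rc).map FreeGroup.toWord ++
    [(rabinLetter (.inr (.inr (.inl 4))), true) :: FreeGroup.invRev (powCommWord z 1 W),
      (rabinLetter (.inr (.inr (.inl 5))), true) :: FreeGroup.invRev (powCommWord z 2 W)]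

theorem primrec_rabinWords (R₀ : List (FreeGroup (Fin a))) (Rb : List (FreeGroup (Fin b)))
    (Rc : List (FreeGroup (Fin c))) : Primrec (rabinWords R₀ Rb Rc) :=
  Primrec.list_append.comp (Primrec.const _) (Primrec.list_cons.comp
    (Primrec.list_cons.comp (Primrec.const _)
      (primrec_invRev.comp (primrec_powCommWord _ 1 (primrec_moveWord _))))
    (Primrec.list_cons.comp (Primrec.list_cons.comp (Primrec.const _)
      (primrec_invRev.comp (primrec_powCommWord _ 2 (primrec_moveWord _)))) (Primrec.const [])))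

/-- What a map must satisfy to kill the relators. -/
structure RabinRelations {H : Type} [Group H] (R₀ : List (FreeGroup (Fin a)))
    (Rb : List (FreeGroup (Fin b))) (Rc : List (FreeGroup (Fin c))) (w : List (Fin a × Bool))
    (v : RabinGen a b c → H) : Prop where
  rel₀ : ∀ r ∈ R₀, FreeGroup.lift (fun i => v (.inl (.inl i))) r = 1
  relb : ∀ r ∈ Rb, FreeGroup.lift (fun i => v (.inl (.inr i))) r = 1
  relc : ∀ r ∈ Rc, FreeGroup.lift (fun i => v (.inr (.inr (.inr i)))) r = 1
  qr : v (.inr (.inr (.inl 2))) * v (.inr (.inr (.inl 1))) * (v (.inr (.inr (.inl 2))))⁻¹ =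
    v (.inr (.inr (.inl 1))) ^ 2
  tq : v (.inr (.inr (.inl 3))) * v (.inr (.inr (.inl 2))) * (v (.inr (.inr (.inl 3))))⁻¹ =
    v (.inr (.inr (.inl 2))) ^ 2
  conj : ∀ i, v (.inr (.inl i)) * ((Fin.cons 1 fun k => v (.inl (finSumFinEquiv.symm k)) :
      Fin (a + b + 1) → H) i * v (.inr (.inr (.inl 0)))) * (v (.inr (.inl i)))⁻¹ =
    v (.inr (.inr (.inl 4)))
  join : ∀ i : Fin (a + b + 2), (Fin.cons (v (.inr (.inr (.inl 5)))) fun j => v (.inr (.inl j)) :
      Fin (a + b + 2) → H) i = v (.inr (.inr (.inl 1))) ^ i.1 * v (.inr (.inr (.inl 3))) *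
        (v (.inr (.inr (.inl 1))) ^ i.1)⁻¹
  comm₁ : v (.inr (.inr (.inl 4))) = powComm (v (.inr (.inr (.inl 0))))
    (FreeGroup.lift (fun i => v (.inl (.inl i))) (FreeGroup.mk w)) 1
  comm₂ : v (.inr (.inr (.inl 5))) = powComm (v (.inr (.inr (.inl 0))))
    (FreeGroup.lift (fun i => v (.inl (.inl i))) (FreeGroup.mk w)) 2

theorem rabin_relations_iff {H : Type} [Group H] (R₀ : List (FreeGroup (Fin a)))
    (Rb : List (FreeGroup (Fin b))) (Rc : List (FreeGroup (Fin c))) (w : List (Fin a × Bool))
    (φ : FreeGroup (Fin (Fintype.card (RabinGen a b c))) →* H) :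
    (∀ r ∈ wordRels (rabinWords R₀ Rb Rc w), φ r = 1) ↔
      RabinRelations R₀ Rb Rc w fun x => φ (rabinOf x) := by
  have hmap : ∀ {d : ℕ} (f : Fin d → RabinGen a b c) (r : FreeGroup (Fin d)),
      φ (FreeGroup.map (fun i => rabinLetter (f i)) r) =
        FreeGroup.lift (fun i => φ (rabinOf (f i))) r := by
    intro d f r
    refine DFunLike.congr_fun (f := φ.comp (FreeGroup.map fun i => rabinLetter (f i))) ?_ r
    ext i
    simp [rabinOf]
  have hW : FreeGroup.mk
      (moveWord (fun i : Fin a => rabinLetter (b := b) (c := c) (.inl (.inl i))) w) =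
      FreeGroup.map (fun i => rabinLetter (.inl (.inl i))) (FreeGroup.mk w) :=
    rfl
  have hc : ∀ (j : Fin 6) (k : ℕ),
      φ (FreeGroup.mk ((rabinLetter (a := a) (b := b) (c := c) (.inr (.inr (.inl j))), true) ::
        FreeGroup.invRev (powCommWord (rabinLetter (.inr (.inr (.inl 0)))) k
          (moveWord (fun i => rabinLetter (.inl (.inl i))) w)))) = 1 ↔
      φ (rabinOf (.inr (.inr (.inl j)))) = powComm (φ (rabinOf (.inr (.inr (.inl 0)))))
        (FreeGroup.lift (fun i => φ (rabinOf (.inl (.inl i)))) (FreeGroup.mk w)) k := by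
    intro j k
    rw [← List.singleton_append, freeMk_append, ← FreeGroup.inv_mk, mk_powCommWord, hW, map_mul,
      map_inv, map_powComm, hmap, mul_inv_eq_one]
    rfl
  have hbase : ∀ i, φ (rabinBase (a := a) (b := b) (c := c) i) =
      (Fin.cons 1 fun k => φ (rabinOf (.inl (finSumFinEquiv.symm k))) : Fin (a + b + 1) → H) i := by
    intro i
    induction i using Fin.cases <;> simp [rabinBase]
  have hjoin : ∀ i : Fin (a + b + 2), φ ((Fin.cons (rabinOf (c := c) (.inr (.inr (.inl 5))))
      fun j => rabinOf (.inr (.inl j)) : Fin (a + b + 2) → _) i) =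
      (Fin.cons (φ (rabinOf (.inr (.inr (.inl 5))))) fun j => φ (rabinOf (.inr (.inl j))) :
        Fin (a + b + 2) → H) i := by
    intro i
    induction i using Fin.cases <;> simp
  have hwords : (∀ r ∈ wordRels (rabinWords R₀ Rb Rc w), φ r = 1) ↔
      (∀ r ∈ rabinFixed R₀ Rb Rc, φ r = 1) ∧ ∀ W ∈
        [(rabinLetter (a := a) (b := b) (c := c) (.inr (.inr (.inl 4))), true) :: FreeGroup.invRev
          (powCommWord (rabinLetter (.inr (.inr (.inl 0)))) 1
            (moveWord (fun i => rabinLetter (.inl (.inl i))) w)),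
        (rabinLetter (.inr (.inr (.inl 5))), true) :: FreeGroup.invRev
          (powCommWord (rabinLetter (.inr (.inr (.inl 0)))) 2
            (moveWord (fun i => rabinLetter (.inl (.inl i))) w))], φ (FreeGroup.mk W) = 1 := by
    simp only [wordRels, Set.mem_ofPred_eq, forall_exists_index, and_imp, rabinWords]
    constructor
    · intro h
      refine ⟨fun r hr => ?_, fun W hW => h _ W (List.mem_append_right _ hW) rfl⟩
      exact h r _ (List.mem_append_left _ (List.mem_map_of_mem hr)) FreeGroup.mk_toWord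
    · rintro ⟨h1, h2⟩ r W hW rfl
      rcases List.mem_append.1 hW with hW | hW
      · obtain ⟨r, hr, rfl⟩ := List.mem_map.1 hW
        rw [FreeGroup.mk_toWord]
        exact h1 r hr
      · exact h2 W hW
  rw [hwords]
  simp only [rabinFixed, List.forall_mem_append, List.forall_mem_map, List.forall_mem_cons,
    List.mem_finRange, forall_const, map_mul, map_inv, map_pow, mul_inv_eq_one, hmap, hbase,
    hjoin, hc, List.not_mem_nil, IsEmpty.forall_iff, and_true]
  exact ⟨fun ⟨⟨⟨⟨⟨⟨h1, h2⟩, h3⟩, h4, h5⟩, h6⟩, h7⟩, h8, h9⟩ =>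
      ⟨h1, h2, h3, h4, h5, h6, h7, h8, h9⟩,
    fun h => ⟨⟨⟨⟨⟨⟨h.rel₀, h.relb⟩, h.relc⟩, h.qr, h.tq⟩, h.conj⟩, h.join⟩, h.comm₁, h.comm₂⟩⟩

/-- **A trivial word gives `G₊`.** -/
theorem rabin_trivial {R₀ : List (FreeGroup (Fin a))} {Rb : List (FreeGroup (Fin b))}
    {Rc : List (FreeGroup (Fin c))} {w : List (Fin a × Bool)}
    (hw : PresentedGroup.mk {r | r ∈ R₀} (FreeGroup.mk w) = 1) :
    Nonempty (PresentedGroup (wordRels (rabinWords R₀ Rb Rc w)) ≃*
      PresentedGroup {r | r ∈ Rc}) := by
  let π := PresentedGroup.mk (wordRels (rabinWords R₀ Rb Rc w))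
  let P : RabinGen a b c → PresentedGroup (wordRels (rabinWords R₀ Rb Rc w)) :=
    fun x => π (rabinOf x)
  have h : RabinRelations R₀ Rb Rc w P :=
    (rabin_relations_iff R₀ Rb Rc w π).1 fun r hr => PresentedGroup.one_of_mem hr
  have hW : FreeGroup.lift (fun i => P (.inl (.inl i))) (FreeGroup.mk w) = 1 := by
    have := congrArg (PresentedGroup.toGroup (rels := {r | r ∈ R₀}) h.rel₀) hw
    rwa [map_one] at this
  have p4 : P (.inr (.inr (.inl 4))) = 1 := by rw [h.comm₁, hW, powComm_one]
  have p5 : P (.inr (.inr (.inl 5))) = 1 := by rw [h.comm₂, hW, powComm_one]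
  have ht : P (.inr (.inr (.inl 3))) = 1 := by simpa [p5] using (h.join 0).symm
  have hq : P (.inr (.inr (.inl 2))) = 1 := by simpa [ht, pow_two] using h.tq.symm
  have hr : P (.inr (.inr (.inl 1))) = 1 := by simpa [hq, pow_two] using h.qr.symm
  have hs : ∀ i, P (.inr (.inl i)) = 1 := fun i => by simpa [hr, ht] using h.join i.succ
  have hz : P (.inr (.inr (.inl 0))) = 1 := by simpa [hs, p4] using h.conj 0
  have hU : ∀ y, P (.inl y) = 1 := fun y => by
    simpa [hs, p4, hz] using h.conj (finSumFinEquiv y).succ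
  let v : RabinGen a b c → PresentedGroup {r | r ∈ Rc} :=
    Sum.elim (fun _ => 1) (Sum.elim (fun _ => 1) (Sum.elim (fun _ => 1) PresentedGroup.of))
  have one : ∀ (d : ℕ) (x : FreeGroup (Fin d)),
      FreeGroup.lift (fun _ => (1 : PresentedGroup {r | r ∈ Rc})) x = 1 := fun d x =>
    DFunLike.congr_fun (show FreeGroup.lift (fun _ : Fin d => (1 : PresentedGroup {r | r ∈ Rc})) = 1
      from FreeGroup.ext_hom _ _ fun i => by simp) x
  have hv : ∀ r ∈ wordRels (rabinWords R₀ Rb Rc w),
      FreeGroup.lift (fun i => v ((Fintype.equivFin _).symm i)) r = 1 := by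
    refine (rabin_relations_iff R₀ Rb Rc w _).2 ?_
    simp only [rabinOf, rabinLetter, FreeGroup.lift_apply_of, Equiv.symm_apply_apply]
    refine ⟨fun r _ => one a r, fun r _ => one b r, fun r hr => ?_, by simp [v], by simp [v],
      fun i => ?_, fun i => ?_, ?_, ?_⟩
    · have : FreeGroup.lift (fun i : Fin c => (PresentedGroup.of i : PresentedGroup {r | r ∈ Rc})) =
          PresentedGroup.mk {r | r ∈ Rc} :=
        FreeGroup.ext_hom _ _ fun i => by simp [PresentedGroup.of]
      exact (DFunLike.congr_fun this r).trans (PresentedGroup.one_of_mem hr)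
    · induction i using Fin.cases <;> simp [v]
    · induction i using Fin.cases <;> simp [v]
    all_goals simp [v, one a, powComm_one]
  let g := PresentedGroup.toGroup (rels := {r | r ∈ Rc}) h.relc
  refine ⟨(PresentedGroup.toGroup hv).toMulEquiv g ?_ ?_⟩
  · refine PresentedGroup.ext fun i => ?_
    simp only [MonoidHom.comp_apply, MonoidHom.id_apply, PresentedGroup.toGroup.of]
    obtain ⟨x, rfl⟩ := (Fintype.equivFin (RabinGen a b c)).surjective i
    rw [Equiv.symm_apply_apply]
    change g (v x) = P x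
    rcases x with y | i | j | i
    · simp [v, hU]
    · simp [v, hs]
    · fin_cases j <;> simp [v, hz, hr, hq, ht, p4, p5]
    · simp [v, g, PresentedGroup.toGroup.of]
  · refine PresentedGroup.ext fun i => ?_
    simp only [MonoidHom.comp_apply, MonoidHom.id_apply, g, PresentedGroup.toGroup.of]
    change FreeGroup.lift (fun i => v ((Fintype.equivFin _).symm i))
      (rabinOf (.inr (.inr (.inr i)))) = _
    simp [v, rabinOf, rabinLetter]

/-- **A nontrivial word gives a group containing `G₋`.** -/
theorem rabin_nontrivial {R₀ : List (FreeGroup (Fin a))} {Rb : List (FreeGroup (Fin b))}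
    {Rc : List (FreeGroup (Fin c))} {w : List (Fin a × Bool)}
    (hw : PresentedGroup.mk {r | r ∈ R₀} (FreeGroup.mk w) ≠ 1) :
    ∃ f : PresentedGroup {r | r ∈ Rb} →* PresentedGroup (wordRels (rabinWords R₀ Rb Rc w)),
      Function.Injective f := by
  let A := PresentedGroup {r | r ∈ R₀}
  let B := PresentedGroup {r | r ∈ Rb}
  let x : Fin (a + b) → A × B := fun k =>
    Sum.elim (fun i => (PresentedGroup.of i, 1)) (fun i => (1, PresentedGroup.of i))
      (finSumFinEquiv.symm k)
  obtain ⟨H, _, j, z, r, q, t, s, hj, hs, hqr, htq, hjoin⟩ := exists_killing x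
    (w := ((PresentedGroup.mk {r | r ∈ R₀} (FreeGroup.mk w), 1) : A × B))
    fun e => hw (congrArg Prod.fst e)
  let jw := j ((PresentedGroup.mk {r | r ∈ R₀} (FreeGroup.mk w), 1) : A × B)
  let v : RabinGen a b c → H := Sum.elim
    (fun y => j (x (finSumFinEquiv y)))
    (Sum.elim s (Sum.elim ![z, r, q, t, powComm z jw 1, powComm z jw 2] fun _ => 1))
  let jA : A →* H := j.comp (MonoidHom.inl A B)
  let jB : B →* H := j.comp (MonoidHom.inr A B)
  have hA : ∀ y, FreeGroup.lift (fun i => v (.inl (.inl i))) y = jA (PresentedGroup.mk _ y) :=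
    fun y => DFunLike.congr_fun (g := jA.comp (PresentedGroup.mk _))
      (FreeGroup.ext_hom _ _ fun i => by simp [v, x, jA, PresentedGroup.of]) y
  have hB : ∀ y, FreeGroup.lift (fun i => v (.inl (.inr i))) y = jB (PresentedGroup.mk _ y) :=
    fun y => DFunLike.congr_fun (g := jB.comp (PresentedGroup.mk _))
      (FreeGroup.ext_hom _ _ fun i => by simp [v, x, jB, PresentedGroup.of]) y
  have hv : ∀ y ∈ wordRels (rabinWords R₀ Rb Rc w),
      FreeGroup.lift (fun i => v ((Fintype.equivFin _).symm i)) y = 1 := by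
    refine (rabin_relations_iff R₀ Rb Rc w _).2 ?_
    simp only [rabinOf, rabinLetter, FreeGroup.lift_apply_of, Equiv.symm_apply_apply]
    refine ⟨fun y hy => ?_, fun y hy => ?_, fun y _ => ?_, by simpa [v] using hqr,
      by simpa [v] using htq, fun i => ?_, fun i => ?_, ?_, ?_⟩
    · rw [hA, PresentedGroup.one_of_mem hy, map_one]
    · rw [hB, PresentedGroup.one_of_mem hy, map_one]
    · exact DFunLike.congr_fun (g := (1 : FreeGroup (Fin c) →* H))
        (FreeGroup.ext_hom _ _ fun i => by simp [v]) y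
    · simpa [v, jw] using hs i
    · simpa [v, jw] using hjoin i
    · rw [hA]; simp [v, jw, jA]
    · rw [hA]; simp [v, jw, jA]
  have hb : ∀ y ∈ {r : FreeGroup (Fin b) | r ∈ Rb},
      FreeGroup.lift (fun i => PresentedGroup.mk (wordRels (rabinWords R₀ Rb Rc w))
        (rabinOf (.inl (.inr i)))) y = 1 :=
    ((rabin_relations_iff R₀ Rb Rc w _).1 fun _ hr => PresentedGroup.one_of_mem hr).relb
  refine ⟨PresentedGroup.toGroup hb, ?_⟩
  refine Function.Injective.of_comp (f := PresentedGroup.toGroup hv) ?_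
  have e : (PresentedGroup.toGroup hv).comp (PresentedGroup.toGroup hb) = jB := by
    refine PresentedGroup.ext fun i => ?_
    rw [MonoidHom.comp_apply, PresentedGroup.toGroup.of]
    change FreeGroup.lift (fun i => v ((Fintype.equivFin (RabinGen a b c)).symm i))
      (rabinOf (.inl (.inr i))) = _
    simp [v, x, jB, rabinOf, rabinLetter]
    rfl
  rw [← MonoidHom.coe_comp, e]
  exact hj.comp fun u u' h => congrArg Prod.snd h

/-- **Adian and Rabin.** -/
theorem exists_hard_presentations (Rb : List (FreeGroup (Fin b))) (Rc : List (FreeGroup (Fin c))) :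
    ∃ M : ℕ, ∀ P : ∀ (G : Type) [Group G], Prop,
      (∀ (G G' : Type) [Group G] [Group G'], (G ≃* G') → P G → P G') →
      P (PresentedGroup {r | r ∈ Rc}) →
      (∀ (n : ℕ) (S : Set (FreeGroup (Fin n))), S.Finite →
        ∀ f : PresentedGroup {r | r ∈ Rb} →* PresentedGroup S,
          Function.Injective f → ¬P (PresentedGroup S)) →
      ¬ComputablePred fun W : List (List (Fin M × Bool)) => P (PresentedGroup (wordRels W)) := by
  obtain ⟨a, R₀, hR₀⟩ := exists_hard_group
  refine ⟨Fintype.card (RabinGen a b c), fun P hiso hplus hminus hC =>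
    hR₀ (ComputablePred.computable_of_manyOneReducible
      ⟨rabinWords R₀ Rb Rc, (primrec_rabinWords R₀ Rb Rc).to_comp, fun w => ?_⟩ hC)⟩
  constructor
  · intro hw
    obtain ⟨e⟩ := rabin_trivial (Rb := Rb) (Rc := Rc) hw
    exact hiso _ _ e.symm hplus
  · intro hP
    by_contra hw
    obtain ⟨f, hf⟩ := rabin_nontrivial (Rb := Rb) (Rc := Rc) hw
    refine hminus _ _ ?_ f hf hP
    refine ((List.finite_toSet (rabinWords R₀ Rb Rc w)).image FreeGroup.mk).subset ?_
    rintro r ⟨W, hW, rfl⟩
    exact ⟨W, hW, rfl⟩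

end FA.Undecidability
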