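import Mathlib.Tactic.LinearCombination
import Fermat.Agent.Undecidability.AffineMachine

/-!
# Affine systems for recursively enumerable sets of words

A word becomes a string of binary blocks of one length, then the input of a machine which halts
exactly on the words of the set. Putting a letter in front of a word is one affine map of the
points, and only such points are sent to such points.
-/

set_option autoImplicit false

namespace FA.Undecidability

open Turing

/-- The number with given binary digits, the first one leading. -/
def natOf (bits : List Bool) : ℕ := bits.foldl (fun x b => 2 * x + b.toNat) 0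

theorem natOf_snoc (bits : List Bool) (b : Bool) :
    natOf (bits ++ [b]) = 2 * natOf bits + b.toNat := by
  simp [natOf]

theorem natOf_append (x y : List Bool) : natOf (x ++ y) = natOf x * 2 ^ y.length + natOf y := by
  induction y using List.reverseRec with
  | nil => simp [natOf]
  | append_singleton y b ih =>
    rw [← List.append_assoc, natOf_snoc, natOf_snoc, ih, List.length_append, List.length_singleton,
      pow_succ]
    ring

theorem natOf_lt (x : List Bool) : natOf x < 2 ^ x.length := by
  induction x using List.reverseRec with
  | nil => simp [natOf]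
  | append_singleton x b ih =>
    rw [natOf_snoc, List.length_append, List.length_singleton, pow_succ]
    have := b.toNat_le
    omega

/-- A digit as a stack letter. -/
def bitLetter (b : Bool) : PartrecToTM2.Γ' :=
  cond b PartrecToTM2.Γ'.bit1 PartrecToTM2.Γ'.bit0

theorem trNat_bit0 {m : ℕ} (hm : m ≠ 0) :
    PartrecToTM2.trNat (2 * m) = PartrecToTM2.Γ'.bit0 :: PartrecToTM2.trNat m := by
  have e : ((2 * m : ℕ) : Num) = (m : Num).bit0 := by
    rw [← Num.to_nat_inj]
    cases h : (m : Num) with
    | zero => exact absurd (by simpa using congrArg (fun x : Num => (x : ℕ)) h) hm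
    | pos p =>
      have hm : m = (p : ℕ) := by simpa using congrArg (fun x : Num => (x : ℕ)) h
      rw [Num.to_of_nat, hm]
      simp [Num.bit0, PosNum.cast_bit0, two_mul]
  rw [PartrecToTM2.trNat, PartrecToTM2.trNat, e]
  cases h : (m : Num) with
  | zero => exact absurd (by simpa using congrArg (fun x : Num => (x : ℕ)) h) hm
  | pos p => rfl

theorem trNat_natOf (l : List Bool) :
    0 < natOf (true :: l) ∧
      PartrecToTM2.trNat (natOf (true :: l)) = ((true :: l).map bitLetter).reverse := by
  induction l using List.reverseRec with
  | nil => exact ⟨Nat.one_pos, by simpa [natOf, bitLetter] using trNat_bit1 0⟩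
  | append_singleton l b ih =>
    rw [← List.cons_append, natOf_snoc]
    refine ⟨by omega, ?_⟩
    cases b
    · rw [Bool.toNat_false, add_zero, trNat_bit0 ih.1.ne', ih.2]
      simp [bitLetter]
    · rw [Bool.toNat_true, trNat_bit1, ih.2]
      simp [bitLetter]

/-- The cell of a digit. -/
def cellBit (b : Bool) : TapeLetter :=
  (false, Function.update (fun _ => none) PartrecToTM2.K'.main (some (bitLetter b)))

theorem cellBit_injective : Function.Injective cellBit := by
  intro b b' h
  have := congrArg (fun c : TapeLetter => c.2 PartrecToTM2.K'.main) h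
  cases b <;> cases b' <;> simp [cellBit, bitLetter] at this ⊢

theorem trInit_bits {bits : List Bool} (h : bits = [] ∨ ∃ l, bits = true :: l) :
    TM2to1.trInit PartrecToTM2.K'.main (PartrecToTM2.trList [natOf bits]) =
      cellHead :: bits.map cellBit := by
  have e : PartrecToTM2.trNat (natOf bits) = (bits.map bitLetter).reverse := by
    rcases h with rfl | ⟨l, rfl⟩
    · simp [natOf]
    · exact (trNat_natOf l).2
  simp only [TM2to1.trInit, PartrecToTM2.trList, e, cellHead, List.reverse_append,
    List.reverse_cons, List.reverse_nil, List.nil_append, List.singleton_append,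
    List.reverse_reverse]
  refine congrArg₂ List.cons rfl ?_
  exact List.map_map

section numbers

variable {Q : Type} [Inhabited Q] (C : MachineCode Q TapeLetter)

/-- The number of a string of digit cells. -/
def numOf : List Bool → ℕ
  | [] => 0
  | b :: l => C.dg (cellBit b) + C.m * numOf l

omit [Inhabited Q] in
theorem numOf_append : ∀ x y, numOf C (x ++ y) = numOf C x + C.m ^ x.length * numOf C y
  | [], y => by simp [numOf]
  | b :: x, y => by
    simp only [List.cons_append, numOf, numOf_append x y, List.length_cons, pow_succ]
    ring

omit [Inhabited Q] in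
theorem numOf_lt : ∀ x, numOf C x < C.m ^ x.length
  | [] => by simp [numOf]
  | b :: x => by
    have h1 := numOf_lt x
    have h2 := C.dg_lt (cellBit b)
    simp only [numOf, List.length_cons, pow_succ]
    nlinarith

omit [Inhabited Q] in
theorem dg_cellBit_pos (b : Bool) : 0 < C.dg (cellBit b) := by
  refine Nat.pos_of_ne_zero fun h => ?_
  have h1 := congrArg C.un h
  rw [C.un_dg, ← C.dg_default, C.un_dg] at h1
  have := congrArg (fun c : TapeLetter => c.2 PartrecToTM2.K'.main) h1
  simp [cellBit] at this

omit [Inhabited Q] in
theorem numOf_injective : Function.Injective (numOf C)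
  | [], [], _ => rfl
  | [], b :: y, h => by
    have := dg_cellBit_pos C b
    simp only [numOf] at h
    omega
  | b :: x, [], h => by
    have := dg_cellBit_pos C b
    simp only [numOf] at h
    omega
  | b :: x, b' :: y, h => by
    simp only [numOf] at h
    have hm := congrArg (· % C.m) h
    simp only [Nat.add_mul_mod_self_left, Nat.mod_eq_of_lt (C.dg_lt _)] at hm
    have hb := congrArg C.un hm
    rw [C.un_dg, C.un_dg] at hb
    obtain rfl := cellBit_injective hb
    have h' : numOf C x = numOf C y :=
      Nat.eq_of_mul_eq_mul_left (by have := C.one_lt; omega) (Nat.add_left_cancel h)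
    rw [numOf_injective h']

omit [Inhabited Q] in
theorem blankOf_numOf : ∀ x, C.blankOf (numOf C x) = ListBlank.mk (x.map cellBit)
  | [] => by simp [numOf, MachineCode.blankOf]
  | b :: x => by
    rw [numOf, C.blankOf_add (C.dg_lt _), C.un_dg, blankOf_numOf x, ListBlank.cons_mk,
      List.map_cons]

end numbers

/-- **An affine system for a recursively enumerable set of words.** -/
theorem exists_code_system {α : Type} [Fintype α] [Primcodable α] {N : List α → Prop}
    (hN : REPred N) :
    ∃ (L : List (PlaneMap × PlaneMap)) (S : Set (ℤ × ℤ)) (point : List α → ℤ × ℤ)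
      (β : α → PlaneMap),
      (∀ p ∈ L, (p.1.Nondeg ∧ p.2.Nondeg) ∧ ∀ P, p.1.app P ∈ S ↔ p.2.app P ∈ S) ∧
      (0, 0) ∈ S ∧
      (∀ Φ : ℤ × ℤ → Prop, Φ (0, 0) → (∀ p ∈ L, ∀ P, Φ (p.1.app P) ↔ Φ (p.2.app P)) →
        ∀ P ∈ S, Φ P) ∧
      Function.Injective point ∧ (∀ a, (β a).Nondeg) ∧
      (∀ a W, (β a).app (point W) = point (a :: W)) ∧
      (∀ a P, (β a).app P ∈ Set.range point → P ∈ Set.range point) ∧
      ∀ W, point W ∈ S ↔ N W := by
  classical
  let k := Fintype.card α
  let pre : α → List Bool := fun a =>
    true :: (List.range k).map fun j => decide (j = (Fintype.equivFin α a).1)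
  let block : α → List Bool := fun a => pre a ++ [true]
  let code : List α → List Bool := fun W => W.flatMap block
  have hpre : ∀ a, (pre a).length = k + 1 := fun a => by simp [pre]
  have hlen : ∀ a, (block a).length = k + 2 := fun a => by simp [block, hpre]
  have pre_inj : Function.Injective pre := by
    intro a a' h
    have h1 := congrArg (·[(Fintype.equivFin α a).1 + 1]?) h
    have := (Fintype.equivFin α a).2
    simp [pre, k, this] at h1
    exact (Fintype.equivFin α).injective (Fin.ext h1)
  have head_block : ∀ a, ∃ l, block a = true :: l := fun a => ⟨_, rfl⟩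
  have block_inj : Function.Injective block :=
    fun a a' h => pre_inj (List.append_cancel_right h)
  have code_cons : ∀ a W, code (a :: W) = block a ++ code W := fun _ _ => List.flatMap_cons ..
  have head_code : ∀ W, code W = [] ∨ ∃ l, code W = true :: l := by
    rintro (_ | ⟨a, W⟩)
    · exact Or.inl rfl
    · obtain ⟨l, hl⟩ := head_block a
      exact Or.inr ⟨l ++ code W, by rw [code_cons, hl, List.cons_append]⟩
  have code_inj : Function.Injective code := by
    intro W
    induction W with
    | nil =>
      rintro (_ | ⟨a, W'⟩) h
      · rfl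
      · obtain ⟨l, hl⟩ := head_block a
        rw [code_cons, hl] at h
        exact absurd h.symm (List.cons_ne_nil _ _)
    | cons a W ih =>
      rintro (_ | ⟨a', W'⟩) h
      · obtain ⟨l, hl⟩ := head_block a
        rw [code_cons, hl] at h
        exact absurd h (List.cons_ne_nil _ _)
      · rw [code_cons, code_cons] at h
        obtain ⟨h1, h2⟩ := List.append_inj h (by rw [hlen, hlen])
        rw [block_inj h1, ih h2]
  -- the decoder
  let tbl : List (Option α) := (List.range (2 ^ (k + 2))).map fun r =>
    if h : ∃ a, natOf (block a) = r then some h.choose else none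
  let look : ℕ → Option α := fun r => (tbl[r]?).getD none
  let step : ℕ × List α → ℕ × List α := fun s =>
    (s.1 / 2 ^ (k + 2), Option.casesOn (look (s.1 % 2 ^ (k + 2))) s.2 fun a => a :: s.2)
  let dec : ℕ → List α := fun m => (step^[m] (m, [])).2
  have natOf_block : ∀ a a', natOf (block a) = natOf (block a') → a = a' := by
    intro a a' h
    obtain ⟨l, hl⟩ := head_block a
    obtain ⟨l', hl'⟩ := head_block a'
    rw [hl, hl'] at h
    have h1 := (trNat_natOf l).2
    rw [h, (trNat_natOf l').2, List.reverse_inj] at h1
    refine block_inj (hl.trans (Eq.trans ?_ hl'.symm))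
    exact (List.map_injective_iff.2 (fun b b' e => by
      cases b <;> cases b' <;> simp [bitLetter] at e ⊢) h1).symm
  have look_block : ∀ a, look (natOf (block a)) = some a := by
    intro a
    have hlt : natOf (block a) < 2 ^ (k + 2) := hlen a ▸ natOf_lt _
    have hex : ∃ a', natOf (block a') = natOf (block a) := ⟨a, rfl⟩
    simp only [look, tbl, List.getElem?_map, List.getElem?_range hlt, Option.map_some,
      Option.getD_some, dif_pos hex]
    exact congrArg some (natOf_block _ _ hex.choose_spec)
  have look_zero : look 0 = none := by
    have hno : ¬∃ a, natOf (block a) = 0 := fun ⟨a, ha⟩ => by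
      obtain ⟨l, hl⟩ := head_block a
      exact (trNat_natOf l).1.ne' (hl ▸ ha)
    simp [look, tbl, dif_neg hno]
  have code_snoc : ∀ W a, code (W ++ [a]) = code W ++ block a := fun W a => by simp [code]
  have size_le : ∀ W, W.length ≤ natOf (code W) := by
    intro W
    induction W using List.reverseRec with
    | nil => simp
    | append_singleton W a ih =>
      obtain ⟨l, hl⟩ := head_block a
      have := (trNat_natOf l).1
      rw [code_snoc, natOf_append, List.length_append, List.length_singleton, hlen, ← hl] at *
      have := Nat.le_mul_of_pos_right (natOf (code W)) (Nat.two_pow_pos (k + 2))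
      omega
  have stay : ∀ (j : ℕ) (acc : List α), step^[j] (0, acc) = (0, acc) := fun j acc => by
    induction j with
    | zero => rfl
    | succ j ih =>
      rw [Function.iterate_succ_apply]
      simpa [step, look_zero] using ih
  have run : ∀ (W : List α) (j : ℕ) (acc : List α), W.length ≤ j →
      step^[j] (natOf (code W), acc) = (0, W ++ acc) := by
    intro W
    induction W using List.reverseRec with
    | nil => exact fun j acc _ => stay j acc
    | append_singleton W a ih =>
      intro j acc hj
      obtain ⟨j, rfl⟩ : ∃ i, j = i + 1 := ⟨j - 1, by simp at hj; omega⟩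
      rw [Function.iterate_succ_apply]
      have hlt : natOf (block a) < 2 ^ (k + 2) := hlen a ▸ natOf_lt _
      have h1 : step (natOf (code (W ++ [a])), acc) = (natOf (code W), a :: acc) := by
        simp only [step, code_snoc, natOf_append, hlen]
        rw [Nat.mul_add_mod_self_right, Nat.mod_eq_of_lt hlt, look_block,
          Nat.add_comm, Nat.add_mul_div_right _ _ (Nat.two_pow_pos _), Nat.div_eq_of_lt hlt,
          Nat.zero_add]
      rw [h1, ih j (a :: acc) (by simpa using hj)]
      simp
  have dec_code : ∀ W, dec (natOf (code W)) = W := fun W => by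
    simp [dec, run W _ [] (size_le W)]
  have hdec : Primrec dec := by
    have hlook : Primrec fun s : ℕ × List α => look (s.1 % 2 ^ (k + 2)) :=
      Primrec.option_getD.comp ((Primrec.list_getElem?₁ tbl).comp
        (Primrec.nat_mod.comp Primrec.fst (Primrec.const _))) (Primrec.const none)
    have hstep : Primrec step :=
      Primrec.pair (Primrec.nat_div.comp Primrec.fst (Primrec.const _))
        (Primrec.option_casesOn hlook Primrec.snd
          (Primrec.list_cons.comp Primrec.snd (Primrec.snd.comp Primrec.fst)).to₂)
    exact Primrec.snd.comp (Primrec.nat_iterate Primrec.id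
      (Primrec.pair Primrec.id (Primrec.const [])) (hstep.comp Primrec.snd).to₂)
  -- the machine
  let g : ℕ →. ℕ := fun m => (Part.assert (N (dec m)) fun _ => Part.some ()).map fun _ => 0
  have hg : Partrec g :=
    (Partrec.comp hN hdec.to_comp).map ((Computable.const 0).comp Computable.snd).to₂
  obtain ⟨c, hc⟩ := ToPartrec.Code.exists_code (Nat.Partrec'.part_iff₁.2 hg)
  obtain ⟨Q, _, _, M, hM⟩ := exists_machine c
  have key : ∀ W, (StateTransition.eval (TM0.step M)
      (cfgOf default [] (cellHead :: (code W).map cellBit))).Dom ↔ N W := by
    intro W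
    have h1 := hM [natOf (code W)]
    rw [trInit_bits (head_code W)] at h1
    have h2 : c.eval [natOf (code W)] = pure <$> g (natOf (code W)) :=
      hc ⟨[natOf (code W)], rfl⟩
    rw [h2] at h1
    refine h1.trans ?_
    simp [g, dec_code, Part.assert]
  have : Nontrivial TapeLetter := ⟨⟨cellBit true, cellBit false, fun h =>
    Bool.noConfusion (cellBit_injective h)⟩⟩
  obtain ⟨C⟩ := MachineCode.exists_code (Q := Q) (Γ := TapeLetter)
  let input : List α → ℕ := fun W => C.dg cellHead + C.m * numOf C (code W)
  let point : List α → ℤ × ℤ := fun W => ((C.sq default : ℤ), (input W : ℤ))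
  let β : α → PlaneMap := fun a => ⟨(0, (C.dg cellHead : ℤ) + C.m * numOf C (block a) -
    (C.m : ℤ) ^ (k + 2) * C.dg cellHead), (1, (C.m : ℤ) ^ (k + 2))⟩
  have hm : (C.m : ℤ) ≠ 0 := by have := C.one_lt; omega
  refine ⟨C.rules M, C.haltSet M, point, β, fun p hp => C.rules_invariant M hp, ?_,
    fun Φ h0 hr => C.haltSet_induction M h0 hr, ?_, fun a => ?_, fun a W => ?_, ?_, fun W => ?_⟩
  · exact ⟨0, 0, 0, (C.sq_pos default).trans (C.sq_lt default), by simp, Or.inl rfl⟩
  · intro W W' h
    have h' : input W = input W' := Nat.cast_inj.1 (congrArg Prod.snd h)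
    have hpos : 0 < C.m := by have := C.one_lt; omega
    exact code_inj (numOf_injective C
      (Nat.eq_of_mul_eq_mul_left hpos (Nat.add_left_cancel h')))
  · exact ⟨one_ne_zero, pow_ne_zero _ hm⟩
  · simp only [β, point, input, PlaneMap.app, code_cons, numOf_append, hlen]
    push_cast
    exact Prod.ext (by simp) (by ring)
  · rintro a ⟨s, R⟩ ⟨W', hW'⟩
    simp only [β, point, input, PlaneMap.app, Prod.mk.injEq, zero_add, one_mul] at hW'
    obtain ⟨rfl, h⟩ := hW'
    set X : ℤ := R - C.dg cellHead with hX
    have hsplit : ∀ a, numOf C (block a) =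
        numOf C (pre a) + C.m ^ (k + 1) * numOf C [true] := fun a => by
      simp only [block, numOf_append, hpre]
    have h' : (numOf C (code W') : ℤ) =
        numOf C (pre a) + (C.m : ℤ) ^ (k + 1) * (numOf C [true] + X) := by
      refine mul_left_cancel₀ hm ?_
      push_cast [hsplit] at h
      rw [hX]
      linear_combination h
    have small : ∀ (x : ℕ) (j : ℤ), x < C.m ^ (k + 1) → (x : ℤ) = numOf C (pre a) +
        (C.m : ℤ) ^ (k + 1) * j → x = numOf C (pre a) ∧ j = 0 := by
      intro x j hx e
      have hp := numOf_lt C (pre a)
      rw [hpre] at hp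
      have h1 : (x : ℤ) - numOf C (pre a) = 0 := by
        refine Int.eq_zero_of_abs_lt_dvd (m := ((C.m ^ (k + 1) : ℕ) : ℤ)) ⟨j, ?_⟩ ?_
        · push_cast
          linarith
        · rw [abs_sub_lt_iff]
          omega
      refine ⟨by omega, ?_⟩
      have h2 : (C.m : ℤ) ^ (k + 1) * j = 0 := by linarith
      exact (mul_eq_zero.1 h2).resolve_left (pow_ne_zero _ hm)
    rcases W' with _ | ⟨a', W''⟩
    · exfalso
      obtain ⟨h1, -⟩ := small 0 _ (pow_pos (by have := C.one_lt; omega) _) (by simpa [code, numOf]
        using h')
      have h2 := dg_cellBit_pos C true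
      simp only [pre, numOf] at h1
      omega
    · rw [code_cons, numOf_append, hlen, hsplit] at h'
      push_cast at h'
      obtain ⟨h1, h2⟩ := small (numOf C (pre a')) (numOf C [true] + X -
          (numOf C [true] + C.m * numOf C (code W''))) (by rw [← hpre a']; exact numOf_lt C _)
        (by linear_combination h')
      refine ⟨W'', Prod.ext rfl ?_⟩
      simp only [point, input]
      push_cast
      linarith
  · have hb : C.cfg default 0 (input W) = cfgOf default [] (cellHead :: (code W).map cellBit) := by
      rw [MachineCode.cfg, C.blankOf_add (C.dg_lt _), C.un_dg, blankOf_numOf, ListBlank.cons_mk,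
        cfgOf]
      simp [MachineCode.blankOf]
    have h1 := C.mem_haltSet M (C.sq_lt default) 0 (input W : ℤ)
    rw [mul_zero, add_zero] at h1
    rw [h1, ← key W, ← hb, ← C.good_sq M]
    constructor
    · rintro ⟨L', R', hL, hR, h⟩
      obtain rfl : L' = 0 := by exact_mod_cast hL.symm
      obtain rfl : R' = input W := by exact_mod_cast hR.symm
      exact h
    · exact fun h => ⟨0, _, rfl, rfl, h⟩

end FA.Undecidability
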