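import Fermat.Agent.Undecidability.FinitelyPresented
import Fermat.Agent.Undecidability.PlaneGroup

/-!
# The group of the plane is finitely presented

It is the HNN extension of the plane with trivial associated subgroups.
-/

set_option autoImplicit false

namespace FA.Undecidability

/-- **The group of the plane is finitely presented.** -/
theorem fp_planeGroup : Group.IsFinitelyPresented PlaneGroup := by
  have hZ : Group.IsFinitelyPresented (Multiplicative (ℤ × ℤ)) :=
    Group.IsFinitelyPresented.equiv (h := fp_prod inferInstance inferInstance)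
      (MulEquiv.prodMultiplicative ℤ ℤ).symm
  let φ := MulEquiv.refl (⊥ : Subgroup (Multiplicative (ℤ × ℤ)))
  have hx : ∀ a : (⊥ : Subgroup (Multiplicative (ℤ × ℤ))), pointLetter 0 *
      SemidirectProduct.inr (a : Multiplicative (ℤ × ℤ)) =
      SemidirectProduct.inr (φ a : Multiplicative (ℤ × ℤ)) * pointLetter 0 := fun a => by
    simp [φ, Subgroup.mem_bot.1 a.2]
  let F : HNNExtension _ _ _ φ →* PlaneGroup :=
    HNNExtension.lift SemidirectProduct.inr (pointLetter 0) hx
  let w : ℤ × ℤ → HNNExtension _ _ _ φ := fun P =>
    HNNExtension.of (Multiplicative.ofAdd P) * HNNExtension.t *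
      (HNNExtension.of (Multiplicative.ofAdd P))⁻¹
  let K : PlaneGroup →* HNNExtension _ _ _ φ :=
      SemidirectProduct.lift (FreeGroup.lift w) HNNExtension.of fun v => by
    refine FreeGroup.ext_hom _ _ fun P => ?_
    change FreeGroup.lift w (FreeGroup.map (fun x => v.toAdd + x) (FreeGroup.of P)) =
      HNNExtension.of v * FreeGroup.lift w (FreeGroup.of P) * (HNNExtension.of v)⁻¹
    simp [w, ofAdd_add, mul_assoc]
  refine Group.IsFinitelyPresented.equiv (h := fp_hnn hZ φ fg_bot) (MonoidHom.toMulEquiv F K ?_ ?_)
  · ext x <;> simp [F, K, w, pointLetter]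
  · refine SemidirectProduct.hom_ext ?_ ?_
    · refine FreeGroup.ext_hom _ _ fun P => ?_
      simp [F, K, w, ← pointLetter_eq P]
      rfl
    · refine MonoidHom.ext fun v => ?_
      simp [F, K]

end FA.Undecidability
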