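import Fermat.Agent.Undecidability.Tower

/-!
# Benign subgroups

A set is benign below a subgroup `J` if some finitely presented overgroup has a finitely generated
subgroup whose trace contains the set and lies in `J`. Two such sets can be joined: after adding a
letter centralising each subgroup, one more letter identifies the two copies of the base group.
-/

set_option autoImplicit false

namespace FA.Undecidability

open HNNExtension

/-- Between a set and a subgroup lies the trace of a finitely generated subgroup of a finitely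
presented group. -/
def BenignBetween {G : Type} [Group G] (lo : Set G) (hi : Subgroup G) : Prop :=
  ∃ (K : Type) (_ : Group K) (ι : G →* K) (L : Subgroup K),
    Group.IsFinitelyPresented K ∧ Function.Injective ι ∧ L.FG ∧
      lo ⊆ L.comap ι ∧ L.comap ι ≤ hi

variable {G K : Type} [Group G] [Group K]

/-- Letters alternate between `t` times the group and `t⁻¹` times `J`. -/
def Alternates (ι : G →* K) (J : Subgroup G) : List (ℤˣ × K) → Prop
  | [] => True
  | [_] => False
  | (u, a) :: (v, b) :: l =>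
    u = 1 ∧ (∃ g, ι g = a) ∧ v = -1 ∧ (∃ j ∈ J, ι j = b) ∧ Alternates ι J l

/-- The conjugate copy of `G`. -/
def liftedCopy (ι : G →* K) (L : Subgroup K) :
    G →* HNNExtension K L L (MulEquiv.refl L) :=
  (MulAut.conj t).toMonoidHom.comp (of.comp ι)

theorem liftedCopy_apply (ι : G →* K) (L : Subgroup K) (g : G) :
    liftedCopy ι L g = t * of (ι g) * t⁻¹ := rfl

theorem liftedCopy_of_mem (ι : G →* K) {L : Subgroup K} {g : G} (h : ι g ∈ L) :
    liftedCopy ι L g = of (ι g) :=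
  (equiv_eq_conj (φ := MulEquiv.refl L) ⟨ι g, h⟩).symm

/-- **The copy and `J` meet the base copy inside `J`.** -/
theorem mem_of_copy_join (ι : G →* K) (hι : Function.Injective ι) {L : Subgroup K}
    {J : Subgroup G} (hL : L.comap ι ≤ J) {g : G}
    (h : of (ι g) ∈ Subgroup.closure (Set.range (liftedCopy ι L) ∪
      (of.comp ι : G →* HNNExtension K L L (MulEquiv.refl L)) '' J)) : g ∈ J := by
  let φ := MulEquiv.refl L
  let Good : HNNExtension K L L φ → Prop := fun x => ∃ j ∈ J, ∃ w : NormalWord.ReducedWord K L L,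
    w.head = ι j ∧ Alternates ι J w.toList ∧ w.prod φ = x
  have hJ : ∀ i ∈ J, ∀ x, Good x → Good (of (ι i) * x) := by
    rintro i hi x ⟨j, hj, w, hh, ha, rfl⟩
    exact ⟨i * j, mul_mem hi hj, ⟨ι (i * j), w.toList, w.chain⟩, rfl, ha, by
      simp [NormalWord.ReducedWord.prod, hh, mul_assoc]⟩
  have hU : ∀ u : ℤˣ, toSubgroup L L u = L := fun u => by
    rcases Int.units_eq_one_or u with rfl | rfl <;> rfl
  have hX : ∀ (l : List (ℤˣ × K))
      (hc : l.IsChain (fun a b => a.2 ∈ toSubgroup L L a.1 → a.1 = b.1)),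
      Alternates ι J l → ∀ (g : G) (j : G), j ∈ J →
        Good (liftedCopy ι L g * (⟨ι j, l, hc⟩ : NormalWord.ReducedWord K L L).prod φ) := by
    intro l
    induction l using List.twoStepInduction with
    | nil =>
      intro hc ha g j hj
      by_cases hg : ι g ∈ L
      · rw [liftedCopy_of_mem ι hg]
        exact hJ g (hL hg) _ ⟨j, hj, ⟨ι j, [], hc⟩, rfl, ha, rfl⟩
      · refine ⟨1, one_mem J, ⟨1, [(1, ι g), (-1, ι j)], by simp [hU, hg]⟩, (map_one ι).symm,
          ⟨rfl, ⟨g, rfl⟩, rfl, ⟨j, hj, rfl⟩, trivial⟩, ?_⟩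
        simp [NormalWord.ReducedWord.prod, liftedCopy_apply, φ, mul_assoc]
    | singleton p => exact fun _ ha => ha.elim
    | cons_cons p p' l ih _ =>
      intro hc ha g j hj
      by_cases hg : ι g ∈ L
      · rw [liftedCopy_of_mem ι hg]
        exact hJ g (hL hg) _ ⟨j, hj, ⟨ι j, _, hc⟩, rfl, ha, rfl⟩
      · obtain ⟨u, a⟩ := p
        obtain ⟨v, b⟩ := p'
        obtain ⟨rfl, ⟨g₁, rfl⟩, rfl, ⟨j₁, hj₁, rfl⟩, ha'⟩ := ha
        by_cases hjL : ι j ∈ L
        · have hc' := (List.isChain_cons.1 (List.isChain_cons.1 hc).2).2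
          refine (congrArg Good ?_).mp (ih hc' ha' (g * (j * g₁)) j₁ hj₁)
          have e : (t : HNNExtension K L L φ) * of (ι j) = of (ι j) * t :=
            t_mul_of (φ := φ) ⟨ι j, hjL⟩
          rw [map_mul (liftedCopy ι L), map_mul (liftedCopy ι L), liftedCopy_of_mem ι hjL]
          simp [NormalWord.ReducedWord.prod, liftedCopy_apply, φ, mul_assoc]
        · refine ⟨1, one_mem J, ⟨1, (1, ι g) :: (-1, ι j) :: (1, ι g₁) :: (-1, ι j₁) :: l, ?_⟩,
            (map_one ι).symm,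
            ⟨rfl, ⟨g, rfl⟩, rfl, ⟨j, hj, rfl⟩, rfl, ⟨g₁, rfl⟩, rfl, ⟨j₁, hj₁, rfl⟩, ha'⟩, ?_⟩
          · simp only [List.isChain_cons_cons, hU] at hc ⊢
            exact ⟨fun h => absurd h hg, fun h => absurd h hjL, hc⟩
          · simp [NormalWord.ReducedWord.prod, liftedCopy_apply, φ, mul_assoc]
  suffices hall : Good (of (ι g)) by
    obtain ⟨j, hj, w, hh, -, e⟩ := hall
    have hnil := ReducedWord.toList_eq_nil_of_mem_of_range φ w ⟨_, e.symm⟩
    rw [NormalWord.ReducedWord.prod, hnil, hh] at e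
    obtain rfl : j = g := hι (of_injective φ (by simpa using e))
    exact hj
  generalize (of (ι g) : HNNExtension K L L (MulEquiv.refl L)) = x at h
  induction h using Subgroup.closure_induction_left with
  | one =>
    exact ⟨1, one_mem J, NormalWord.ReducedWord.empty K L L, (map_one ι).symm, trivial,
      by simp [NormalWord.ReducedWord.prod]⟩
  | mul_left y hy z _ ih =>
    rcases hy with ⟨g, rfl⟩ | ⟨i, hi, rfl⟩
    · obtain ⟨j, hj, ⟨hd, l, hc⟩, rfl, ha, rfl⟩ := ih
      exact hX l hc ha g j hj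
    · exact hJ i hi z ih
  | inv_mul_cancel y hy z _ ih =>
    rcases hy with ⟨g, rfl⟩ | ⟨i, hi, rfl⟩
    · obtain ⟨j, hj, ⟨hd, l, hc⟩, rfl, ha, rfl⟩ := ih
      rw [← map_inv]
      exact hX l hc ha g⁻¹ j hj
    · rw [← map_inv]
      exact hJ i⁻¹ (inv_mem hi) z ih

/-- **Two benign sets below one subgroup can be joined.** -/
theorem benign_union {G : Type} [Group G] (hG : Group.IsFinitelyPresented G) {lo₀ lo₁ : Set G}
    {J : Subgroup G} (h₀ : BenignBetween lo₀ J) (h₁ : BenignBetween lo₁ J) :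
    BenignBetween (lo₀ ∪ lo₁) J := by
  obtain ⟨K₀, _, ι₀, L₀, hK₀, hi₀, hf₀, hlo₀, hhi₀⟩ := h₀
  obtain ⟨K₁, _, ι₁, L₁, hK₁, hi₁, hf₁, hlo₁, hhi₁⟩ := h₁
  let K₀' := HNNExtension K₀ L₀ L₀ (MulEquiv.refl L₀)
  let K₁' := HNNExtension K₁ L₁ L₁ (MulEquiv.refl L₁)
  let a : G →* K₀' × K₁' := MonoidHom.prod ((of : K₀ →* K₀').comp ι₀) 1
  let b : G →* K₀' × K₁' := MonoidHom.prod 1 ((of : K₁ →* K₁').comp ι₁)
  have ha : Function.Injective a :=
    fun x y h => hi₀ (of_injective _ (congrArg Prod.fst h))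
  have hb : Function.Injective b :=
    fun x y h => hi₁ (of_injective _ (congrArg Prod.snd h))
  let ψ := (MonoidHom.ofInjective ha).symm.trans (MonoidHom.ofInjective hb)
  have hψ : ∀ g, (t : HNNExtension (K₀' × K₁') _ _ ψ) * of (a g) * t⁻¹ = of (b g) := fun g => by
    have := equiv_eq_conj (φ := ψ) (MonoidHom.ofInjective ha g)
    simpa [ψ, MonoidHom.ofInjective_apply] using this.symm
  let c₀ : G →* HNNExtension (K₀' × K₁') _ _ ψ :=
    (MulAut.conj t).toMonoidHom.comp (of.comp (MonoidHom.prod (liftedCopy ι₀ L₀) 1))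
  let c₁ : G →* HNNExtension (K₀' × K₁') _ _ ψ :=
    of.comp (MonoidHom.prod 1 (liftedCopy ι₁ L₁))
  have hK : Group.IsFinitelyPresented (HNNExtension (K₀' × K₁') _ _ ψ) :=
    fp_hnn (fp_prod (fp_hnn hK₀ _ ((Group.fg_iff_subgroup_fg _).2 hf₀))
      (fp_hnn hK₁ _ ((Group.fg_iff_subgroup_fg _).2 hf₁))) ψ (fg_range hG a)
  refine ⟨_, inferInstance, of.comp b, c₀.range ⊔ c₁.range, hK, (of_injective ψ).comp hb,
    Subgroup.FG.sup ((Group.fg_iff_subgroup_fg _).1 (fg_range hG c₀))
      ((Group.fg_iff_subgroup_fg _).1 (fg_range hG c₁)), ?_, ?_⟩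
  · rintro g (hg | hg)
    · refine Subgroup.mem_sup_left ⟨g, ?_⟩
      simp only [c₀, MonoidHom.comp_apply, MonoidHom.prod_apply, MulEquiv.coe_toMonoidHom,
        MulAut.conj_apply, liftedCopy_of_mem ι₀ (hlo₀ hg)]
      exact hψ g
    · refine Subgroup.mem_sup_right ⟨g, ?_⟩
      simp only [c₁, MonoidHom.comp_apply, MonoidHom.prod_apply,
        liftedCopy_of_mem ι₁ (hlo₁ hg)]
      rfl
  · intro g hg
    let P₀ := Subgroup.closure (Set.range (liftedCopy ι₀ L₀) ∪
      ((of : K₀ →* K₀').comp ι₀) '' J)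
    let P₁ := Subgroup.closure (Set.range (liftedCopy ι₁ L₁) ∪
      ((of : K₁ →* K₁').comp ι₁) '' J)
    have hP : ∀ z : a.range, (z : K₀' × K₁') ∈ P₀.prod P₁ ↔ (ψ z : K₀' × K₁') ∈ P₀.prod P₁ := by
      intro z
      obtain ⟨g, rfl⟩ := (MonoidHom.ofInjective ha).surjective z
      simp only [ψ, MulEquiv.trans_apply, MulEquiv.symm_apply_apply, MonoidHom.ofInjective_apply,
        a, b, MonoidHom.prod_apply, MonoidHom.comp_apply, MonoidHom.one_apply, Subgroup.mem_prod,
        one_mem, and_true, true_and]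
      exact ⟨fun h => Subgroup.subset_closure (Or.inr ⟨g, mem_of_copy_join ι₀ hi₀ hhi₀ h, rfl⟩),
        fun h => Subgroup.subset_closure (Or.inr ⟨g, mem_of_copy_join ι₁ hi₁ hhi₁ h, rfl⟩)⟩
    have hle : c₀.range ⊔ c₁.range ≤
        Subgroup.closure (of '' (P₀.prod P₁ : Set (K₀' × K₁')) ∪ {t}) := by
      refine sup_le ?_ ?_ <;> rintro _ ⟨z, rfl⟩
      · have ht : (t : HNNExtension (K₀' × K₁') _ _ ψ) ∈
            Subgroup.closure (of '' (P₀.prod P₁ : Set (K₀' × K₁')) ∪ {t}) :=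
          Subgroup.subset_closure (Or.inr rfl)
        refine mul_mem (mul_mem ht (Subgroup.subset_closure (Or.inl ⟨_, ?_, rfl⟩))) (inv_mem ht)
        exact ⟨Subgroup.subset_closure (Or.inl ⟨z, rfl⟩), one_mem P₁⟩
      · exact Subgroup.subset_closure (Or.inl ⟨_,
          ⟨one_mem P₀, Subgroup.subset_closure (Or.inl ⟨z, rfl⟩)⟩, rfl⟩)
    exact mem_of_copy_join ι₁ hi₁ hhi₁ (closure_inter_base hP (hle hg)).2

end FA.Undecidability
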