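import Mathlib.GroupTheory.RegularWreathProduct
import Fermat.Agent.Undecidability.Join

/-!
# Higman's rope trick

A quotient of a finitely presented group by the normal closure of a benign set lying below the
kernel embeds into a finitely presented group.
-/

set_option autoImplicit false

namespace FA.Undecidability

open HNNExtension

variable {G H : Type*} [Group G] [Group H]

/-- An injective map which respects the subgroups extends to the centralising letters. -/
def centralLetterHom (F : H →* G) {N : Subgroup H} {L : Subgroup G} (hN : N ≤ L.comap F) :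
    HNNExtension H N N (MulEquiv.refl N) →* HNNExtension G L L (MulEquiv.refl L) :=
  HNNExtension.lift (of.comp F) t fun a => t_mul_of (φ := MulEquiv.refl L) ⟨F a, hN a.2⟩

theorem centralLetterHom_of (F : H →* G) {N : Subgroup H} {L : Subgroup G} (hN : N ≤ L.comap F)
    (h : H) : centralLetterHom F hN (of h) = of (F h) :=
  HNNExtension.lift_of _ _ _ _

theorem centralLetterHom_t (F : H →* G) {N : Subgroup H} {L : Subgroup G} (hN : N ≤ L.comap F) :
    centralLetterHom F hN t = t :=
  HNNExtension.lift_t _ _ _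

/-- **Britton.** It is injective if the subgroup upstairs is the trace of the one below. -/
theorem centralLetterHom_injective {F : H →* G} (hF : Function.Injective F) {N : Subgroup H}
    {L : Subgroup G} (hN : N ≤ L.comap F) (hL : L.comap F ≤ N) :
    Function.Injective (centralLetterHom F hN) := by
  rw [injective_iff_map_eq_one]
  intro x hx
  obtain ⟨d⟩ := NormalWord.TransversalPair.nonempty H N N
  obtain ⟨w, rfl⟩ := (NormalWord.equiv (MulEquiv.refl N) d).symm.surjective x
  have hsub : ∀ (u : ℤˣ) h, F h ∈ toSubgroup L L u → h ∈ toSubgroup N N u := by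
    intro u h hh
    rcases Int.units_eq_one_or u with rfl | rfl <;> exact hL hh
  let w' : NormalWord.ReducedWord G L L :=
    ⟨F w.head, w.toList.map fun p => (p.1, F p.2),
      (List.isChain_map _).2 (w.chain.imp fun a b h hh => h (hsub a.1 a.2 hh))⟩
  have hw : w'.prod (MulEquiv.refl L) = 1 := by
    refine Eq.trans ?_ hx
    change _ = centralLetterHom F hN (w.toReducedWord.prod _)
    simp [w', NormalWord.ReducedWord.prod, centralLetterHom_of, centralLetterHom_t,
      Function.comp_def, map_list_prod, map_zpow]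
  have hnil := ReducedWord.toList_eq_nil_of_mem_of_range _ w' (hw ▸ one_mem _)
  have hl : w.toList = [] := by simpa [w'] using hnil
  have h1 : F w.head = 1 := by
    refine of_injective (MulEquiv.refl L) (a₁ := F w.head) ?_
    simpa [w', NormalWord.ReducedWord.prod, hl] using hw
  change w.toReducedWord.prod _ = 1
  rw [NormalWord.ReducedWord.prod, hl, (map_eq_one_iff F hF).1 h1]
  simp

/-- **The rope trick.** -/
theorem exists_fp_overgroup {E G : Type} [Group E] [Group G] (hE : Group.IsFinitelyPresented E)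
    (q : E →* G) (hq : Function.Surjective q) {lo : Set E} (h : BenignBetween lo q.ker)
    (hlo : q.ker ≤ Subgroup.normalClosure lo) :
    ∃ (P : Type) (_ : Group P) (ρ : G →* P),
      Group.IsFinitelyPresented P ∧ Function.Injective ρ := by
  obtain ⟨K, _, ι, L, hK, hι, hL, hloL, hLq⟩ := h
  let N := L.comap ι
  let G₁ := HNNExtension K L L (MulEquiv.refl L)
  let ε : HNNExtension E N N (MulEquiv.refl N) →* G₁ := centralLetterHom ι le_rfl
  have hε : Function.Injective ε := centralLetterHom_injective hι le_rfl le_rfl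
  -- the two copies of `E`
  let e₀ : E →* HNNExtension E N N (MulEquiv.refl N) := of
  let e₁ : E →* HNNExtension E N N (MulEquiv.refl N) :=
    (MulAut.conj t).toMonoidHom.comp e₀
  let A₀ := e₀.range ⊔ e₁.range
  -- on them, a map which forgets the first copy
  let c : Multiplicative ℤ := Multiplicative.ofAdd 1
  let s₀ : E →* RegularWreathProduct G (Multiplicative ℤ) :=
    { toFun := fun e => ⟨Pi.mulSingle 1 (q e), 1⟩
      map_one' := by ext <;> simp
      map_mul' := fun e e' => by
        refine RegularWreathProduct.ext (funext fun x => ?_) (one_mul _).symm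
        simp [Pi.mulSingle_mul] }
  let Δ : HNNExtension E N N (MulEquiv.refl N) →* RegularWreathProduct G (Multiplicative ℤ) :=
    HNNExtension.lift s₀ (RegularWreathProduct.inl c) fun a => by
      have : q a = 1 := hLq a.2
      simp [s₀, this, RegularWreathProduct.ext_iff]
  have hΔ₁ : ∀ e, Δ (e₁ e) = ⟨Pi.mulSingle c (q e), 1⟩ := fun e => by
    simp only [e₁, e₀, Δ, MonoidHom.comp_apply, MulEquiv.coe_toMonoidHom, MulAut.conj_apply,
      map_mul, map_inv, HNNExtension.lift_t, HNNExtension.lift_of]
    refine RegularWreathProduct.ext (funext fun x => ?_) ?_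
    · simp [s₀, Pi.mulSingle_apply, inv_mul_eq_iff_eq_mul]
    · simp [s₀]
  have hA₀ : A₀ ≤ (RegularWreathProduct.rightHom.comp Δ).ker := by
    refine sup_le ?_ ?_ <;> rintro _ ⟨e, rfl⟩
    · simp [MonoidHom.mem_ker, e₀, Δ, s₀]
    · simp [MonoidHom.mem_ker, hΔ₁]
  let ψ : A₀ →* G :=
    { toFun := fun a => (Δ a).left c
      map_one' := by simp
      map_mul' := fun a b => by
        have : (Δ a).right = 1 := hA₀ a.2
        simp [this] }
  -- the model
  let α : A₀ →* G₁ × G := MonoidHom.prod (ε.comp A₀.subtype) 1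
  let β : A₀ →* G₁ × G := MonoidHom.prod (ε.comp A₀.subtype) ψ
  have hα : Function.Injective α := fun a b e => Subtype.ext (hε (congrArg Prod.fst e))
  have hβ : Function.Injective β := fun a b e => Subtype.ext (hε (congrArg Prod.fst e))
  let θ := (MonoidHom.ofInjective hα).symm.trans (MonoidHom.ofInjective hβ)
  have hθ : ∀ a, (t : HNNExtension (G₁ × G) _ _ θ) * of (α a) * t⁻¹ = of (β a) := fun a => by
    have := equiv_eq_conj (φ := θ) (MonoidHom.ofInjective hα a)
    simpa [θ, MonoidHom.ofInjective_apply] using this.symm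
  -- the finitely presented group
  obtain ⟨S, hS, hS'⟩ := exists_finite_generators (fg_of_fp hE)
  let U := HNNExtension (G₁ × E) ⊥ ⊥ (MulEquiv.refl (⊥ : Subgroup (G₁ × E)))
  have hU : Group.IsFinitelyPresented U :=
    fp_hnn (fp_prod (fp_hnn hK _ ((Group.fg_iff_subgroup_fg _).2 hL)) hE) _ fg_bot
  let u₀ : E →* G₁ × E := MonoidHom.prod (ε.comp e₀) 1
  let u₁ : E →* G₁ × E := MonoidHom.prod (ε.comp e₁) 1
  let w₁ : E →* G₁ × E := MonoidHom.prod (ε.comp e₁) (MonoidHom.id E)
  let X : (E →* G₁ × E) → (E →* G₁ × E) → E → U := fun a b e =>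
    t * of (a e) * t⁻¹ * (of (b e))⁻¹
  let R : Set U := X u₀ u₀ '' S ∪ X u₁ w₁ '' S
  let π := QuotientGroup.mk' (Subgroup.normalClosure R)
  have same : ∀ a b : E →* G₁ × E, (∀ e ∈ S, X a b e ∈ R) →
      ∀ e, π t * π (of (a e)) * (π t)⁻¹ = π (of (b e)) := by
    intro a b hab
    refine DFunLike.congr_fun (f := (MulAut.conj (π t)).toMonoidHom.comp ((π.comp of).comp a))
      (g := (π.comp of).comp b) (MonoidHom.eq_of_eqOn_dense hS' fun e he => ?_)
    refine mul_inv_eq_one.1 ?_
    have : π (X a b e) = 1 := (QuotientGroup.eq_one_iff _).2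
      (Subgroup.subset_normalClosure (hab e he))
    simpa [X, MulAut.conj_apply] using this
  have h₀ := same u₀ u₀ fun e he => Or.inl ⟨e, he, rfl⟩
  have h₁ := same u₁ w₁ fun e he => Or.inr ⟨e, he, rfl⟩
  let ρ₀ : E →* U ⧸ Subgroup.normalClosure R :=
    π.comp ((of : G₁ × E →* U).comp (MonoidHom.inr G₁ E))
  have hkill : ∀ x ∈ lo, ρ₀ x = 1 := by
    intro x hx
    have e : ε (e₁ x) = ε (e₀ x) := congrArg ε
      (equiv_eq_conj (φ := MulEquiv.refl N) (⟨x, hloL hx⟩ : N)).symm
    have hu : u₁ x = u₀ x := Prod.ext e rfl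
    have := h₁ x
    rw [hu, h₀ x] at this
    have hw : w₁ x = u₀ x * (1, x) := Prod.ext (by simp [w₁, u₀, e]) (by simp [w₁, u₀])
    rw [hw, map_mul, map_mul] at this
    exact mul_left_cancel (a := π (of (u₀ x))) (this.symm.trans (mul_one _).symm)
  have hker : ρ₀.ker = q.ker := by
    refine le_antisymm (fun x hx => ?_) (hlo.trans (Subgroup.normalClosure_le_normal hkill))
    let f : G₁ × E →* G₁ × G := (MonoidHom.id G₁).prodMap q
    let M : U →* HNNExtension (G₁ × G) _ _ θ := HNNExtension.lift (of.comp f) t fun a => by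
      simp [Subgroup.mem_bot.1 a.2]
    have hM : ∀ y, M (of y) = of (f y) := HNNExtension.lift_of _ _ _
    have hMt : M t = t := HNNExtension.lift_t _ _ _
    have hR : R ⊆ M.ker := by
      have g₀ : ∀ e, M (X u₀ u₀ e) = 1 := fun e => by
        let a : A₀ := ⟨e₀ e, Subgroup.mem_sup_left ⟨e, rfl⟩⟩
        have hψa : ψ a = 1 := by
          change (Δ (of e)).left c = 1
          simp [Δ, s₀, c]
        have h1 : f (u₀ e) = α a := Prod.ext rfl (map_one q)
        have h2 : f (u₀ e) = β a := Prod.ext rfl ((map_one q).trans hψa.symm)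
        simp only [X, map_mul, map_inv, hM, hMt]
        nth_rewrite 1 [h1]
        rw [h2, hθ a, mul_inv_cancel]
      have g₁ : ∀ e, M (X u₁ w₁ e) = 1 := fun e => by
        let a : A₀ := ⟨e₁ e, Subgroup.mem_sup_right ⟨e, rfl⟩⟩
        have hψa : ψ a = q e := by
          change (Δ (e₁ e)).left c = q e
          simp [hΔ₁]
        have h1 : f (u₁ e) = α a := Prod.ext rfl (map_one q)
        have h2 : f (w₁ e) = β a := Prod.ext rfl hψa.symm
        simp only [X, map_mul, map_inv, hM, hMt]
        rw [h1, h2, hθ a, mul_inv_cancel]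
      rintro _ (⟨e, -, rfl⟩ | ⟨e, -, rfl⟩)
      exacts [g₀ e, g₁ e]
    have hx' : M (of (1, x)) = 1 :=
      Subgroup.normalClosure_le_normal hR ((QuotientGroup.eq_one_iff _).1 hx)
    rw [hM] at hx'
    exact congrArg Prod.snd (of_injective θ (hx'.trans (map_one _).symm))
  refine ⟨_, inferInstance, q.liftOfSurjective hq ⟨ρ₀, hker.ge⟩,
    Group.IsFinitelyPresented.quotient (hG := hU) _
      ⟨R, (hS.image _).union (hS.image _), rfl⟩, ?_⟩
  rw [injective_iff_map_eq_one]
  intro g hg
  obtain ⟨x, rfl⟩ := hq g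
  rw [MonoidHom.liftOfRightInverse_comp_apply] at hg
  exact hker.le hg

end FA.Undecidability
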