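import Mathlib.Logic.Function.Basic
import Fermat.Agent.Undecidability.GroupProblem
import Fermat.Agent.Undecidability.PlanePresentation
import Fermat.Agent.Undecidability.CodeMachine
import Fermat.Agent.Undecidability.Rope

/-!
# Higman's embedding theorem

The words which are relations are the points from which a machine halts. One tower makes these
points benign, another makes the pairs of a point and its word benign; joining them leaves the
relations themselves benign, and the rope trick finishes.
-/

set_option autoImplicit false

namespace FA.Undecidability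

open SemidirectProduct

variable {n : ℕ}

/-- A letter in the larger free group. -/
def extLetter (a : Fin n × Bool) : FreeGroup (Fin (n + 1)) :=
  FreeGroup.map Fin.castSucc (FreeGroup.mk [a])

/-- The word followed by the last generator. -/
def markedWord (W : List (Fin n × Bool)) : FreeGroup (Fin (n + 1)) :=
  FreeGroup.map Fin.castSucc (FreeGroup.mk W.reverse) * FreeGroup.of (Fin.last n)

/-- The last generator gets one letter. -/
def prependHom (a : Fin n × Bool) : FreeGroup (Fin (n + 1)) →* FreeGroup (Fin (n + 1)) :=
  FreeGroup.lift (Fin.snoc (fun i => FreeGroup.of i.castSucc)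
    (extLetter a * FreeGroup.of (Fin.last n)))

theorem prependHom_map (a : Fin n × Bool) (u : FreeGroup (Fin n)) :
    prependHom a (FreeGroup.map Fin.castSucc u) = FreeGroup.map Fin.castSucc u := by
  refine DFunLike.congr_fun (f := (prependHom a).comp (FreeGroup.map Fin.castSucc))
    (FreeGroup.ext_hom _ _ fun i => ?_) u
  simp [prependHom]

theorem prependHom_markedWord (a : Fin n × Bool) (W : List (Fin n × Bool)) :
    prependHom a (markedWord W) = markedWord (a :: W) := by
  have h : prependHom a (FreeGroup.of (Fin.last n)) =
      extLetter a * FreeGroup.of (Fin.last n) := by simp [prependHom]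
  rw [markedWord, markedWord, map_mul, prependHom_map, h, List.reverse_cons, freeMk_append,
    map_mul, extLetter, mul_assoc]

theorem prependHom_injective (a : Fin n × Bool) : Function.Injective (prependHom a) := by
  obtain ⟨i, b⟩ := a
  refine Function.LeftInverse.injective (g := prependHom (i, !b)) fun x => ?_
  refine DFunLike.congr_fun (f := (prependHom (i, !b)).comp (prependHom (i, b)))
    (g := MonoidHom.id _) (FreeGroup.ext_hom _ _ fun j => ?_) x
  induction j using Fin.lastCases with
  | cast j => simp [prependHom]
  | last =>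
    have hm : prependHom (i, !b) (extLetter (i, b)) = extLetter (i, b) := prependHom_map _ _
    have h : prependHom (i, b) (FreeGroup.of (Fin.last n)) =
        extLetter (i, b) * FreeGroup.of (Fin.last n) := by simp [prependHom]
    have h' : prependHom (i, !b) (FreeGroup.of (Fin.last n)) =
        extLetter (i, !b) * FreeGroup.of (Fin.last n) := by simp [prependHom]
    have e : extLetter (i, b) * extLetter (i, !b) = 1 := by
      rw [extLetter, extLetter, ← map_mul]
      refine (congrArg _ ?_).trans (map_one _)
      cases b
      exacts [inv_mul_cancel (FreeGroup.of i), mul_inv_cancel (FreeGroup.of i)]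
    rw [MonoidHom.comp_apply, h, map_mul, hm, h', ← mul_assoc, e, one_mul, MonoidHom.id_apply]

/-- The map which forgets the last generator. -/
def forgetLast : FreeGroup (Fin (n + 1)) →* FreeGroup (Fin n) :=
  FreeGroup.lift (Fin.snoc FreeGroup.of 1)

theorem forgetLast_map (u : FreeGroup (Fin n)) :
    forgetLast (FreeGroup.map Fin.castSucc u) = u := by
  refine DFunLike.congr_fun (f := forgetLast.comp (FreeGroup.map Fin.castSucc))
    (g := MonoidHom.id _) (FreeGroup.ext_hom _ _ fun i => ?_) u
  simp [forgetLast]

theorem forgetLast_markedWord (W : List (Fin n × Bool)) :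
    forgetLast (markedWord W) = FreeGroup.mk W.reverse := by
  rw [markedWord, map_mul, forgetLast_map]
  simp [forgetLast]

variable {G : Type} [Group G]

/-- **The relations are benign.** -/
theorem benign_relations (π : FreeGroup (Fin n) →* G)
    (hre : REPred fun w : List (Fin n × Bool) => π (FreeGroup.mk w) = 1) :
    BenignBetween {x | ∃ W, π (FreeGroup.mk W.reverse) = 1 ∧ x = markedWord W}
      (π.comp forgetLast).ker := by
  classical
  have hN : REPred fun W : List (Fin n × Bool) => π (FreeGroup.mk W.reverse) = 1 :=
    Partrec.comp hre Primrec.list_reverse.to_comp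
  obtain ⟨L, S, point, β, hL, h0, hind, hpt, hβn, hβ, hβ', hS⟩ := exists_code_system hN
  let q := π.comp (forgetLast (n := n))
  let Θ : FreeGroup (ℤ × ℤ) →* FreeGroup (Fin (n + 1)) :=
    FreeGroup.lift (Function.extend point markedWord 1)
  have hΘ : ∀ W, Θ (FreeGroup.of (point W)) = markedWord W := fun W => by
    simp [Θ, hpt.extend_apply]
  let C := Set.range point
  let Gr : Subgroup (PlaneGroup × FreeGroup (Fin (n + 1))) :=
    ((keepIn C).eqLocus (MonoidHom.id _)).map
      (MonoidHom.prod (inl : FreeGroup (ℤ × ℤ) →* PlaneGroup) Θ)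
  let J : Subgroup (PlaneGroup × FreeGroup (Fin (n + 1))) :=
    ((q.comp (Θ.comp (MonoidHom.fst _ _))).eqLocus (q.comp (MonoidHom.snd _ _))).map
      ((inl : FreeGroup (ℤ × ℤ) →* PlaneGroup).prodMap (MonoidHom.id _))
  have hH : Group.IsFinitelyPresented (PlaneGroup × FreeGroup (Fin (n + 1))) :=
    fp_prod fp_planeGroup inferInstance
  -- the pairs of points and words
  have hpairs : BenignBetween (Set.range fun W => (pointLetter (point W), markedWord W)) J := by
    let e := Fintype.equivFin (Fin n × Bool)
    let g : Fin (Fintype.card (Fin n × Bool)) → _ →* _ := fun i =>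
      ((β (e.symm i)).hom).prodMap (prependHom (e.symm i))
    have hcomap : ∀ a, Gr.comap ((β a).hom.prodMap (prependHom a)) = Gr := by
      intro a
      have hin := PlaneMap.app_injective (hβn a)
      have hpre : (β a).app ⁻¹' C = C := by
        refine Set.ext fun P => ⟨hβ' a P, ?_⟩
        rintro ⟨W, rfl⟩
        exact ⟨a :: W, (hβ a W).symm⟩
      have hΘβ : ∀ u, keepIn C u = u →
          Θ (FreeGroup.map (β a).app u) = prependHom a (Θ u) := by
        intro u hu
        rw [← hu]
        refine DFunLike.congr_fun (f := (Θ.comp (FreeGroup.map (β a).app)).comp (keepIn C))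
          (g := ((prependHom a).comp Θ).comp (keepIn C)) (FreeGroup.ext_hom _ _ fun P => ?_) u
        by_cases hP : P ∈ C
        · obtain ⟨W, rfl⟩ := hP
          simp [keepIn, C, hΘ, hβ, prependHom_markedWord]
        · simp [keepIn, hP]
      ext ⟨z, f⟩
      simp only [Subgroup.mem_comap, MonoidHom.coe_prodMap, Prod.map_apply]
      constructor
      · rintro ⟨w, hw, e⟩
        simp only [MonoidHom.prod_apply, Prod.mk.injEq] at e
        obtain ⟨e₁, e₂⟩ := e
        rw [PlaneMap.hom_apply] at e₁
        have hr : z.right = 1 := PlaneMap.lin_injective (hβn a)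
          ((congrArg SemidirectProduct.right e₁).symm.trans (map_one _).symm)
        have hw' : w = FreeGroup.map (β a).app z.left := congrArg SemidirectProduct.left e₁
        subst hw'
        have hu : keepIn C z.left = z.left := by
          refine FreeGroup.map_injective hin ?_
          have h := keepIn_map (β a).app C z.left
          rw [hpre] at h
          exact h.symm.trans hw
        refine ⟨z.left, hu, Prod.ext (SemidirectProduct.ext rfl hr.symm) ?_⟩
        exact prependHom_injective a ((hΘβ _ hu).symm.trans e₂)
      · rintro ⟨u, hu, e⟩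
        simp only [MonoidHom.prod_apply, Prod.mk.injEq] at e
        obtain ⟨rfl, rfl⟩ := e
        refine ⟨FreeGroup.map (β a).app u, ?_, Prod.ext ?_ (hΘβ u hu)⟩
        · change keepIn C (FreeGroup.map (β a).app u) = FreeGroup.map (β a).app u
          rw [keepIn_map, hpre]
          exact congrArg _ hu
        · simp [PlaneMap.hom]
    obtain ⟨K, _, ι, r, hι, hr, hfp, hT⟩ := exists_tower Gr (fun _ => MonoidHom.id _) g
      fun i => ⟨Function.injective_id,
        (PlaneMap.hom_injective (hβn _)).prodMap (prependHom_injective _),
        (Subgroup.comap_id _).trans (hcomap _).symm⟩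
    let z : List (Fin n × Bool) → PlaneGroup × FreeGroup (Fin (n + 1)) :=
      fun W => (pointLetter (point W), markedWord W)
    have hz : ∀ W, z W ∈ Gr := fun W =>
      ⟨FreeGroup.of (point W), by simp [MonoidHom.eqLocus, keepIn, C],
        Prod.ext rfl (hΘ W)⟩
    refine ⟨K, inferInstance, ι, Subgroup.closure ({ι (z [])} ∪ Set.range r), hfp hH, hι,
      Subgroup.fg_iff _ |>.2 ⟨_, rfl, (Set.finite_singleton _).union (Set.finite_range r)⟩, ?_, ?_⟩
    · rintro _ ⟨W, rfl⟩
      change ι (z W) ∈ Subgroup.closure _
      induction W with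
      | nil => exact Subgroup.subset_closure (Or.inl rfl)
      | cons a W ih =>
        have h := hr (e a) (z W)
        simp only [g, Equiv.symm_apply_apply, MonoidHom.id_apply] at h
        have hza : ((β a).hom.prodMap (prependHom a)) (z W) = z (a :: W) := by
          simp [z, PlaneMap.hom_pointLetter, hβ, prependHom_markedWord]
        rw [hza] at h
        rw [eq_mul_inv_of_mul_eq h.symm]
        have hrm : r (e a) ∈ Subgroup.closure ({ι (z [])} ∪ Set.range r) :=
          Subgroup.subset_closure (Or.inr ⟨_, rfl⟩)
        exact mul_mem (mul_mem hrm ih) (inv_mem hrm)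
    · intro x hx
      have hle : Subgroup.closure ({ι (z [])} ∪ Set.range r) ≤
          Subgroup.closure (ι '' (Gr : Set _) ∪ Set.range r) :=
        Subgroup.closure_mono (Set.union_subset_union_left _
          (Set.singleton_subset_iff.2 ⟨_, hz [], rfl⟩))
      obtain ⟨w, -, rfl⟩ := hT x (hle hx)
      exact ⟨(w, Θ w), rfl, rfl⟩
  -- the points of the machine
  have hpoints : BenignBetween ((fun P => (pointLetter P, 1)) '' S) J := by
    let f : Fin L.length → _ →* _ := fun i =>
      (L.get i).1.hom.prodMap (MonoidHom.id (FreeGroup (Fin (n + 1))))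
    let g : Fin L.length → _ →* _ := fun i =>
      (L.get i).2.hom.prodMap (MonoidHom.id (FreeGroup (Fin (n + 1))))
    have hc : ∀ i, Compatible ((pointSubgroup S).prod ⊥) (f i) (g i) := fun i => by
      have h := hL _ (List.get_mem L i)
      obtain ⟨c1, c2, c3⟩ := compatible_hom h.1.1 h.1.2 h.2
      refine ⟨c1.prodMap Function.injective_id, c2.prodMap Function.injective_id, ?_⟩
      ext ⟨x, y⟩
      have := SetLike.ext_iff.1 c3 x
      simp only [Subgroup.mem_comap] at this
      simpa [f, g, Subgroup.mem_prod] using fun _ => this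
    obtain ⟨K, _, ι, r, hι, hr, hfp, hT⟩ := exists_tower _ f g hc
    let z : ℤ × ℤ → PlaneGroup × FreeGroup (Fin (n + 1)) := fun P => (pointLetter P, 1)
    refine ⟨K, inferInstance, ι, Subgroup.closure ({ι (z 0)} ∪ Set.range r), hfp hH, hι,
      Subgroup.fg_iff _ |>.2 ⟨_, rfl, (Set.finite_singleton _).union (Set.finite_range r)⟩, ?_, ?_⟩
    · rintro _ ⟨P, hP, rfl⟩
      refine hind (fun P => ι (z P) ∈ Subgroup.closure ({ι (z 0)} ∪ Set.range r))
        (Subgroup.subset_closure (Or.inl rfl)) (fun p hp P => ?_) P hP
      obtain ⟨i, rfl⟩ := List.get_of_mem hp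
      have h := hr i (z P)
      have hf : f i (z P) = z ((L.get i).1.app P) := by simp [f, z, PlaneMap.hom_pointLetter]
      have hg : g i (z P) = z ((L.get i).2.app P) := by simp [g, z, PlaneMap.hom_pointLetter]
      rw [hf, hg] at h
      have hrm : r i ∈ Subgroup.closure ({ι (z 0)} ∪ Set.range r) :=
        Subgroup.subset_closure (Or.inr ⟨_, rfl⟩)
      exact (Subgroup.mul_mem_cancel_left _ hrm).symm.trans
        ((iff_of_eq (congrArg (· ∈ Subgroup.closure _) h)).trans
          (Subgroup.mul_mem_cancel_right _ hrm))
    · intro x hx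
      have hle : Subgroup.closure ({ι (z 0)} ∪ Set.range r) ≤
          Subgroup.closure (ι '' (((pointSubgroup S).prod ⊥ :
            Subgroup (PlaneGroup × FreeGroup (Fin (n + 1)))) : Set _) ∪ Set.range r) :=
        Subgroup.closure_mono (Set.union_subset_union_left _
          (Set.singleton_subset_iff.2
            ⟨_, ⟨pointLetter_mem_iff.2 h0, one_mem (⊥ : Subgroup _)⟩, rfl⟩))
      obtain ⟨⟨w, hw, e⟩, h2⟩ := hT x (hle hx)
      refine ⟨(w, x.2), ?_, Prod.ext e rfl⟩
      change q (Θ w) = q x.2
      rw [show x.2 = 1 from h2, map_one, ← show keepIn S w = w from hw]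
      refine DFunLike.congr_fun (f := (q.comp Θ).comp (keepIn S)) (g := 1)
        (FreeGroup.ext_hom _ _ fun P => ?_) w
      by_cases hP : P ∈ S
      · by_cases hC : P ∈ C
        · obtain ⟨W, rfl⟩ := hC
          simpa [keepIn, hP, hΘ, q, forgetLast_markedWord] using (hS W).1 hP
        · simp [keepIn, hP, Θ, Function.extend_apply' _ _ _ (fun h => hC h)]
      · simp [keepIn, hP]
  -- only the words are left
  obtain ⟨K, _, ι, M, hK, hι, hM, hlo, hhi⟩ := benign_union hH hpoints hpairs
  refine ⟨K, inferInstance, ι.comp (MonoidHom.inr PlaneGroup _), M, hK,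
    hι.comp fun x y h => congrArg Prod.snd h, hM, ?_, fun x hx => ?_⟩
  · rintro _ ⟨W, hW, rfl⟩
    have h1 : (pointLetter (point W), (1 : FreeGroup (Fin (n + 1)))) ∈ M.comap ι :=
      hlo (Or.inl ⟨_, (hS W).2 hW, rfl⟩)
    have h2 : (pointLetter (point W), markedWord W) ∈ M.comap ι := hlo (Or.inr ⟨W, rfl⟩)
    simpa using mul_mem (inv_mem h1) h2
  · obtain ⟨⟨w, f⟩, hw, e⟩ := hhi (show ((1, x) : PlaneGroup × _) ∈ M.comap ι from hx)
    simp only [MonoidHom.coe_prodMap, Prod.map_apply, Prod.mk.injEq, MonoidHom.id_apply] at e
    obtain ⟨e1, rfl⟩ := e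
    obtain rfl : w = 1 := inl_injective (e1.trans (map_one _).symm)
    exact ((show q (Θ 1) = q f from hw).symm.trans (by simp))

/-- **Higman.** A finitely generated group with a recursively enumerable set of relations embeds
into a finitely presented group. -/
theorem exists_higman_embedding (π : FreeGroup (Fin n) →* G) (hπ : Function.Surjective π)
    (hre : REPred fun w : List (Fin n × Bool) => π (FreeGroup.mk w) = 1) :
    ∃ (P : Type) (_ : Group P) (ρ : G →* P),
      Group.IsFinitelyPresented P ∧ Function.Injective ρ := by
  let lo : Set (FreeGroup (Fin (n + 1))) :=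
    {x | ∃ W, π (FreeGroup.mk W.reverse) = 1 ∧ x = markedWord W}
  refine exists_fp_overgroup inferInstance (π.comp forgetLast)
    (hπ.comp fun u => ⟨_, forgetLast_map u⟩) (benign_relations π hre) fun f hf => ?_
  let T := QuotientGroup.mk' (Subgroup.normalClosure lo)
  have hd : T (FreeGroup.of (Fin.last n)) = 1 :=
    (QuotientGroup.eq_one_iff _).2 (Subgroup.subset_normalClosure
      ⟨[], by simp [← FreeGroup.one_eq_mk], by simp [markedWord, ← FreeGroup.one_eq_mk]⟩)
  have hT : T = (T.comp (FreeGroup.map Fin.castSucc)).comp forgetLast := by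
    refine FreeGroup.ext_hom _ _ fun i => ?_
    induction i using Fin.lastCases <;> simp [forgetLast, hd]
  refine (QuotientGroup.eq_one_iff f).1 ?_
  change T f = 1
  rw [hT]
  set u := forgetLast f
  have hu : FreeGroup.mk u.toWord.reverse.reverse = u := by rw [List.reverse_reverse, u.mk_toWord]
  have hmem : markedWord u.toWord.reverse ∈ lo :=
    ⟨_, by rw [hu]; exact hf, rfl⟩
  have := (QuotientGroup.eq_one_iff _).2 (Subgroup.subset_normalClosure hmem)
  change T (markedWord _) = 1 at this
  rw [markedWord, hu, map_mul, hd, mul_one] at this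
  exact this

end FA.Undecidability
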