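import Fermat.Agent.Undecidability.HigmanConverse
import Mathlib.Computability.PartrecCode

/-!
# Searching the consequences of a recursively enumerable set of relators

The words in the normal closure of a recursively enumerable set of words form a recursively
enumerable set, for any primitive recursively coded set of generators.
-/

set_option autoImplicit false

namespace FA.Undecidability

theorem primrec_freeReduce_gen {β : Type*} [Primcodable β] [DecidableEq β] :
    Primrec (FreeGroup.reduce : List (β × Bool) → List (β × Bool)) := by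
  let step : β × Bool → List (β × Bool) → List (β × Bool) := fun x acc =>
    Option.casesOn acc.head? [x] fun hd =>
      cond (decide (x.1 = hd.1) && decide (x.2 = !hd.2)) acc.tail (x :: acc)
  have hstep : Primrec fun p : (β × Bool) × List (β × Bool) => step p.1 p.2 :=
    Primrec.option_casesOn (Primrec.list_head?.comp Primrec.snd)
      (Primrec.list_cons.comp Primrec.fst (Primrec.const []))
      (Primrec.cond
        (Primrec.and.comp
          (PrimrecPred.decide (Primrec.eq.comp (Primrec.fst.comp (Primrec.fst.comp Primrec.fst))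
            (Primrec.fst.comp Primrec.snd)))
          (PrimrecPred.decide (Primrec.eq.comp (Primrec.snd.comp (Primrec.fst.comp Primrec.fst))
            (Primrec.not.comp (Primrec.snd.comp Primrec.snd)))))
        (Primrec.list_tail.comp (Primrec.snd.comp Primrec.fst))
        (Primrec.list_cons.comp (Primrec.fst.comp Primrec.fst) (Primrec.snd.comp Primrec.fst))).to₂
  refine (Primrec.list_foldr Primrec.id (Primrec.const [])
    (hstep.comp Primrec.snd).to₂).of_eq fun L => ?_
  induction L with
  | nil => rfl
  | cons x L ih =>
    simp only [id_eq] at ih ⊢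
    rw [List.foldr_cons, ih, FreeGroup.reduce.cons]
    cases FreeGroup.reduce L <;> simp [step, ← Bool.decide_and, Bool.cond_decide]

variable {β γ : Type*}

/-- The word of a list of conjugates of relators and their inverses. -/
def searchWord (rel : γ → List (β × Bool)) (c : List (List (β × Bool) × γ × Bool)) :
    List (β × Bool) :=
  c.flatMap fun e => e.1 ++ cond e.2.2 (rel e.2.1) (FreeGroup.invRev (rel e.2.1)) ++
    FreeGroup.invRev e.1

theorem searchWord_cons (rel : γ → List (β × Bool)) (g : List (β × Bool)) (r : γ) (b : Bool)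
    (c : List (List (β × Bool) × γ × Bool)) :
    FreeGroup.mk (searchWord rel ((g, r, b) :: c)) = FreeGroup.mk g *
      cond b (FreeGroup.mk (rel r)) (FreeGroup.mk (rel r))⁻¹ * (FreeGroup.mk g)⁻¹ *
        FreeGroup.mk (searchWord rel c) := by
  cases b <;> simp [searchWord, ← FreeGroup.mul_mk, FreeGroup.inv_mk, mul_assoc]

theorem mem_normalClosure_iff_search [DecidableEq β] (ok : γ → Bool) (rel : γ → List (β × Bool))
    (x : FreeGroup β) :
    x ∈ Subgroup.normalClosure {y | ∃ r, ok r = true ∧ y = FreeGroup.mk (rel r)} ↔
      ∃ c : List (List (β × Bool) × γ × Bool),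
        (∀ e ∈ c, ok e.2.1 = true) ∧ FreeGroup.mk (searchWord rel c) = x := by
  constructor
  · intro h
    induction h using Subgroup.closure_induction_left with
    | one => exact ⟨[], by simp, rfl⟩
    | mul_left y hy z _ ih =>
      obtain ⟨_, ⟨r, hr, rfl⟩, hconj⟩ := Group.mem_conjugatesOfSet_iff.1 hy
      obtain ⟨g, rfl⟩ := isConj_iff.1 hconj
      obtain ⟨c, hc, rfl⟩ := ih
      exact ⟨(g.toWord, r, true) :: c, List.forall_mem_cons.2 ⟨hr, hc⟩, by
        rw [searchWord_cons, FreeGroup.mk_toWord]; rfl⟩
    | inv_mul_cancel y hy z _ ih =>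
      obtain ⟨_, ⟨r, hr, rfl⟩, hconj⟩ := Group.mem_conjugatesOfSet_iff.1 hy
      obtain ⟨g, rfl⟩ := isConj_iff.1 hconj
      obtain ⟨c, hc, rfl⟩ := ih
      refine ⟨(g.toWord, r, false) :: c, List.forall_mem_cons.2 ⟨hr, hc⟩, ?_⟩
      rw [searchWord_cons, FreeGroup.mk_toWord, mul_inv_rev, mul_inv_rev, inv_inv, cond_false]
      simp only [mul_assoc]
  · rintro ⟨c, hc, rfl⟩
    induction c with
    | nil => exact one_mem _
    | cons e c ih =>
      obtain ⟨g, r, b⟩ := e
      obtain ⟨hr, hc⟩ := List.forall_mem_cons.1 hc
      rw [searchWord_cons]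
      refine mul_mem (Subgroup.normalClosure_normal.conj_mem _ ?_ _) (ih hc)
      cases b
      · exact inv_mem (Subgroup.subset_normalClosure ⟨r, hr, rfl⟩)
      · exact Subgroup.subset_normalClosure ⟨r, hr, rfl⟩

/-- **The consequences can be searched.** -/
theorem rePred_normalClosure [Primcodable β] [DecidableEq β] [Primcodable γ] {ok : γ → Bool}
    {rel : γ → List (β × Bool)} (hok : Primrec ok) (hrel : Primrec rel) :
    REPred fun w : List (β × Bool) => FreeGroup.mk w ∈
      Subgroup.normalClosure {y | ∃ r, ok r = true ∧ y = FreeGroup.mk (rel r)} := by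
  have hword : Primrec (searchWord rel) := by
    have h1 : Primrec fun e : List (β × Bool) × γ × Bool =>
        e.1 ++ cond e.2.2 (rel e.2.1) (FreeGroup.invRev (rel e.2.1)) ++ FreeGroup.invRev e.1 :=
      Primrec.list_append.comp (Primrec.list_append.comp Primrec.fst
        (Primrec.cond (Primrec.snd.comp Primrec.snd) (hrel.comp (Primrec.fst.comp Primrec.snd))
          (primrec_invRev.comp (hrel.comp (Primrec.fst.comp Primrec.snd)))))
        (primrec_invRev.comp Primrec.fst)
    exact Primrec.list_flatMap Primrec.id (h1.comp Primrec.snd).to₂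
  have hall : Primrec fun c : List (List (β × Bool) × γ × Bool) => c.all fun e => ok e.2.1 := by
    refine (Primrec.list_foldr Primrec.id (Primrec.const true)
      (Primrec.and.comp (hok.comp (Primrec.fst.comp (Primrec.snd.comp (Primrec.fst.comp
        Primrec.snd)))) (Primrec.snd.comp Primrec.snd)).to₂).of_eq fun c => ?_
    induction c with
    | nil => rfl
    | cons e c ih => simp only [id_eq, List.foldr_cons, List.all_cons] at ih ⊢; rw [ih]
  have hc : Primrec₂ fun (w : List (β × Bool)) (c : List (List (β × Bool) × γ × Bool)) =>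
      (c.all fun e => ok e.2.1) &&
        decide (FreeGroup.reduce (searchWord rel c) = FreeGroup.reduce w) :=
    (Primrec.and.comp (hall.comp Primrec.snd)
      (PrimrecPred.decide (Primrec.eq.comp (primrec_freeReduce_gen.comp (hword.comp Primrec.snd))
        (primrec_freeReduce_gen.comp Primrec.fst)))).to₂
  refine (rePred_exists hc).of_eq fun w => ?_
  simp only [Bool.and_eq_true, List.all_eq_true, decide_eq_true_eq, ← FreeGroup.toWord_mk,
    FreeGroup.toWord_inj]
  exact (mem_normalClosure_iff_search ok rel _).symm

/-- A recursively enumerable predicate is the projection of a primitive recursive one. -/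
theorem exists_stages {α : Type*} [Primcodable α] {p : α → Prop} (hp : REPred p) :
    ∃ A : α × ℕ → Bool, Primrec A ∧ ∀ a, p a ↔ ∃ s, A (a, s) = true := by
  obtain ⟨c, hc⟩ := Nat.Partrec.Code.exists_code.1 hp
  refine ⟨fun x => (c.evaln x.2 (Encodable.encode x.1)).isSome,
    Primrec.option_isSome.comp (Nat.Partrec.Code.primrec_evaln.comp
      (Primrec.pair (Primrec.pair Primrec.snd (Primrec.const c))
        (Primrec.encode.comp Primrec.fst))), fun a => ?_⟩
  have h1 := congrFun hc (Encodable.encode a)
  simp only [Encodable.encodek, Part.coe_some, Part.bind_some] at h1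
  constructor
  · intro ha
    obtain ⟨s, hs⟩ := Nat.Partrec.Code.evaln_complete.1 (h1 ▸ Part.mem_map Encodable.encode
      (Part.mem_assert ha (Part.mem_some ())))
    exact ⟨s, Option.isSome_iff_exists.2 ⟨_, hs⟩⟩
  · rintro ⟨s, hs⟩
    obtain ⟨x, hx⟩ := Option.isSome_iff_exists.1 hs
    obtain ⟨y, hy, -⟩ := (Part.mem_map_iff _).1 (h1 ▸ Nat.Partrec.Code.evaln_sound hx)
    exact (Part.mem_assert_iff.1 hy).1

end FA.Undecidability
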