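import Mathlib.Data.Countable.Defs
import Fermat.Agent.Undecidability.RelationSearch
import Fermat.Agent.Undecidability.Higman

/-!
# The embedding of Higman, Neumann and Neumann into a group with two generators

Given generators `g i` of `G` one letter conjugates the free basis `b^i a b^(-i)` to the free basis
`b, g i a^(i+1) b a^(-i-1)` of another free subgroup. The relations in the two generators are the
images of those of `G`.
-/

set_option autoImplicit false

namespace FA.Undecidability

open HNNExtension

/-- The conjugates of one letter by the powers of another are free. -/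
theorem free_conjugates_nat {x y : Fin 2} (hxy : x ≠ y) :
    Function.Injective (FreeGroup.lift fun i : ℕ =>
      (FreeGroup.of x : FreeGroup (Fin 2)) ^ i * FreeGroup.of y * (FreeGroup.of x ^ i)⁻¹) := by
  let c : FreeGroup ℕ →* FreeGroup (Fin 2) := FreeGroup.lift fun i : ℕ =>
    FreeGroup.of x ^ i * FreeGroup.of y * (FreeGroup.of x ^ i)⁻¹
  let b : FreeGroup (Fin 2) →* PlaneGroup := FreeGroup.lift fun j =>
    if j = x then SemidirectProduct.inr (Multiplicative.ofAdd (1, 0)) else pointLetter 0
  have hbc : b.comp c =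
      SemidirectProduct.inl.comp (FreeGroup.map fun i : ℕ => ((i : ℤ), 0)) := by
    refine FreeGroup.ext_hom _ _ fun i => ?_
    have := pointLetter_eq ((i : ℤ), 0)
    rw [show ((i : ℤ), (0 : ℤ)) = i • ((1, 0) : ℤ × ℤ) by simp, ofAdd_nsmul, map_pow] at this
    simpa [b, c, pointLetter, Prod.smul_mk, hxy.symm] using this.symm
  refine Function.Injective.of_comp (f := b) ?_
  change Function.Injective (b ∘ c)
  rw [← MonoidHom.coe_comp, hbc]
  exact SemidirectProduct.inl_injective.comp
    (FreeGroup.map_injective fun i j h => by simpa using h)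

/-- The word of the `i`th generator in the two new letters, zero for `a` and one for `t`. -/
def genWord (i : ℕ) : List (Fin 2 × Bool) :=
  let P := List.replicate (i + 1) ((0 : Fin 2), true)
  let M := List.replicate (i + 1) ((0 : Fin 2), false)
  [(1, true), (1, true)] ++ P ++ [(1, false), (0, true), (1, true)] ++ M ++ [(1, false), (1, false)]
    ++ P ++ [(1, true), (0, false), (1, false)] ++ M

theorem lift_genWord {H : Type*} [Group H] (v : Fin 2 → H) (i : ℕ) :
    FreeGroup.lift v (FreeGroup.mk (genWord i)) =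
      v 1 * ((v 1 * v 0 * (v 1)⁻¹) ^ (i + 1) * v 0 * ((v 1 * v 0 * (v 1)⁻¹) ^ (i + 1))⁻¹) *
        (v 1)⁻¹ * (v 0 ^ (i + 1) * (v 1 * v 0 * (v 1)⁻¹)⁻¹ * (v 0 ^ (i + 1))⁻¹) := by
  have one : ∀ (a : Fin 2) (b : Bool),
      FreeGroup.mk [(a, b)] = cond b (FreeGroup.of a) (FreeGroup.of a)⁻¹ := by
    intro a b
    cases b <;> rfl
  simp only [genWord, List.cons_append, List.nil_append, List.append_assoc]
  simp only [← List.singleton_append (l := _ ++ _), ← List.singleton_append (l := _ :: _),
    freeMk_append, freeMk_replicate, one, map_mul, map_inv, map_pow, cond_true, cond_false,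
    FreeGroup.lift_apply_of, conj_pow, inv_pow]
  simp [mul_assoc]

/-- The generators as elements of the free group on the two letters. -/
def genHom : FreeGroup ℕ →* FreeGroup (Fin 2) :=
  FreeGroup.lift fun i => FreeGroup.mk (genWord i)

variable {G : Type} [Group G]

/-- **Higman, Neumann and Neumann.** Two generators suffice, with the images of the relations. -/
theorem exists_two_generated (g : ℕ → G) (hg : Function.Surjective (FreeGroup.lift g)) :
    ∃ (H : Type) (_ : Group H) (Ψ : FreeGroup (Fin 2) →* H) (ρ : G →* H),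
      Function.Injective ρ ∧ ρ.range ≤ Ψ.range ∧
        Ψ.ker = Subgroup.normalClosure (genHom '' (FreeGroup.lift g).ker) := by
  let a : (Monoid.Coprod G (FreeGroup (Fin 2))) := Monoid.Coprod.inr (FreeGroup.of 0)
  let b : (Monoid.Coprod G (FreeGroup (Fin 2))) := Monoid.Coprod.inr (FreeGroup.of 1)
  let u : ℕ → (Monoid.Coprod G (FreeGroup (Fin 2))) := fun i => b ^ i * a * (b ^ i)⁻¹
  let w : ℕ → (Monoid.Coprod G (FreeGroup (Fin 2))) := fun i => Nat.casesOn i b fun j =>
    Monoid.Coprod.inl (g j) * (a ^ (j + 1) * b * (a ^ (j + 1))⁻¹)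
  let back : (Monoid.Coprod G (FreeGroup (Fin 2))) →* FreeGroup (Fin 2) :=
    Monoid.Coprod.lift 1 (MonoidHom.id _)
  have hu : Function.Injective (FreeGroup.lift u) := by
    refine Function.Injective.of_comp (f := back) ?_
    rw [← MonoidHom.coe_comp]
    convert free_conjugates_nat (x := (1 : Fin 2)) (y := 0) (by decide) using 2
    exact FreeGroup.ext_hom _ _ fun i => by simp [back, u, a, b]
  have hw : Function.Injective (FreeGroup.lift w) := by
    refine Function.Injective.of_comp (f := back) ?_
    rw [← MonoidHom.coe_comp]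
    convert free_conjugates_nat (x := (0 : Fin 2)) (y := 1) (by decide) using 2
    refine FreeGroup.ext_hom _ _ fun i => ?_
    cases i <;> simp [back, w, a, b]
  let φ := (MonoidHom.ofInjective hu).symm.trans (MonoidHom.ofInjective hw)
  have hconj : ∀ i,
      (t : HNNExtension (Monoid.Coprod G (FreeGroup (Fin 2))) _ _ φ) * of (u i) * t⁻¹ = of (w i) :=
    fun i => by
    have := equiv_eq_conj (φ := φ) (MonoidHom.ofInjective hu (FreeGroup.of i))
    simpa [φ, MonoidHom.ofInjective_apply] using this.symm
  let Ψ : FreeGroup (Fin 2) →* HNNExtension (Monoid.Coprod G (FreeGroup (Fin 2))) _ _ φ :=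
    FreeGroup.lift ![of a, t]
  have hb : (t : HNNExtension (Monoid.Coprod G (FreeGroup (Fin 2))) _ _ φ) * of a * t⁻¹ = of b := by
    simpa [u, w] using hconj 0
  have hgen : ∀ i, Ψ (FreeGroup.mk (genWord i)) = of (Monoid.Coprod.inl (g i)) := by
    intro i
    rw [lift_genWord]
    simp only [Matrix.cons_val_zero, Matrix.cons_val_one, hb]
    have h := hconj (i + 1)
    simp only [u, w, map_mul, map_pow, map_inv] at h
    rw [h]
    simp only [← map_pow, ← map_inv, ← map_mul]
    refine congrArg of ?_
    simp [mul_assoc]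
  have hcomp : Ψ.comp genHom = (of.comp Monoid.Coprod.inl).comp (FreeGroup.lift g) :=
    FreeGroup.ext_hom _ _ fun i => by simpa [genHom] using hgen i
  let N := Subgroup.normalClosure (genHom '' ((FreeGroup.lift g).ker : Set (FreeGroup ℕ)))
  let π := QuotientGroup.mk' N
  let γ : G →* FreeGroup (Fin 2) ⧸ N := (FreeGroup.lift g).liftOfSurjective hg
    ⟨π.comp genHom, fun x hx => (QuotientGroup.eq_one_iff _).2
      (Subgroup.subset_normalClosure ⟨x, hx, rfl⟩)⟩
  have hγ : ∀ i, γ (g i) = π (FreeGroup.mk (genWord i)) := fun i => by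
    have := MonoidHom.liftOfRightInverse_comp_apply (FreeGroup.lift g) _
      (Function.rightInverse_surjInv hg) ⟨π.comp genHom, fun x hx => (QuotientGroup.eq_one_iff _).2
        (Subgroup.subset_normalClosure ⟨x, hx, rfl⟩)⟩ (FreeGroup.of i)
    simpa [γ, genHom] using this
  let A := π (FreeGroup.of 0)
  let T := π (FreeGroup.of 1)
  let β : (Monoid.Coprod G (FreeGroup (Fin 2))) →* FreeGroup (Fin 2) ⧸ N := Monoid.Coprod.lift γ
    (FreeGroup.lift ![A, T * A * T⁻¹])
  have hrel : ∀ i, T * β (u i) * T⁻¹ = β (w i) := by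
    intro i
    cases i with
    | zero => simp [β, u, w, a, b]
    | succ i =>
      have e : π (FreeGroup.mk (genWord i)) =
          T * ((T * A * T⁻¹) ^ (i + 1) * A * ((T * A * T⁻¹) ^ (i + 1))⁻¹) * T⁻¹ *
            (A ^ (i + 1) * (T * A * T⁻¹)⁻¹ * (A ^ (i + 1))⁻¹) := by
        have h := DFunLike.congr_fun (FreeGroup.ext_hom π
          (FreeGroup.lift fun j => π (FreeGroup.of j)) fun j => by simp) (FreeGroup.mk (genWord i))
        rw [h, lift_genWord]
      simp [β, u, w, a, b, hγ, e]
      group
  have hx : ∀ z : (FreeGroup.lift u).range, T * β (z : (Monoid.Coprod G (FreeGroup (Fin 2)))) =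
      β (φ z : (Monoid.Coprod G (FreeGroup (Fin 2)))) * T := by
    intro z
    obtain ⟨x, rfl⟩ := (MonoidHom.ofInjective hu).surjective z
    have h : (MulAut.conj T).toMonoidHom.comp (β.comp (FreeGroup.lift u)) =
        β.comp (FreeGroup.lift w) :=
      FreeGroup.ext_hom _ _ fun i => by simpa [MulAut.conj_apply] using hrel i
    have := DFunLike.congr_fun h x
    simp only [MonoidHom.comp_apply, MulEquiv.coe_toMonoidHom, MulAut.conj_apply] at this
    simp only [φ, MulEquiv.trans_apply, MulEquiv.symm_apply_apply, MonoidHom.ofInjective_apply]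
    rw [← this, inv_mul_cancel_right]
  let Φ : HNNExtension (Monoid.Coprod G (FreeGroup (Fin 2))) _ _ φ →* FreeGroup (Fin 2) ⧸ N :=
    HNNExtension.lift β T hx
  have hΦ : Φ.comp Ψ = π := by
    refine FreeGroup.ext_hom _ _ fun j => ?_
    fin_cases j <;> simp [Φ, Ψ, β, A, T, a]
  refine ⟨_, inferInstance, Ψ, of.comp Monoid.Coprod.inl,
    (of_injective φ).comp Monoid.Coprod.inl_injective, ?_, le_antisymm (fun x hx => ?_) ?_⟩
  · rintro _ ⟨y, rfl⟩
    obtain ⟨x, rfl⟩ := hg y
    exact ⟨genHom x, DFunLike.congr_fun hcomp x⟩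
  · refine (QuotientGroup.eq_one_iff x).1 ?_
    change π x = 1
    rw [← hΦ, MonoidHom.comp_apply, hx, map_one]
  · refine Subgroup.normalClosure_le_normal ?_
    rintro _ ⟨x, hx, rfl⟩
    change (Ψ.comp genHom) x = 1
    rw [hcomp, MonoidHom.comp_apply, hx, map_one]

end FA.Undecidability
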