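import Mathlib.GroupTheory.FinitelyPresentedGroup
import Mathlib.Data.Countable.Basic
import Fermat.Agent.Undecidability.TwoGenerators

/-!
# A universal finitely presented group

The group with a block of generators for every finite presentation has recursively enumerable
relations and contains every finitely presented group as a retract. It embeds into a group with two
generators and recursively enumerable relations, hence into a finitely presented group.
-/

set_option autoImplicit false

namespace FA.Undecidability

/-- The word in two letters of a letter. -/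
def genLetterWord (x : ℕ × Bool) : List (Fin 2 × Bool) :=
  cond x.2 (genWord x.1) (FreeGroup.invRev (genWord x.1))

theorem genHom_mk (w : List (ℕ × Bool)) :
    genHom (FreeGroup.mk w) = FreeGroup.mk (w.flatMap genLetterWord) := by
  induction w with
  | nil => exact map_one _
  | cons x w ih =>
    rw [List.flatMap_cons, freeMk_append, ← List.singleton_append, freeMk_append, map_mul, ih]
    congr 1
    obtain ⟨i, b⟩ := x
    cases b
    · rw [show FreeGroup.mk [(i, false)] = (FreeGroup.of i)⁻¹ from rfl]
      simp [genHom, genLetterWord, FreeGroup.inv_mk]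
    · rw [show FreeGroup.mk [(i, true)] = FreeGroup.of i from rfl]
      simp [genHom, genLetterWord]

theorem primrec_genLetterWord : Primrec genLetterWord := by
  have rep : ∀ (a : Fin 2 × Bool), Primrec fun i : ℕ => List.replicate (i + 1) a :=
    fun a => (primrec_replicate a).comp Primrec.succ
  have app := @Primrec.list_append (Fin 2 × Bool) _
  have hgen : Primrec genWord :=
    app.comp (app.comp (app.comp (app.comp (app.comp (app.comp (app.comp (Primrec.const _)
      (rep _)) (Primrec.const _)) (rep _)) (Primrec.const _)) (rep _)) (Primrec.const _)) (rep _)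
  exact Primrec.cond Primrec.snd (hgen.comp Primrec.fst)
    (primrec_invRev.comp (hgen.comp Primrec.fst))

variable {G : Type} [Group G]

/-- **Countably many generators.** -/
theorem exists_fp_of_countable (g : ℕ → G) (hg : Function.Surjective (FreeGroup.lift g))
    (hre : REPred fun w : List (ℕ × Bool) => FreeGroup.lift g (FreeGroup.mk w) = 1) :
    ∃ (P : Type) (_ : Group P) (ρ : G →* P),
      Group.IsFinitelyPresented P ∧ Function.Injective ρ := by
  obtain ⟨A, hA, hA'⟩ := exists_stages hre
  obtain ⟨H, _, Ψ, ρ, hρ, hle, hker⟩ := exists_two_generated g hg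
  let rel : List (ℕ × Bool) × ℕ → List (Fin 2 × Bool) := fun r => r.1.flatMap genLetterWord
  have hrel : Primrec rel :=
    Primrec.list_flatMap Primrec.fst (primrec_genLetterWord.comp Primrec.snd).to₂
  have hset : genHom '' ((FreeGroup.lift g).ker : Set (FreeGroup ℕ)) =
      {y | ∃ r, A r = true ∧ y = FreeGroup.mk (rel r)} := by
    refine Set.ext fun y => ⟨?_, ?_⟩
    · rintro ⟨x, hx, rfl⟩
      obtain ⟨s, hs⟩ := (hA' x.toWord).1 (by rw [FreeGroup.mk_toWord]; exact hx)
      exact ⟨(x.toWord, s), hs, by rw [← genHom_mk, FreeGroup.mk_toWord]⟩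
    · rintro ⟨⟨w, s⟩, hr, rfl⟩
      exact ⟨FreeGroup.mk w, (hA' w).2 ⟨s, hr⟩, genHom_mk w⟩
  have hre₂ : REPred fun w : List (Fin 2 × Bool) => Ψ.rangeRestrict (FreeGroup.mk w) = 1 := by
    refine (rePred_normalClosure hA hrel).of_eq fun w => ?_
    rw [← hset, ← hker, MonoidHom.mem_ker, ← OneMemClass.coe_eq_one]
    rfl
  obtain ⟨P, _, σ, hP, hσ⟩ :=
    exists_higman_embedding Ψ.rangeRestrict Ψ.rangeRestrict_surjective hre₂
  exact ⟨P, inferInstance, σ.comp (ρ.codRestrict Ψ.range fun x => hle ⟨x, rfl⟩), hP,
    hσ.comp fun x y h => hρ (congrArg Subtype.val h)⟩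

/-- The presentation with a number. -/
def presentationOf (k : ℕ) : List (List (ℕ × Bool)) :=
  (Encodable.decode (α := List (List (ℕ × Bool))) k).getD []

/-- The relators of all presentations, each in its block of generators. -/
def blockRel (r : ℕ × ℕ) : List (ℕ × Bool) :=
  (((presentationOf r.1)[r.2]?).getD []).map fun x => (Nat.pair r.1 x.1, x.2)

/-- **Higman.** One finitely presented group contains all of them. -/
theorem exists_universal_fp_group :
    ∃ (U : Type) (_ : Group U), Group.IsFinitelyPresented U ∧
      ∀ (P : Type) [Group P], Group.IsFinitelyPresented P →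
        ∃ ρ : P →* U, Function.Injective ρ := by
  classical
  let R : Set (FreeGroup ℕ) := {y | ∃ r : ℕ × ℕ, true = true ∧ y = FreeGroup.mk (blockRel r)}
  have hpres : Primrec presentationOf :=
    Primrec.option_getD.comp Primrec.decode (Primrec.const [])
  have hrel : Primrec blockRel :=
    Primrec.list_map
      (Primrec.option_getD.comp (Primrec.list_getElem?.comp (hpres.comp Primrec.fst) Primrec.snd)
        (Primrec.const []))
      (Primrec.pair (Primrec₂.natPair.comp (Primrec.fst.comp Primrec.fst)
        (Primrec.fst.comp Primrec.snd)) (Primrec.snd.comp Primrec.snd)).to₂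
  let g : ℕ → PresentedGroup R := fun i => PresentedGroup.of i
  have hg : FreeGroup.lift g = PresentedGroup.mk R := FreeGroup.ext_hom _ _ fun i => by
    simp [g, PresentedGroup.of]
  obtain ⟨U, _, σ, hU, hσ⟩ := exists_fp_of_countable g (hg ▸ PresentedGroup.mk_surjective R) (by
    refine (rePred_normalClosure (ok := fun _ => true) (Primrec.const true) hrel).of_eq
      fun w => ?_
    rw [hg, PresentedGroup.mk_eq_one_iff])
  refine ⟨U, inferInstance, hU, fun P _ hP => ?_⟩
  obtain ⟨n, s, hs, ⟨e⟩⟩ := Group.IsFinitelyPresented.exists_mulEquiv_presentedGroup (hg := hP)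
  let L : List (List (ℕ × Bool)) :=
    hs.toFinset.toList.map fun r => r.toWord.map fun x => ((x.1 : ℕ), x.2)
  let k := Encodable.encode L
  have hk : presentationOf k = L := by simp [presentationOf, k]
  let f : Fin n → ℕ := fun i => Nat.pair k i
  have hfwd : ∀ r ∈ s, FreeGroup.lift (fun i => g (f i)) r = 1 := by
    intro r hr
    have h : FreeGroup.lift (fun i => g (f i)) = (PresentedGroup.mk R).comp (FreeGroup.map f) :=
      FreeGroup.ext_hom _ _ fun i => by simp [g, PresentedGroup.of]
    rw [h, MonoidHom.comp_apply, ← FreeGroup.mk_toWord (x := r), FreeGroup.map.mk]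
    obtain ⟨j, hj⟩ := List.mem_iff_getElem?.1 (List.mem_map_of_mem
      (f := fun r : FreeGroup (Fin n) => r.toWord.map fun x => ((x.1 : ℕ), x.2))
      (Finset.mem_toList.2 (hs.mem_toFinset.2 hr)))
    refine PresentedGroup.one_of_mem ⟨(k, j), rfl, ?_⟩
    simp [blockRel, hk, L, hj, f, Function.comp_def]
  let b : ℕ → PresentedGroup s := fun p =>
    if h : p.unpair.1 = k ∧ p.unpair.2 < n then PresentedGroup.of ⟨p.unpair.2, h.2⟩ else 1
  have hback : ∀ y ∈ R, FreeGroup.lift b y = 1 := by
    rintro _ ⟨⟨k', j⟩, -, rfl⟩
    let w := ((presentationOf k')[j]?).getD []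
    change FreeGroup.lift b (FreeGroup.mk (w.map fun x => (Nat.pair k' x.1, x.2))) = 1
    rw [← FreeGroup.map.mk]
    by_cases hkk : k' = k
    · subst hkk
      cases hw : (presentationOf k)[j]? with
      | none =>
        rw [show w = [] by simp [w, hw], ← FreeGroup.one_eq_mk, map_one, map_one]
      | some v =>
        obtain ⟨r, hr, rfl⟩ : ∃ r ∈ s, (r.toWord.map fun x => ((x.1 : ℕ), x.2)) = v := by
          have := List.mem_of_getElem? hw
          simpa [hk, L] using this
        rw [show w = r.toWord.map fun x => ((x.1 : ℕ), x.2) by simp [w, hw], ← FreeGroup.map.mk,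
          FreeGroup.mk_toWord]
        refine Eq.trans ?_ (PresentedGroup.one_of_mem hr)
        refine DFunLike.congr_fun (f := ((FreeGroup.lift b).comp
          (FreeGroup.map (Nat.pair k))).comp (FreeGroup.map fun i : Fin n => (i : ℕ)))
          (g := PresentedGroup.mk s) (FreeGroup.ext_hom _ _ fun i => ?_) r
        simp [b, PresentedGroup.of]
    · have h : (FreeGroup.lift b).comp (FreeGroup.map (Nat.pair k')) = 1 :=
        FreeGroup.ext_hom _ _ fun i => by simp [b, hkk]
      exact (DFunLike.congr_fun h (FreeGroup.mk w)).trans (MonoidHom.one_apply _)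
  let ρ : PresentedGroup s →* PresentedGroup R := PresentedGroup.toGroup hfwd
  have hid : (PresentedGroup.toGroup hback).comp ρ = MonoidHom.id _ :=
    PresentedGroup.ext fun i => by
      simp [ρ, g, f, b]
  exact ⟨(σ.comp ρ).comp e.toMonoidHom,
    (hσ.comp (Function.LeftInverse.injective (g := PresentedGroup.toGroup hback)
      fun x => DFunLike.congr_fun hid x)).comp e.injective⟩

end FA.Undecidability
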