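import Fermat.Agent.Undecidability.AdianRabin
import Mathlib.GroupTheory.FinitelyPresentedGroup
import Mathlib.Data.Set.Finite.Lemmas

/-!
# Subgroups of finitely presented groups are recursively presented

A word is a relation of a finitely presented group if and only if it reduces to the same word as
some product of conjugates of relators; these products can be searched.
-/

set_option autoImplicit false

namespace FA.Undecidability

/-- A finite search space makes a decidable property recursively enumerable. -/
theorem rePred_exists {α γ : Type*} [Primcodable α] [Primcodable γ] {c : α → γ → Bool}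
    (hc : Primrec₂ c) : REPred fun a => ∃ b, c a b = true := by
  let test : α → ℕ → Bool := fun a i => Option.casesOn (Encodable.decode (α := γ) i) false (c a)
  have h : Computable₂ test := (Primrec.option_casesOn (Primrec.decode.comp Primrec.snd)
    (Primrec.const false) (hc.comp (Primrec.fst.comp Primrec.fst) Primrec.snd).to₂).to_comp
  refine (Partrec.dom_re (Partrec.rfind h.partrec₂)).of_eq fun a => ?_
  change (Nat.rfind fun i => Part.some (test a i)).Dom ↔ _
  refine Nat.rfind_dom.trans ⟨fun ⟨i, hi, _⟩ => ?_,
    fun ⟨b, hb⟩ => ⟨Encodable.encode b, by simp [test, hb], fun _ => trivial⟩⟩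
  simp only [Part.mem_some_iff] at hi
  change true = test a i at hi
  cases hd : Encodable.decode (α := γ) i with
  | none => simp [test, hd] at hi
  | some b => exact ⟨b, by simpa [test, hd] using hi.symm⟩

theorem primrec_freeReduce {β : Type*} [Primcodable β] [Finite β] [DecidableEq β] :
    Primrec (FreeGroup.reduce : List (β × Bool) → List (β × Bool)) := by
  let step : β × Bool → List (β × Bool) → List (β × Bool) := fun x acc =>
    Option.casesOn acc.head? [x] fun hd =>
      cond (decide (x.1 = hd.1 ∧ x.2 = !hd.2)) acc.tail (x :: acc)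
  have hstep : Primrec fun p : (β × Bool) × List (β × Bool) => step p.1 p.2 :=
    Primrec.option_casesOn (Primrec.list_head?.comp Primrec.snd)
      (Primrec.list_cons.comp Primrec.fst (Primrec.const []))
      (Primrec.cond
        ((Primrec.dom_finite fun q : (β × Bool) × (β × Bool) =>
          decide (q.1.1 = q.2.1 ∧ q.1.2 = !q.2.2)).comp
            (Primrec.pair (Primrec.fst.comp Primrec.fst) Primrec.snd))
        (Primrec.list_tail.comp (Primrec.snd.comp Primrec.fst))
        (Primrec.list_cons.comp (Primrec.fst.comp Primrec.fst) (Primrec.snd.comp Primrec.fst))).to₂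
  refine (Primrec.list_foldr Primrec.id (Primrec.const [])
    (hstep.comp Primrec.snd).to₂).of_eq fun L => ?_
  induction L with
  | nil => rfl
  | cons x L ih =>
    simp only [id_eq] at ih ⊢
    rw [List.foldr_cons, ih, FreeGroup.reduce.cons]
    cases FreeGroup.reduce L <;> simp [step]

variable {m k : ℕ}

/-- The word of a list of conjugates of relators. -/
def certWord (rel : Fin k × Bool → List (Fin m × Bool))
    (c : List (List (Fin m × Bool) × Fin k × Bool)) : List (Fin m × Bool) :=
  c.flatMap fun e => e.1 ++ rel e.2 ++ FreeGroup.invRev e.1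

theorem mem_normalClosure_iff_cert (s : Fin k → FreeGroup (Fin m)) (x : FreeGroup (Fin m)) :
    x ∈ Subgroup.normalClosure (Set.range s) ↔ ∃ c, FreeGroup.mk
      (certWord (fun r => cond r.2 (s r.1).toWord (FreeGroup.invRev (s r.1).toWord)) c) = x := by
  have hrel : ∀ r : Fin k × Bool, FreeGroup.mk
      (cond r.2 (s r.1).toWord (FreeGroup.invRev (s r.1).toWord)) =
        cond r.2 (s r.1) (s r.1)⁻¹ := by
    rintro ⟨i, b⟩
    cases b <;> simp [← FreeGroup.inv_mk, FreeGroup.mk_toWord]
  have hword : ∀ (g : List (Fin m × Bool)) r c, FreeGroup.mk (certWord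
      (fun r => cond r.2 (s r.1).toWord (FreeGroup.invRev (s r.1).toWord)) ((g, r) :: c)) =
      FreeGroup.mk g * cond r.2 (s r.1) (s r.1)⁻¹ * (FreeGroup.mk g)⁻¹ * FreeGroup.mk
        (certWord (fun r => cond r.2 (s r.1).toWord (FreeGroup.invRev (s r.1).toWord)) c) := by
    intro g r c
    simp only [certWord, List.flatMap_cons, freeMk_append, hrel, FreeGroup.inv_mk]
  constructor
  · intro h
    induction h using Subgroup.closure_induction_left with
    | one => exact ⟨[], rfl⟩
    | mul_left y hy z _ ih =>
      obtain ⟨_, ⟨i, rfl⟩, hconj⟩ := Group.mem_conjugatesOfSet_iff.1 hy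
      obtain ⟨g, rfl⟩ := isConj_iff.1 hconj
      obtain ⟨c, rfl⟩ := ih
      exact ⟨(g.toWord, i, true) :: c, by rw [hword, FreeGroup.mk_toWord]; rfl⟩
    | inv_mul_cancel y hy z _ ih =>
      obtain ⟨_, ⟨i, rfl⟩, hconj⟩ := Group.mem_conjugatesOfSet_iff.1 hy
      obtain ⟨g, rfl⟩ := isConj_iff.1 hconj
      obtain ⟨c, rfl⟩ := ih
      refine ⟨(g.toWord, i, false) :: c, ?_⟩
      rw [hword, FreeGroup.mk_toWord]
      simp [mul_assoc]
  · rintro ⟨c, rfl⟩
    induction c with
    | nil => exact one_mem (Subgroup.normalClosure (Set.range s))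
    | cons e c ih =>
      obtain ⟨g, i, b⟩ := e
      rw [hword]
      refine mul_mem (Subgroup.normalClosure_normal.conj_mem _ ?_ _) ih
      cases b
      · exact inv_mem (Subgroup.subset_normalClosure ⟨i, rfl⟩)
      · exact Subgroup.subset_normalClosure ⟨i, rfl⟩

/-- **The easy half of Higman's theorem.** -/
theorem rePred_of_embedding {n : ℕ} {G P : Type} [Group G] [Group P]
    (π : FreeGroup (Fin n) →* G) (hP : Group.IsFinitelyPresented P) (ρ : G →* P)
    (hρ : Function.Injective ρ) :
    REPred fun w : List (Fin n × Bool) => π (FreeGroup.mk w) = 1 := by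
  obtain ⟨m, φ, hφ, S, hS, hSφ⟩ := hP.out
  obtain ⟨k, s, -, rfl⟩ := Set.Finite.fin_param hS
  choose v hv using fun i => hφ (ρ (π (FreeGroup.of i)))
  let sub : Fin n × Bool → List (Fin m × Bool) := fun x =>
    cond x.2 (v x.1).toWord (FreeGroup.invRev (v x.1).toWord)
  have hsub : ∀ w, φ (FreeGroup.mk (w.flatMap sub)) = ρ (π (FreeGroup.mk w)) := by
    intro w
    induction w with
    | nil => simp [← FreeGroup.one_eq_mk]
    | cons x w ih =>
      rw [List.flatMap_cons, freeMk_append, map_mul, ih, ← List.singleton_append, freeMk_append,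
        map_mul, map_mul]
      congr 1
      obtain ⟨i, b⟩ := x
      cases b
      · rw [show FreeGroup.mk [(i, false)] = (FreeGroup.of i)⁻¹ from rfl]
        simp [sub, ← FreeGroup.inv_mk, FreeGroup.mk_toWord, hv]
      · rw [show FreeGroup.mk [(i, true)] = FreeGroup.of i from rfl]
        simp [sub, FreeGroup.mk_toWord, hv]
  let rel : Fin k × Bool → List (Fin m × Bool) := fun r =>
    cond r.2 (s r.1).toWord (FreeGroup.invRev (s r.1).toWord)
  have hcert : Primrec (certWord rel) :=
    Primrec.list_flatMap Primrec.id
      (Primrec.list_append.comp (Primrec.list_append.comp (Primrec.fst.comp Primrec.snd)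
        ((Primrec.dom_finite rel).comp (Primrec.snd.comp Primrec.snd)))
        (primrec_invRev.comp (Primrec.fst.comp Primrec.snd))).to₂
  have hw : Primrec fun w : List (Fin n × Bool) => w.flatMap sub :=
    Primrec.list_flatMap Primrec.id ((Primrec.dom_finite sub).comp Primrec.snd).to₂
  have hc : Primrec₂ fun (w : List (Fin n × Bool)) (c : List (List (Fin m × Bool) × Fin k × Bool))
      => decide (FreeGroup.reduce (certWord rel c) = FreeGroup.reduce (w.flatMap sub)) :=
    (PrimrecPred.decide (Primrec.eq.comp (primrec_freeReduce.comp (hcert.comp Primrec.snd))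
      (primrec_freeReduce.comp (hw.comp Primrec.fst)))).to₂
  refine (rePred_exists hc).of_eq fun w => ?_
  simp only [decide_eq_true_eq, ← FreeGroup.toWord_mk, FreeGroup.toWord_inj]
  rw [← mem_normalClosure_iff_cert s, hSφ, MonoidHom.mem_ker, hsub, map_eq_one_iff ρ hρ]

end FA.Undecidability
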