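import Mathlib.GroupTheory.FinitelyPresentedGroup
import Mathlib.GroupTheory.HNNExtension
import Mathlib.GroupTheory.NoncommCoprod

/-!
# Finitely presented products and extensions

Products of two finitely presented groups are finitely presented, and so is an HNN extension of a
finitely presented group along finitely generated subgroups.
-/

set_option autoImplicit false

namespace FA.Undecidability

open Monoid Subgroup

variable {G H P : Type*} [Group G] [Group H] [Group P]

/-- A finitely presented group is finitely generated. -/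
theorem fg_of_fp (h : Group.IsFinitelyPresented G) : Group.FG G := by
  obtain ⟨n, φ, hφ, -⟩ := h.out
  exact Group.fg_of_surjective hφ

/-- Finitely many elements generate. -/
theorem exists_finite_generators (h : Group.FG G) :
    ∃ S : Set G, S.Finite ∧ Subgroup.closure S = ⊤ := by
  obtain ⟨S, hS, hfin⟩ := Group.fg_iff.1 h
  exact ⟨S, hfin, hS⟩

/-- A map back to the quotient shows that finitely many relations suffice. -/
theorem fp_of_leftInverse (hP : Group.IsFinitelyPresented P) {R : Set P} (hR : R.Finite)
    (f : P →* G) (hf : Function.Surjective f) (h1 : ∀ r ∈ R, f r = 1)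
    (g : G →* P ⧸ normalClosure R) (hg : ∀ p, g (f p) = QuotientGroup.mk p) :
    Group.IsFinitelyPresented G :=
  Group.IsFinitelyPresented.of_surjective (hG := hP) f hf
    ⟨R, hR, le_antisymm (normalClosure_le_normal h1) fun p hp =>
      (QuotientGroup.eq_one_iff p).1 (by rw [← hg, hp, map_one])⟩

/-- **A product of two finitely presented groups is finitely presented.** -/
theorem fp_prod (hG : Group.IsFinitelyPresented G) (hH : Group.IsFinitelyPresented H) :
    Group.IsFinitelyPresented (G × H) := by
  obtain ⟨S, hS, hS'⟩ := exists_finite_generators (fg_of_fp hG)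
  obtain ⟨T, hT, hT'⟩ := exists_finite_generators (fg_of_fp hH)
  let R : Set (Coprod G H) :=
    (fun p : G × H => Coprod.inl p.1 * Coprod.inr p.2 * (Coprod.inr p.2 * Coprod.inl p.1)⁻¹) ''
      (S ×ˢ T)
  let a : G →* Coprod G H ⧸ normalClosure R := (QuotientGroup.mk' _).comp Coprod.inl
  let b : H →* Coprod G H ⧸ normalClosure R := (QuotientGroup.mk' _).comp Coprod.inr
  have h0 : ∀ g ∈ S, ∀ h ∈ T, Commute (a g) (b h) := by
    intro g hg h hh
    refine mul_inv_eq_one.1 ?_
    simp only [a, b, MonoidHom.comp_apply, ← map_mul, ← map_inv]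
    exact (QuotientGroup.eq_one_iff _).2 (subset_normalClosure ⟨(g, h), ⟨hg, hh⟩, rfl⟩)
  have h1 : ∀ g ∈ S, ∀ h, Commute (a g) (b h) := by
    intro g hg
    have : Subgroup.closure T ≤ (centralizer {a g}).comap b :=
      (closure_le _).2 fun h hh => mem_centralizer_singleton_iff.2 (h0 g hg h hh).symm
    exact fun h => (mem_centralizer_singleton_iff.1 (this (hT' ▸ mem_top h))).symm
  have h2 : ∀ g h, Commute (a g) (b h) := by
    intro g h
    have : Subgroup.closure S ≤ (centralizer {b h}).comap a :=
      (closure_le _).2 fun g hg => mem_centralizer_singleton_iff.2 (h1 g hg h)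
    exact mem_centralizer_singleton_iff.1 (this (hS' ▸ mem_top g))
  refine fp_of_leftInverse inferInstance ((hS.prod hT).image _) Coprod.toProd
    (fun p => ⟨Coprod.inl p.1 * Coprod.inr p.2, by simp⟩) ?_ (a.noncommCoprod b h2) fun p => ?_
  · rintro _ ⟨⟨g, h⟩, -, rfl⟩
    simp
  · refine DFunLike.congr_fun (f := (a.noncommCoprod b h2).comp Coprod.toProd)
      (g := QuotientGroup.mk' _) ?_ p
    ext x <;> simp [a, b]

/-- **An HNN extension along finitely generated subgroups is finitely presented.** -/
theorem fp_hnn (hG : Group.IsFinitelyPresented G) {A B : Subgroup G} (φ : A ≃* B)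
    (hA : Group.FG A) : Group.IsFinitelyPresented (HNNExtension G A B φ) := by
  obtain ⟨S, hS, hS'⟩ := exists_finite_generators hA
  let X : Coprod G (Multiplicative ℤ) := Coprod.inr (Multiplicative.ofAdd 1)
  let R : Set (Coprod G (Multiplicative ℤ)) :=
    (fun a : A => X * Coprod.inl (a : G) * X⁻¹ * (Coprod.inl (φ a : G))⁻¹) '' S
  let F : Coprod G (Multiplicative ℤ) →* HNNExtension G A B φ :=
    Coprod.lift HNNExtension.of (zpowersHom _ HNNExtension.t)
  have hFX : F X = HNNExtension.t := by simp [F, X]
  have hF : Function.Surjective F := by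
    intro x
    induction x using HNNExtension.induction_on with
    | of g => exact ⟨Coprod.inl g, by simp [F]⟩
    | t => exact ⟨X, hFX⟩
    | mul x y hx hy =>
      obtain ⟨p, rfl⟩ := hx
      obtain ⟨q, rfl⟩ := hy
      exact ⟨p * q, map_mul F p q⟩
    | inv x hx =>
      obtain ⟨p, rfl⟩ := hx
      exact ⟨p⁻¹, map_inv F p⟩
  let π := QuotientGroup.mk' (normalClosure R)
  have key : ((MulAut.conj (π X)).toMonoidHom.comp ((π.comp Coprod.inl).comp A.subtype)) =
      ((π.comp Coprod.inl).comp B.subtype).comp φ.toMonoidHom := by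
    refine MonoidHom.eq_of_eqOn_dense hS' fun a ha => ?_
    refine mul_inv_eq_one.1 ?_
    have h : π (X * Coprod.inl (a : G) * X⁻¹ * (Coprod.inl (φ a : G))⁻¹) = 1 :=
      (QuotientGroup.eq_one_iff _).2 (subset_normalClosure ⟨a, ha, rfl⟩)
    simpa [MulAut.conj_apply] using h
  have hrel : ∀ a : A, π X * (π.comp Coprod.inl) a = (π.comp Coprod.inl) (φ a : G) * π X := by
    intro a
    have := DFunLike.congr_fun key a
    simp only [MonoidHom.comp_apply, MulEquiv.coe_toMonoidHom, MulAut.conj_apply,
      Subgroup.coe_subtype] at this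
    simp only [MonoidHom.comp_apply]
    rw [← this, inv_mul_cancel_right]
  refine fp_of_leftInverse inferInstance (hS.image _) F hF ?_
    (HNNExtension.lift (π.comp Coprod.inl) (π X) hrel) fun p => ?_
  · rintro _ ⟨a, -, rfl⟩
    simp [hFX, F, HNNExtension.equiv_eq_conj]
  · refine DFunLike.congr_fun (f := (HNNExtension.lift _ _ hrel).comp F) (g := π) ?_ p
    ext x <;> simp [F, X, π]

/-- A range is finitely generated. -/
theorem fg_range (h : Group.IsFinitelyPresented G) (f : G →* H) : Group.FG f.range :=
  have := fg_of_fp h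
  Group.fg_range f

/-- The trivial subgroup is finitely generated. -/
theorem fg_bot : Group.FG (⊥ : Subgroup G) := Group.fg_of_finite

end FA.Undecidability
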