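import Mathlib.GroupTheory.FreeGroup.Reduce
import Mathlib.Data.Fin.VecNotation
import Mathlib.Tactic.FinCases
import Fermat.Agent.Undecidability.PlaneGroup

/-!
# Free subgroups made by stable letters

A free subgroup meeting both associated subgroups trivially stays free when the stable letter is
added. So `r, t` are free in `⟨r, s, t | s r s⁻¹ = r², t s t⁻¹ = s²⟩`, which dies with `t`.
-/

set_option autoImplicit false

namespace FA.Undecidability

open HNNExtension

variable {G : Type*} [Group G] {A B : Subgroup G} {φ : A ≃* B}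

/-- The map from the extension of `H` by trivial subgroups. -/
def freeLetterHom {H : Type*} [Group H] (F : H →* G) :
    HNNExtension H ⊥ ⊥ (MulEquiv.refl (⊥ : Subgroup H)) →* HNNExtension G A B φ :=
  HNNExtension.lift ((of : G →* HNNExtension G A B φ).comp F) t fun a => by
    simp [Subgroup.mem_bot.1 a.2]

/-- **Britton.** It is injective if `F` is and its range meets `A` and `B` trivially. -/
theorem freeLetterHom_injective {H : Type*} [Group H] {F : H →* G} (hF : Function.Injective F)
    (hA : ∀ h, F h ∈ A → h = 1) (hB : ∀ h, F h ∈ B → h = 1) :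
    Function.Injective (freeLetterHom (φ := φ) F) := by
  rw [injective_iff_map_eq_one]
  intro x hx
  obtain ⟨d⟩ := NormalWord.TransversalPair.nonempty H (⊥ : Subgroup H) ⊥
  obtain ⟨w, rfl⟩ := (NormalWord.equiv (MulEquiv.refl (⊥ : Subgroup H)) d).symm.surjective x
  have hsub : ∀ (u : ℤˣ) h, F h ∈ toSubgroup A B u → h ∈ toSubgroup (⊥ : Subgroup H) ⊥ u := by
    intro u h hh
    rcases Int.units_eq_one_or u with rfl | rfl
    · simpa using hA h hh
    · simpa using hB h hh
  let w' : NormalWord.ReducedWord G A B :=
    ⟨F w.head, w.toList.map fun p => (p.1, F p.2),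
      (List.isChain_map _).2 (w.chain.imp fun a b h hh => h (hsub a.1 a.2 hh))⟩
  have hw : w'.prod φ = 1 := by
    refine Eq.trans ?_ hx
    change _ = freeLetterHom F (w.toReducedWord.prod _)
    simp [w', NormalWord.ReducedWord.prod, freeLetterHom, List.map_map, Function.comp_def,
      map_list_prod, map_zpow]
  have hnil := ReducedWord.toList_eq_nil_of_mem_of_range φ w' (hw ▸ one_mem _)
  have hl : w.toList = [] := by simpa [w'] using hnil
  have h1 : F w.head = 1 := by
    refine of_injective φ (a₁ := F w.head) ?_
    simpa [w', NormalWord.ReducedWord.prod, hl] using hw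
  change w.toReducedWord.prod _ = 1
  rw [NormalWord.ReducedWord.prod, hl, (map_eq_one_iff F hF).1 h1]
  simp

/-- **A free basis gets one more letter.** -/
theorem free_snoc {k : ℕ} {v : Fin k → G} (hv : Function.Injective (FreeGroup.lift v))
    (hA : ∀ x, FreeGroup.lift v x ∈ A → x = 1) (hB : ∀ x, FreeGroup.lift v x ∈ B → x = 1) :
    Function.Injective
      (FreeGroup.lift (Fin.snoc (fun i => of (v i)) t : Fin (k + 1) → HNNExtension G A B φ)) := by
  let f : FreeGroup (Fin (k + 1)) →*
      HNNExtension (FreeGroup (Fin k)) ⊥ ⊥ (MulEquiv.refl (⊥ : Subgroup (FreeGroup (Fin k)))) :=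
    FreeGroup.lift (Fin.snoc (fun i => of (FreeGroup.of i)) t)
  let g : HNNExtension (FreeGroup (Fin k)) ⊥ ⊥ (MulEquiv.refl (⊥ : Subgroup (FreeGroup (Fin k))))
      →* FreeGroup (Fin (k + 1)) :=
    HNNExtension.lift (FreeGroup.map Fin.castSucc) (FreeGroup.of (Fin.last k)) fun a => by
      simp [Subgroup.mem_bot.1 a.2]
  have hgf : g.comp f = MonoidHom.id _ := by
    ext i
    induction i using Fin.lastCases <;> simp [f, g]
  have hf : Function.Injective f :=
    Function.LeftInverse.injective (g := g) fun x => DFunLike.congr_fun hgf x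
  have e : (freeLetterHom (φ := φ) (FreeGroup.lift v)).comp f =
      FreeGroup.lift (Fin.snoc (fun i => of (v i)) t) := by
    ext i
    induction i using Fin.lastCases <;> simp [f, freeLetterHom]
  rw [← e]
  exact (freeLetterHom_injective hv hA hB).comp hf

/-- The conjugates of one letter by the powers of another are free. -/
theorem free_conjugates {G : Type*} [Group G] {v : Fin 2 → G}
    (hv : Function.Injective (FreeGroup.lift v)) (k : ℕ) :
    Function.Injective (FreeGroup.lift fun i : Fin k => v 0 ^ i.1 * v 1 * (v 0 ^ i.1)⁻¹) := by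
  let c : FreeGroup (Fin k) →* FreeGroup (Fin 2) := FreeGroup.lift fun i : Fin k =>
    FreeGroup.of 0 ^ i.1 * FreeGroup.of 1 * (FreeGroup.of 0 ^ i.1)⁻¹
  let b : FreeGroup (Fin 2) →* PlaneGroup :=
    FreeGroup.lift ![SemidirectProduct.inr (Multiplicative.ofAdd (1, 0)), pointLetter 0]
  have hbc : b.comp c =
      SemidirectProduct.inl.comp (FreeGroup.map fun i : Fin k => ((i.1 : ℤ), 0)) := by
    refine FreeGroup.ext_hom _ _ fun i => ?_
    have := pointLetter_eq ((i.1 : ℤ), 0)
    rw [show ((i.1 : ℤ), (0 : ℤ)) = i.1 • ((1, 0) : ℤ × ℤ) by simp, ofAdd_nsmul, map_pow] at this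
    simpa [b, c, pointLetter, Prod.smul_mk] using this.symm
  have hc : Function.Injective c := by
    refine Function.Injective.of_comp (f := b) ?_
    rw [← MonoidHom.coe_comp, hbc]
    exact SemidirectProduct.inl_injective.comp
      (FreeGroup.map_injective fun i j h => Fin.ext (by simpa using h))
  have e : (FreeGroup.lift v).comp c =
      FreeGroup.lift fun i : Fin k => v 0 ^ i.1 * v 1 * (v 0 ^ i.1)⁻¹ := by
    ext i
    simp [c]
  rw [← e]
  exact hv.comp hc

/-- An element with nonzero exponent has no torsion. -/
theorem zpowersHom_injective_of_map {G : Type*} [Group G] (e : G →* Multiplicative ℤ) {a : G}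
    (h : (e a).toAdd ≠ 0) : Function.Injective (zpowersHom G a) := by
  intro m n hmn
  have := congrArg (fun x => (e x).toAdd) hmn
  simp only [zpowersHom_apply, map_zpow, toAdd_zpow, smul_eq_mul] at this
  exact Multiplicative.toAdd.injective (mul_right_cancel₀ h this)

/-- **A group which dies with one of its two free elements.** -/
theorem exists_twoStep :
    ∃ (Q : Type) (_ : Group Q) (r s t : Q), s * r * s⁻¹ = r ^ 2 ∧ t * s * t⁻¹ = s ^ 2 ∧
      Function.Injective (FreeGroup.lift ![r, t]) := by
  let c : Multiplicative ℤ := Multiplicative.ofAdd 1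
  let e₀ : Multiplicative ℤ →* Multiplicative ℤ := MonoidHom.id _
  have h1 : Function.Injective (zpowersHom (Multiplicative ℤ) c) :=
    zpowersHom_injective_of_map e₀ (by simp [e₀, c])
  have h2 : Function.Injective (zpowersHom (Multiplicative ℤ) (c ^ 2)) :=
    zpowersHom_injective_of_map e₀ (by simp [e₀, c])
  let φ := (MonoidHom.ofInjective h1).symm.trans (MonoidHom.ofInjective h2)
  let S := HNNExtension (Multiplicative ℤ) _ _ φ
  let e : S →* Multiplicative ℤ := HNNExtension.lift 1 c fun a => by simp
  have et : e t = c := HNNExtension.lift_t _ _ _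
  have ec : e (of c) = 1 := HNNExtension.lift_of _ _ _ _
  have k1 : Function.Injective (zpowersHom S t) :=
    zpowersHom_injective_of_map e (by simp [et, c])
  have k2 : Function.Injective (zpowersHom S (t ^ 2)) :=
    zpowersHom_injective_of_map e (by simp [et, c])
  let ψ := (MonoidHom.ofInjective k1).symm.trans (MonoidHom.ofInjective k2)
  refine ⟨HNNExtension S _ _ ψ, inferInstance, of (of c), of t, t, ?_, ?_, ?_⟩
  · have := congrArg (of (φ := ψ)) (equiv_eq_conj (φ := φ)
      (MonoidHom.ofInjective h1 (Multiplicative.ofAdd 1)))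
    simpa [φ, MonoidHom.ofInjective_apply, map_pow] using this.symm
  · have := equiv_eq_conj (φ := ψ) (MonoidHom.ofInjective k1 (Multiplicative.ofAdd 1))
    simpa [ψ, MonoidHom.ofInjective_apply, map_pow] using this.symm
  · let v : Fin 1 → S := fun _ => of c
    have hlift : ∀ x, ∃ j : ℤ, x = (FreeGroup.of (0 : Fin 1)) ^ j := by
      intro x
      induction x with
      | C1 => exact ⟨0, by simp⟩
      | of i => exact ⟨1, by simp [Subsingleton.elim i 0]⟩
      | inv_of i _ => exact ⟨-1, by simp [Subsingleton.elim i 0]⟩
      | mul x y hx hy =>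
        obtain ⟨m, rfl⟩ := hx
        obtain ⟨n, rfl⟩ := hy
        exact ⟨m + n, (zpow_add _ _ _).symm⟩
    have hv : Function.Injective (FreeGroup.lift v) := by
      rw [injective_iff_map_eq_one]
      intro x hx
      obtain ⟨j, rfl⟩ := hlift x
      simp only [map_zpow, FreeGroup.lift_apply_of, v] at hx
      rw [← map_zpow, map_eq_one_iff of (of_injective φ)] at hx
      obtain rfl : j = 0 := by simpa [c] using congrArg Multiplicative.toAdd hx
      simp
    have key : ∀ (a : S), (e a).toAdd ≠ 0 → ∀ x, FreeGroup.lift v x ∈ (zpowersHom S a).range →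
        x = 1 := by
      rintro a ha x ⟨m, hm⟩
      obtain ⟨j, rfl⟩ := hlift x
      have h0 := congrArg (fun y => (e y).toAdd) hm
      simp only [zpowersHom_apply, map_zpow, toAdd_zpow, smul_eq_mul, FreeGroup.lift_apply_of,
        v] at h0
      have hm0 : m.toAdd = 0 := by
        simpa [ec, ha] using h0
      rw [zpowersHom_apply, hm0, zpow_zero] at hm
      exact hv (hm.symm.trans (map_one _).symm)
    have h := free_snoc (φ := ψ) hv (key t (by simp [et, c])) (key (t ^ 2) (by simp [et, c]))
    convert h using 3
    funext i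
    fin_cases i <;> simp [v, Fin.snoc]

end FA.Undecidability
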