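import Mathlib.LinearAlgebra.Matrix.SpecialLinearGroup
import Mathlib.LinearAlgebra.Matrix.Reindex
import Mathlib.Data.Matrix.Block
import Fermat.Agent.TitsAlternative.Exclusive
import Fermat.Agent.BakerExplicit.FormSearch
import Fermat.Agent.Undecidability.GroupProblem
import Fermat.Agent.Undecidability.FreeLetters

/-!
# Mihailova's subgroup

The pairs of words which are equal in a presented group form the subgroup generated by the diagonal
and the relators. Two free groups of rank two are block diagonal matrices of order four.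
-/

set_option autoImplicit false

namespace FA.Undecidability

open Matrix

variable {α : Type*}

/-- The diagonal letters and the relators. -/
def mihailovaGens (R : Set (FreeGroup α)) : Set (FreeGroup α × FreeGroup α) :=
  Set.range (fun a => (FreeGroup.of a, FreeGroup.of a)) ∪ (fun r => (r, 1)) '' R

/-- **Mihailova.** The fibre product meets the first factor in the normal closure. -/
theorem mihailova_mem (R : Set (FreeGroup α)) (g : FreeGroup α) :
    (g, 1) ∈ Subgroup.closure (mihailovaGens R) ↔ PresentedGroup.mk R g = 1 := by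
  constructor
  · intro h
    have h1 : Subgroup.closure (mihailovaGens R) ≤
        ((PresentedGroup.mk R).comp (MonoidHom.fst _ _)).eqLocus
          ((PresentedGroup.mk R).comp (MonoidHom.snd _ _)) := by
      rw [Subgroup.closure_le]
      rintro _ (⟨a, rfl⟩ | ⟨r, hr, rfl⟩)
      · exact rfl
      · exact (PresentedGroup.one_of_mem hr).trans (map_one (PresentedGroup.mk R)).symm
    exact (h1 h).trans (map_one (PresentedGroup.mk R))
  · intro h
    let N := (Subgroup.closure (mihailovaGens R)).comap (MonoidHom.inl (FreeGroup α) (FreeGroup α))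
    have hdiag : ∀ x : FreeGroup α, (x, x) ∈ Subgroup.closure (mihailovaGens R) := by
      intro x
      have : FreeGroup.lift (fun a => (FreeGroup.of a, FreeGroup.of a)) x = (x, x) :=
        DFunLike.congr_fun (g := (MonoidHom.id _).prod (MonoidHom.id _))
          (FreeGroup.ext_hom _ _ fun a => by simp) x
      rw [← this]
      refine FreeGroup.range_lift_le ?_ ⟨x, rfl⟩
      rintro _ ⟨a, rfl⟩
      exact Subgroup.subset_closure (Or.inl ⟨a, rfl⟩)
    have : N.Normal := ⟨fun n hn x => by
      have := mul_mem (mul_mem (hdiag x) hn) (inv_mem (hdiag x))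
      simpa [N] using this⟩
    exact (Subgroup.normalClosure_le_normal (N := N) fun r hr =>
      Subgroup.subset_closure (Or.inr ⟨r, hr, rfl⟩)) (PresentedGroup.mk_eq_one_iff.1 h)

/-- The word of a conjugate `x ^ i y x ^ (-i)`. -/
def conjLetterWord {n : ℕ} (l : Fin n × Bool) : List (Fin 2 × Bool) :=
  List.replicate l.1.1 (0, true) ++ [(1, l.2)] ++ List.replicate l.1.1 (0, false)

/-- The embedding of a free group of rank `n` into the one of rank two. -/
def conjHom (n : ℕ) : FreeGroup (Fin n) →* FreeGroup (Fin 2) :=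
  FreeGroup.lift fun i => FreeGroup.of 0 ^ i.1 * FreeGroup.of 1 * (FreeGroup.of 0 ^ i.1)⁻¹

theorem conjHom_injective (n : ℕ) : Function.Injective (conjHom n) :=
  free_conjugates (v := FreeGroup.of) (by
    have e : FreeGroup.lift (FreeGroup.of : Fin 2 → FreeGroup (Fin 2)) = MonoidHom.id _ :=
      FreeGroup.ext_hom _ _ fun i => by simp
    rw [e]
    exact Function.injective_id) n

theorem conjHom_mk {n : ℕ} (w : List (Fin n × Bool)) :
    conjHom n (FreeGroup.mk w) = FreeGroup.mk (w.flatMap conjLetterWord) := by
  induction w with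
  | nil => exact map_one _
  | cons l w ih =>
    rw [← List.singleton_append, freeMk_append, map_mul, ih, List.flatMap_append, freeMk_append]
    congr 1
    obtain ⟨i, b⟩ := l
    have one : FreeGroup.mk [((1 : Fin 2), b)] = cond b (FreeGroup.of 1) (FreeGroup.of 1)⁻¹ := by
      cases b <;> rfl
    simp only [List.flatMap_cons, List.flatMap_nil, List.append_nil, conjLetterWord, freeMk_append,
      freeMk_replicate, one]
    cases b <;> simp [conjHom, FreeGroup.lift_mk, mul_assoc]

/-- Sanov's matrices. -/
def sanovGen : Fin 2 → SpecialLinearGroup (Fin 2) ℤ :=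
  ![⟨!![1, 2; 0, 1], by simp [Matrix.det_fin_two]⟩, ⟨!![1, 0; 2, 1], by simp [Matrix.det_fin_two]⟩]

/-- Sanov's embedding. -/
def sanovHom : FreeGroup (Fin 2) →* SpecialLinearGroup (Fin 2) ℤ := FreeGroup.lift sanovGen

theorem sanovHom_injective : Function.Injective sanovHom := by
  refine Function.Injective.of_comp
    (f := (SpecialLinearGroup.toGL.comp (SpecialLinearGroup.map (Int.castRingHom ℚ)))) ?_
  rw [← MonoidHom.coe_comp]
  have e : (SpecialLinearGroup.toGL.comp (SpecialLinearGroup.map (Int.castRingHom ℚ))).comp sanovHom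
      = FreeGroup.lift fun i => TitsAlternative.elementary i 2 := by
    refine FreeGroup.ext_hom _ _ fun i => Units.ext ?_
    ext a b
    rw [sanovHom, MonoidHom.comp_apply, FreeGroup.lift_apply_of, FreeGroup.lift_apply_of]
    fin_cases i <;> fin_cases a <;> fin_cases b <;> rfl
  rw [e]
  exact TitsAlternative.sanov

/-- Four indices as two pairs. -/
def fourEquiv : Fin 2 ⊕ Fin 2 ≃ Fin 4 := finSumFinEquiv

theorem blocks_mul (a b c d : Matrix (Fin 2) (Fin 2) ℤ) :
    Matrix.reindex fourEquiv fourEquiv (Matrix.fromBlocks (a * b) 0 0 (c * d)) =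
      Matrix.reindex fourEquiv fourEquiv (Matrix.fromBlocks a 0 0 c) *
        Matrix.reindex fourEquiv fourEquiv (Matrix.fromBlocks b 0 0 d) := by
  simp [Matrix.reindex_apply, Matrix.submatrix_mul_equiv, Matrix.fromBlocks_multiply]

/-- Two blocks on the diagonal. -/
def blockPair : SpecialLinearGroup (Fin 2) ℤ × SpecialLinearGroup (Fin 2) ℤ →*
    SpecialLinearGroup (Fin 4) ℤ where
  toFun p := ⟨Matrix.reindex fourEquiv fourEquiv
    (Matrix.fromBlocks (p.1 : Matrix (Fin 2) (Fin 2) ℤ) 0 0 p.2), by
      rw [Matrix.det_reindex_self, Matrix.det_fromBlocks_zero₁₂, p.1.2, p.2.2, mul_one]⟩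
  map_one' := Subtype.ext (by simp)
  map_mul' p q := Subtype.ext (blocks_mul (p.1 : Matrix (Fin 2) (Fin 2) ℤ) q.1 p.2 q.2)

theorem blockPair_injective : Function.Injective blockPair := by
  intro p q h
  have h1 := (Matrix.reindex fourEquiv fourEquiv).injective (congrArg Subtype.val h)
  obtain ⟨h2, -, -, h3⟩ := Matrix.fromBlocks_inj.1 h1
  exact Prod.ext (Subtype.ext h2) (Subtype.ext h3)

/-- Pairs of words as matrices of order four. -/
def pairMatrix : FreeGroup (Fin 2) × FreeGroup (Fin 2) →* SpecialLinearGroup (Fin 4) ℤ :=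
  blockPair.comp (sanovHom.prodMap sanovHom)

theorem pairMatrix_injective : Function.Injective pairMatrix :=
  blockPair_injective.comp (sanovHom_injective.prodMap sanovHom_injective)

/-- The array of a matrix. -/
def entries {k : ℕ} (g : SpecialLinearGroup (Fin k) ℤ) : Fin k → Fin k → ℤ :=
  fun i j => (g : Matrix (Fin k) (Fin k) ℤ) i j

/-- The product of arrays of order four. -/
def mulArray (A B : Fin 4 → Fin 4 → ℤ) : Fin 4 → Fin 4 → ℤ :=
  fun i j => A i 0 * B 0 j + A i 1 * B 1 j + A i 2 * B 2 j + A i 3 * B 3 j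

theorem entries_mul (g h : SpecialLinearGroup (Fin 4) ℤ) :
    entries (g * h) = mulArray (entries g) (entries h) := by
  funext i j
  simp [entries, mulArray, Matrix.mul_apply, Fin.sum_univ_four]

theorem primrec_mulArray : Primrec₂ mulArray := by
  open BakerExplicit.Algorithms in
  have e : ∀ i j : Fin 4, Primrec fun p : (Fin 4 → Fin 4 → ℤ) × (Fin 4 → Fin 4 → ℤ) =>
      mulArray p.1 p.2 i j := by
    intro i j
    have a : ∀ k, IntRec fun p : (Fin 4 → Fin 4 → ℤ) × (Fin 4 → Fin 4 → ℤ) => p.1 i k := fun k =>
      IntRec.of_primrec (Primrec.fin_app.comp (Primrec.fin_app.comp Primrec.fst (Primrec.const i))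
        (Primrec.const k))
    have b : ∀ k, IntRec fun p : (Fin 4 → Fin 4 → ℤ) × (Fin 4 → Fin 4 → ℤ) => p.2 k j := fun k =>
      IntRec.of_primrec (Primrec.fin_app.comp (Primrec.fin_app.comp Primrec.snd (Primrec.const k))
        (Primrec.const j))
    exact ((((a 0).mul (b 0)).add ((a 1).mul (b 1))).add ((a 2).mul (b 2))).add
      ((a 3).mul (b 3)) |>.to_primrec
  exact Primrec.fin_curry.2 (Primrec₂.swap ((Primrec.fin_curry₁
    (f := fun i (p : (Fin 4 → Fin 4 → ℤ) × (Fin 4 → Fin 4 → ℤ)) => mulArray p.1 p.2 i)).2 fun i =>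
    Primrec.fin_curry.2 (Primrec₂.swap ((Primrec.fin_curry₁ (f := fun j (p : (Fin 4 → Fin 4 → ℤ) ×
      (Fin 4 → Fin 4 → ℤ)) => mulArray p.1 p.2 i j)).2 fun j => e i j))))

theorem primrec_entries {β : Type*} [Primcodable β] [Finite β]
    (f : FreeGroup β →* SpecialLinearGroup (Fin 4) ℤ) :
    Primrec fun w : List (β × Bool) => entries (f (FreeGroup.mk w)) := by
  refine (Primrec.list_foldr (f := id) (g := fun _ => entries 1)
    (h := fun (_ : List (β × Bool)) p => mulArray (entries (f (FreeGroup.mk [p.1]))) p.2) Primrec.id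
    (Primrec.const _) (primrec_mulArray.comp
      ((Primrec.dom_finite fun l : β × Bool => entries (f (FreeGroup.mk [l]))).comp
        (Primrec.fst.comp Primrec.snd)) (Primrec.snd.comp Primrec.snd)).to₂).of_eq fun w => ?_
  induction w with
  | nil => exact congrArg entries (map_one f).symm
  | cons l w ih =>
    simp only [id, List.foldr_cons] at ih ⊢
    rw [ih, ← entries_mul, ← map_mul, ← freeMk_append, List.singleton_append]

/-- **Mihailova.** A subgroup of two free groups, also seen in matrices of order four. -/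
theorem exists_hard_subgroup :
    ∃ T : List (FreeGroup (Fin 2) × FreeGroup (Fin 2)),
      (¬ComputablePred fun p : List (Fin 2 × Bool) × List (Fin 2 × Bool) =>
        (FreeGroup.mk p.1, FreeGroup.mk p.2) ∈ Subgroup.closure {x | x ∈ T}) ∧
      ¬ComputablePred fun A : Fin 4 → Fin 4 → ℤ =>
        ∃ g ∈ Subgroup.closure {x | x ∈ T.map pairMatrix}, entries g = A := by
  obtain ⟨n, rels, h⟩ := exists_hard_group
  let ψ := (conjHom n).prodMap (conjHom n)
  refine ⟨((List.finRange n).map fun a => ψ (FreeGroup.of a, FreeGroup.of a)) ++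
    rels.map fun r => ψ (r, 1), ?_⟩
  have hset : {x | x ∈ ((List.finRange n).map fun a => ψ (FreeGroup.of a, FreeGroup.of a)) ++
      rels.map fun r => ψ (r, 1)} = ψ '' mihailovaGens {r | r ∈ rels} := by
    ext x
    simp [mihailovaGens, Set.image_union, ← Set.range_comp, Set.image_image]
  have key : ∀ g, ψ (g, 1) ∈ Subgroup.closure (ψ '' mihailovaGens {r | r ∈ rels}) ↔
      PresentedGroup.mk {r | r ∈ rels} g = 1 := by
    intro g
    rw [← MonoidHom.map_closure, Subgroup.mem_map_iff_mem
      ((conjHom_injective n).prodMap (conjHom_injective n)), mihailova_mem]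
  have hflat : Primrec fun w : List (Fin n × Bool) => w.flatMap conjLetterWord :=
    (Primrec.list_flatten.comp (Primrec.list_map Primrec.id
      ((Primrec.dom_finite conjLetterWord).comp Primrec.snd).to₂)).of_eq fun w =>
        (List.flatMap_def).symm
  refine ⟨fun hC => h ?_, fun hC => h ?_⟩
  · refine ComputablePred.computable_of_manyOneReducible
      ⟨fun w => (w.flatMap conjLetterWord, []), (hflat.pair (Primrec.const [])).to_comp,
        fun w => ?_⟩ hC
    rw [← conjHom_mk, hset]
    refine (key _).symm.trans ?_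
    have e : (ψ (FreeGroup.mk w, 1)) = (conjHom n (FreeGroup.mk w), FreeGroup.mk []) :=
      Prod.ext rfl (map_one (conjHom n))
    rw [e]
  · refine ComputablePred.computable_of_manyOneReducible
      ⟨fun w => entries ((pairMatrix.comp (MonoidHom.inl _ _))
        (FreeGroup.mk (w.flatMap conjLetterWord))),
      ((primrec_entries _).comp hflat).to_comp, fun w => ?_⟩ hC
    refine (key _).symm.trans ?_
    rw [← hset]
    have e : (pairMatrix.comp (MonoidHom.inl _ _)) (FreeGroup.mk (w.flatMap conjLetterWord)) =
        pairMatrix (ψ (FreeGroup.mk w, 1)) := by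
      rw [← conjHom_mk]
      exact congrArg pairMatrix (Prod.ext rfl (map_one (conjHom n)).symm)
    have hS : {x | x ∈ (((List.finRange n).map fun a => ψ (FreeGroup.of a, FreeGroup.of a)) ++
        rels.map fun r => ψ (r, 1)).map pairMatrix} = pairMatrix '' {x | x ∈
          ((List.finRange n).map fun a => ψ (FreeGroup.of a, FreeGroup.of a)) ++
            rels.map fun r => ψ (r, 1)} := by
      ext x
      simp only [List.mem_map, Set.mem_image, Set.mem_ofPred_eq]
    dsimp only
    rw [hS, e, ← MonoidHom.map_closure]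
    constructor
    · exact fun hm => ⟨_, Subgroup.mem_map_of_mem _ hm, rfl⟩
    · rintro ⟨g, hg, hge⟩
      rw [Subtype.ext (a1 := g) (a2 := pairMatrix (ψ (FreeGroup.mk w, 1))) hge] at hg
      exact (Subgroup.mem_map_iff_mem pairMatrix_injective).1 hg

end FA.Undecidability
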