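import Mathlib.Data.Matrix.Mul
import Mathlib.Data.Fin.VecNotation
import Mathlib.LinearAlgebra.Matrix.Notation
import Mathlib.Algebra.Group.Submonoid.Membership
import Mathlib.Data.Int.Basic
import Mathlib.Tactic.LinearCombination
import Mathlib.Tactic.Ring
import Fermat.Agent.Undecidability.Tiles

/-!
# Paterson's matrices

A tile `(U, V)` becomes an integer matrix of order three, so that products are concatenations.
One matrix of rank one detects the equality of the two words of a sequence followed by a given
tile: some product vanishes if and only if a match ends with that tile.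
-/

set_option autoImplicit false

namespace FA.Undecidability

open Matrix

/-- The value of a word in base three, with digits one and two. -/
def wordVal : List Bool → ℕ
  | [] => 0
  | b :: l => (cond b 2 1) + 3 * wordVal l

theorem wordVal_append : ∀ U V : List Bool,
    wordVal (U ++ V) = wordVal U + 3 ^ U.length * wordVal V
  | [], V => by simp [wordVal]
  | b :: U, V => by
    simp only [List.cons_append, wordVal, wordVal_append U V, List.length_cons]
    ring

theorem wordVal_injective : Function.Injective wordVal := by
  intro U
  induction U with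
  | nil => intro V h; cases V with
    | nil => rfl
    | cons b V => cases b <;> simp only [wordVal, cond_true, cond_false] at h <;> omega
  | cons a U ih =>
    intro V h
    cases V with
    | nil => cases a <;> simp [wordVal] at h
    | cons b V =>
      simp only [wordVal] at h
      cases a <;> cases b <;> simp only [cond_true, cond_false] at h <;>
        first | omega | rw [ih (a₂ := V) (by omega)]

/-- The matrix of a pair of words. -/
def tileArray (t : List Bool × List Bool) : Fin 3 → Fin 3 → ℤ :=
  ![![3 ^ t.1.length, 0, wordVal t.1], ![0, 3 ^ t.2.length, wordVal t.2], ![0, 0, 1]]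

/-- The vector of a pair of words. -/
def tileVector (t : List Bool × List Bool) : Fin 3 → ℤ := ![wordVal t.1, wordVal t.2, 1]

/-- The row which compares the two words. -/
def compareRow : Fin 3 → ℤ := ![1, -1, 0]

/-- The matrix of rank one. -/
def killArray (e : List Bool × List Bool) : Fin 3 → Fin 3 → ℤ :=
  fun i j => tileVector e i * compareRow j

/-- Concatenation of pairs. -/
def pairAppend (t t' : List Bool × List Bool) : List Bool × List Bool :=
  (t.1 ++ t'.1, t.2 ++ t'.2)

theorem tileArray_mul (t t' : List Bool × List Bool) :
    Matrix.of (tileArray t) * Matrix.of (tileArray t') =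
      Matrix.of (tileArray (pairAppend t t')) := by
  ext i j
  fin_cases i <;> fin_cases j <;>
    simp [Matrix.mul_apply, Fin.sum_univ_three, tileArray, pairAppend, wordVal_append, pow_add,
      add_comm]

theorem tileArray_mulVec (t t' : List Bool × List Bool) :
    Matrix.of (tileArray t) *ᵥ tileVector t' = tileVector (pairAppend t t') := by
  funext i
  fin_cases i <;>
    simp [Matrix.mulVec, dotProduct, Fin.sum_univ_three, tileArray, tileVector, pairAppend,
      wordVal_append, add_comm]

theorem compareRow_tileVector (t : List Bool × List Bool) :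
    compareRow ⬝ᵥ tileVector t = (wordVal t.1 : ℤ) - wordVal t.2 := by
  simp [compareRow, tileVector, dotProduct, Fin.sum_univ_three, sub_eq_add_neg]

theorem killArray_eq (e : List Bool × List Bool) :
    Matrix.of (killArray e) = Matrix.vecMulVec (tileVector e) compareRow :=
  rfl

/-- The words of a sequence of tiles. -/
def seqPair (L : List (List Bool × List Bool)) : List Bool × List Bool := (tops L, bottoms L)

theorem seqPair_cons (t : List Bool × List Bool) (L : List (List Bool × List Bool)) :
    seqPair (t :: L) = pairAppend t (seqPair L) := by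
  simp [seqPair, pairAppend, tops, bottoms]

/-- The matrices of an instance. -/
def mortalityList (ts : List (List Bool × List Bool)) (e : List Bool × List Bool) :
    List (Fin 3 → Fin 3 → ℤ) :=
  killArray e :: ts.map tileArray

/-- Some product of the matrices vanishes. -/
def Mortal (L : List (Fin 3 → Fin 3 → ℤ)) : Prop :=
  (0 : Matrix (Fin 3) (Fin 3) ℤ) ∈ Submonoid.closure {A | ∃ a ∈ L, Matrix.of a = A}

variable {ts : List (List Bool × List Bool)} {e : List Bool × List Bool}

theorem one_eq_tileArray : (1 : Matrix (Fin 3) (Fin 3) ℤ) = Matrix.of (tileArray ([], [])) := by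
  ext i j
  fin_cases i <;> fin_cases j <;> simp [tileArray, wordVal]

/-- The shape of all products. -/
def ProductShape (ts : List (List Bool × List Bool)) (e : List Bool × List Bool)
    (P : Matrix (Fin 3) (Fin 3) ℤ) : Prop :=
  HasMatchEnd ts e ∨ (∃ L, (∀ t ∈ L, t ∈ ts) ∧ P = Matrix.of (tileArray (seqPair L))) ∨
    ∃ (c : ℤ) (L L' : List (List Bool × List Bool)), c ≠ 0 ∧ (∀ t ∈ L, t ∈ ts) ∧
      P = c • Matrix.vecMulVec (tileVector (pairAppend (seqPair L) e))
        (compareRow ᵥ* Matrix.of (tileArray (seqPair L')))

theorem productShape {P : Matrix (Fin 3) (Fin 3) ℤ}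
    (h : P ∈ Submonoid.closure {A | ∃ a ∈ mortalityList ts e, Matrix.of a = A}) :
    ProductShape ts e P := by
  induction h using Submonoid.closure_induction_left with
  | one => exact Or.inr (Or.inl ⟨[], by simp, one_eq_tileArray⟩)
  | mul_left A hA P _ ih =>
    obtain ⟨a, ha, rfl⟩ := hA
    rcases ih with ih | ⟨L, hL, rfl⟩ | ⟨c, L, L', hc, hL, rfl⟩
    · exact Or.inl ih
    · rcases List.mem_cons.1 ha with rfl | ha
      · refine Or.inr (Or.inr ⟨1, [], L, one_ne_zero, by simp, ?_⟩)
        rw [one_smul, killArray_eq, Matrix.vecMulVec_mul]
        simp [seqPair, pairAppend, tops, bottoms]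
      · obtain ⟨t, ht, rfl⟩ := List.mem_map.1 ha
        exact Or.inr (Or.inl ⟨t :: L, List.forall_mem_cons.2 ⟨ht, hL⟩,
          by rw [tileArray_mul, seqPair_cons]⟩)
    · rcases List.mem_cons.1 ha with rfl | ha
      · by_cases h0 : compareRow ⬝ᵥ tileVector (pairAppend (seqPair L) e) = 0
        · rw [compareRow_tileVector, sub_eq_zero, Nat.cast_inj] at h0
          refine Or.inl ⟨L, hL, ?_⟩
          simpa [tops, bottoms, seqPair, pairAppend] using wordVal_injective h0
        · refine Or.inr (Or.inr ⟨c * (compareRow ⬝ᵥ tileVector (pairAppend (seqPair L) e)), [],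
            L', mul_ne_zero hc h0, by simp, ?_⟩)
          rw [killArray_eq, Matrix.mul_smul, Matrix.vecMulVec_mul_vecMulVec]
          ext i j
          simp [Matrix.vecMulVec_apply, seqPair, pairAppend, tops, bottoms]
          ring
      · obtain ⟨t, ht, rfl⟩ := List.mem_map.1 ha
        refine Or.inr (Or.inr ⟨c, t :: L, L', hc, List.forall_mem_cons.2 ⟨ht, hL⟩, ?_⟩)
        rw [Matrix.mul_smul, Matrix.mul_vecMulVec, tileArray_mulVec, seqPair_cons]
        simp [pairAppend]

/-- **Paterson's lemma.** -/
theorem mortal_iff : Mortal (mortalityList ts e) ↔ HasMatchEnd ts e := by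
  constructor
  · intro h
    rcases productShape h with h | ⟨L, -, h⟩ | ⟨c, L, L', hc, -, h⟩
    · exact h
    · simpa [tileArray] using congrFun (congrFun h 2) 2
    · have h20 := congrFun (congrFun h 2) 0
      simp [tileVector, compareRow, tileArray, hc] at h20
  · rintro ⟨L, hL, h⟩
    set S : Set (Matrix (Fin 3) (Fin 3) ℤ) := {A | ∃ a ∈ mortalityList ts e, Matrix.of a = A}
    have hB : Matrix.of (killArray e) ∈ Submonoid.closure S :=
      Submonoid.subset_closure ⟨_, List.mem_cons_self, rfl⟩
    have hP : Matrix.of (tileArray (seqPair L)) ∈ Submonoid.closure S := by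
      clear h
      induction L with
      | nil => rw [show seqPair [] = (([] : List Bool), []) from rfl, ← one_eq_tileArray];
               exact one_mem _
      | cons t L ih =>
        obtain ⟨ht, hL⟩ := List.forall_mem_cons.1 hL
        rw [seqPair_cons, ← tileArray_mul]
        exact mul_mem (Submonoid.subset_closure
          ⟨_, List.mem_cons_of_mem _ (List.mem_map_of_mem ht), rfl⟩) (ih hL)
    have h0 : Matrix.of (killArray e) * (Matrix.of (tileArray (seqPair L)) *
        Matrix.of (killArray e)) = 0 := by
      rw [killArray_eq, Matrix.mul_vecMulVec, tileArray_mulVec, Matrix.vecMulVec_mul_vecMulVec,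
        compareRow_tileVector]
      have : (pairAppend (seqPair L) e).1 = (pairAppend (seqPair L) e).2 := by
        simpa [tops, bottoms, seqPair, pairAppend] using h
      simp [this]
    rw [Mortal, ← h0]
    exact mul_mem hB (mul_mem hP hB)

end FA.Undecidability
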