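import Mathlib.Computability.Reduce
import Mathlib.Algebra.PresentedMonoid.Basic
import Fermat.Agent.Undecidability.HaltingMachine
import Fermat.Agent.Undecidability.Mortality

/-!
# The undecidable problems

The finite machine with an undecidable halting set gives a finite set of rules for which
derivability and equivalence to a fixed word are undecidable (Markov, Post). The tiles of these
rules give the correspondence problem, and Paterson's matrices give the mortality problem.
-/

set_option autoImplicit false

namespace FA.Undecidability

variable {A B : Type*}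

theorem RewriteStep.map (g : A → B) {R : List (List A × List A)} {w w' : List A}
    (h : RewriteStep R w w') :
    RewriteStep (R.map (Prod.map (List.map g) (List.map g))) (w.map g) (w'.map g) := by
  obtain @⟨u, v, l, r, hlr⟩ := h
  simp only [List.map_append]
  exact ⟨u.map g, v.map g, List.mem_map.2 ⟨(l, r), hlr, rfl⟩⟩

theorem map_rewrite (e : A ≃ B) (R : List (List A × List A)) (w w' : List A) :
    (Relation.ReflTransGen (RewriteStep (R.map (Prod.map (List.map e) (List.map e))))
        (w.map e) (w'.map e) ↔ Relation.ReflTransGen (RewriteStep R) w w') ∧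
      (Relation.EqvGen (RewriteStep (R.map (Prod.map (List.map e) (List.map e))))
        (w.map e) (w'.map e) ↔ Relation.EqvGen (RewriteStep R) w w') := by
  have back : ∀ {x y : List B},
      RewriteStep (R.map (Prod.map (List.map e) (List.map e))) x y →
      RewriteStep R (x.map e.symm) (y.map e.symm) := by
    intro x y h
    simpa [List.map_map, Function.comp_def, Prod.map] using h.map e.symm
  have fwdE : ∀ {x y : List A}, Relation.EqvGen (RewriteStep R) x y →
      Relation.EqvGen (RewriteStep (R.map (Prod.map (List.map e) (List.map e))))
        (x.map e) (y.map e) := by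
    intro x y h
    induction h with
    | rel x y h => exact .rel _ _ (h.map e)
    | refl x => exact .refl _
    | symm x y _ ih => exact .symm _ _ ih
    | trans x y z _ _ i₁ i₂ => exact .trans _ _ _ i₁ i₂
  have backE : ∀ {x y : List B},
      Relation.EqvGen (RewriteStep (R.map (Prod.map (List.map e) (List.map e)))) x y →
      Relation.EqvGen (RewriteStep R) (x.map e.symm) (y.map e.symm) := by
    intro x y h
    induction h with
    | rel x y h => exact .rel _ _ (back h)
    | refl x => exact .refl _
    | symm x y _ ih => exact .symm _ _ ih
    | trans x y z _ _ i₁ i₂ => exact .trans _ _ _ i₁ i₂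
  refine ⟨⟨fun h => ?_, fun h =>
      Relation.ReflTransGen.lift (List.map e) (fun x y h => h.map e) _ _ h⟩,
    ⟨fun h => ?_, fwdE⟩⟩
  · simpa [List.map_map, Function.onFun] using
      Relation.ReflTransGen.lift (List.map e.symm) (fun x y => back) _ _ h
  · simpa [List.map_map] using backE h

/-- The relations of a list of rules. -/
def relsOf (R : List (List A × List A)) (x y : FreeMonoid A) : Prop :=
  (x.toList, y.toList) ∈ R

theorem eqvGen_append {R : List (List A × List A)} {x y x' y' : List A}
    (h : Relation.EqvGen (RewriteStep R) x y) (h' : Relation.EqvGen (RewriteStep R) x' y') :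
    Relation.EqvGen (RewriteStep R) (x ++ x') (y ++ y') := by
  have hl : ∀ p, Relation.EqvGen (RewriteStep R) (p ++ x') (p ++ y') := by
    intro p
    induction h' with
    | rel a b h =>
      obtain @⟨u, v, l, r, hlr⟩ := h
      refine .rel _ _ ?_
      simpa [List.append_assoc] using RewriteStep.intro (p ++ u) v hlr
    | refl a => exact .refl _
    | symm a b _ ih => exact .symm _ _ ih
    | trans a b c _ _ i₁ i₂ => exact .trans _ _ _ i₁ i₂
  have hr : ∀ p, Relation.EqvGen (RewriteStep R) (x ++ p) (y ++ p) := by
    intro p
    induction h with
    | rel a b h =>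
      obtain @⟨u, v, l, r, hlr⟩ := h
      refine .rel _ _ ?_
      simpa [List.append_assoc] using RewriteStep.intro u (v ++ p) hlr
    | refl a => exact .refl _
    | symm a b _ ih => exact .symm _ _ ih
    | trans a b c _ _ i₁ i₂ => exact .trans _ _ _ i₁ i₂
  exact .trans _ _ _ (hr x') (hl y)

/-- **Equality in the presented monoid.** -/
theorem presented_eq_iff (R : List (List A × List A)) (x y : List A) :
    PresentedMonoid.mk (relsOf R) (FreeMonoid.ofList x) =
      PresentedMonoid.mk (relsOf R) (FreeMonoid.ofList y) ↔
      Relation.EqvGen (RewriteStep R) x y := by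
  constructor
  · intro h
    suffices H : ∀ a b, conGen (relsOf R) a b →
        Relation.EqvGen (RewriteStep R) (FreeMonoid.toList a) (FreeMonoid.toList b) from
      H _ _ (PresentedMonoid.mk_eq_mk_iff.1 h)
    intro a b h
    induction (h : ConGen.Rel (relsOf R) a b) with
    | of a b h => exact .rel _ _ (by simpa using RewriteStep.intro [] [] h)
    | refl a => exact .refl _
    | symm _ ih => exact .symm _ _ ih
    | trans _ _ i₁ i₂ => exact .trans _ _ _ i₁ i₂
    | mul _ _ i₁ i₂ => exact eqvGen_append i₁ i₂
  · intro h
    induction h with
    | rel a b h =>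
      obtain @⟨u, v, l, r, hlr⟩ := h
      simp only [FreeMonoid.ofList_append, map_mul]
      rw [PresentedMonoid.mk_eq_mk_of_rel (x := FreeMonoid.ofList l) (y := FreeMonoid.ofList r)
        (by simpa [relsOf] using hlr)]
    | refl a => rfl
    | symm a b _ ih => exact ih.symm
    | trans a b c _ _ i₁ i₂ => exact i₁.trans i₂

theorem computable_blocks {α : Type*} [Primcodable α] (p x q : List α) :
    Computable fun n : ℕ => p ++ (List.replicate n x).flatten ++ q := by
  have h : Primrec fun n : ℕ => ((List.range n).map fun _ => x) :=
    Primrec.list_map Primrec.list_range (Primrec.const x).to₂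
  refine ((Primrec.list_append.comp (Primrec.list_append.comp (Primrec.const p)
    (Primrec.list_flatten.comp h)) (Primrec.const q)).of_eq fun n => ?_).to_comp
  simp

/-- **The core.** Rules with nonempty sides and an undecidable one parameter family of words. -/
theorem exists_hard_rules :
    ∃ (m : ℕ) (R : List (List (Fin m) × List (Fin m))) (p q t : List (Fin m)) (b : Fin m),
      (∀ r ∈ R, r.1 ≠ [] ∧ r.2 ≠ []) ∧
      (∀ n, Relation.EqvGen (RewriteStep R) (p ++ List.replicate n b ++ q) t ↔
        Relation.ReflTransGen (RewriteStep R) (p ++ List.replicate n b ++ q) t) ∧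
      ¬ComputablePred fun n => Relation.ReflTransGen (RewriteStep R)
        (p ++ List.replicate n b ++ q) t := by
  classical
  obtain ⟨Q, _, _, M, hM⟩ := exists_undecidable_machine
  let e := Fintype.equivFin (MLetter Q TapeLetter)
  refine ⟨Fintype.card (MLetter Q TapeLetter),
    (machineRules M).map (Prod.map (List.map e) (List.map e)),
    [MLetter.lft, .st default, .sym cellHead].map e, [MLetter.rgt].map e,
    [MLetter.lft, .fin, .rgt].map e, e (.sym cellOne), ?_, ?_⟩
  · intro r hr
    obtain ⟨⟨l, r⟩, hlr, rfl⟩ := List.mem_map.1 hr
    obtain ⟨q, c, a, h | h⟩ := (mem_machineRules M).1 hlr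
    · rcases hq : M q a with _ | ⟨q', d | b⟩
      · simp_all [actRules]
      · cases d <;> simp_all [actRules]
      · simp_all [actRules]
    · simp only [padRules, List.mem_cons, List.not_mem_nil, or_false, Prod.mk.injEq] at h
      rcases h with ⟨rfl, rfl⟩ | ⟨rfl, rfl⟩ | ⟨rfl, rfl⟩ | ⟨rfl, rfl⟩ <;> simp
  · have hw : ∀ n, [MLetter.lft, .st default, .sym cellHead].map e ++
        List.replicate n (e (.sym cellOne)) ++ [MLetter.rgt].map e =
        (word [] (MLetter.st (default : Q)) (cellHead :: List.replicate n cellOne)).map e := by
      intro n
      simp [word]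
    simp only [hw, (map_rewrite e _ _ _).1, (map_rewrite e _ _ _).2]
    refine ⟨fun n => ?_, fun h => hM ?_⟩
    · exact ((halts_iff_derives M default [] _).2).symm.trans (halts_iff_derives M default [] _).1
    · exact h.of_eq fun n => ((halts_iff_derives M default [] _).1).symm

/-- **Markov, Post.** A finite presentation with an undecidable word problem, for a fixed word. -/
theorem exists_hard_presentation :
    ∃ (m : ℕ) (R : List (List (Fin m) × List (Fin m))) (t : List (Fin m)),
      (¬ComputablePred fun w => PresentedMonoid.mk (relsOf R) (FreeMonoid.ofList w) =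
        PresentedMonoid.mk (relsOf R) (FreeMonoid.ofList t)) ∧
      ¬ComputablePred fun w => Relation.ReflTransGen (RewriteStep R) w t := by
  obtain ⟨m, R, p, q, t, b, -, hE, hD⟩ := exists_hard_rules
  have hc : Computable fun n => p ++ List.replicate n b ++ q :=
    (computable_blocks p [b] q).of_eq fun n => by simp
  refine ⟨m, R, t, fun h => hD ?_, fun h => hD ?_⟩
  · refine ComputablePred.computable_of_manyOneReducible
      ⟨fun n => p ++ List.replicate n b ++ q, hc, fun n => ?_⟩ h
    rw [presented_eq_iff, hE]
  · exact ComputablePred.computable_of_manyOneReducible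
      ⟨fun n => p ++ List.replicate n b ++ q, hc, fun n => Iff.rfl⟩ h

/-- **Post.** Tiles over two letters with undecidable matches, also with a given last tile. -/
theorem exists_hard_tiles :
    ∃ (a b c : List Bool × List Bool) (T : List (List Bool × List Bool)),
      let first := fun n => (a.1, a.2 ++ (List.replicate n b.2).flatten ++ c.2)
      (¬ComputablePred fun n => HasMatch (first n :: T)) ∧
      ∃ e, ¬ComputablePred fun n => HasMatchEnd (first n :: T) e := by
  classical
  obtain ⟨m, R, p, q, t, x, hR, -, hD⟩ := exists_hard_rules
  let f : TileLetter (Fin m) → ℕ := fun y => (Fintype.equivFin (TileLetter (Fin m)) y).1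
  have hf : Function.Injective f := Fin.val_injective.comp (Equiv.injective _)
  refine ⟨(unaryCode f [.star, .first],
      unaryCode f ([.star, .first, .star] ++ after (p.map some))),
    ([], unaryCode f (after [some x])), ([], unaryCode f (after (q.map some ++ [none]))),
    (fixedTiles (List.finRange m) R t).map (codeTile f), ?_⟩
  have hfirst : ∀ n, codeTile f (firstTile (p ++ List.replicate n x ++ q)) =
      (unaryCode f [.star, .first], unaryCode f ([.star, .first, .star] ++ after (p.map some)) ++
        (List.replicate n (unaryCode f (after [some x]))).flatten ++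
        unaryCode f (after (q.map some ++ [none]))) := by
    intro n
    simp [codeTile, firstTile, unaryCode, after, List.flatMap_replicate, List.flatMap_assoc]
    induction n with
    | zero => rfl
    | succ n ih => simp [List.replicate_succ, ih]
  have hmem : ∀ a, a ∈ List.finRange m := List.mem_finRange
  have key := fun n => derives_iff_match (s := p ++ List.replicate n x ++ q) (t := t) hmem hR
  have code := fun n => hasMatch_codeTile hf
    (derivationTiles (List.finRange m) R (p ++ List.replicate n x ++ q) t) (lastTile t)
  simp only [derivationTiles, List.map_cons, hfirst] at code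
  refine ⟨fun h => hD (h.of_eq fun n => (code n).1.trans (key n).1),
    codeTile f (lastTile t), fun h => hD (h.of_eq fun n => (code n).2.trans (key n).2)⟩

/-- **Post's correspondence problem is undecidable.** -/
theorem not_computable_hasMatch :
    ¬ComputablePred fun ts : List (List Bool × List Bool) => HasMatch ts := by
  obtain ⟨a, b, c, T, h, -⟩ := exists_hard_tiles
  refine fun hC => h (ComputablePred.computable_of_manyOneReducible ⟨_, ?_, fun n => Iff.rfl⟩ hC)
  exact Computable.list_cons.comp ((Computable.const a.1).pair (computable_blocks a.2 b.2 c.2))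
    (Computable.const T)

theorem primrec_intCast : Primrec fun n : ℕ => (n : ℤ) :=
  Primrec.encode_iff.1 (Primrec.nat_double.of_eq fun _ => rfl)

theorem primrec_tileArray : Primrec tileArray := by
  have hv : Primrec wordVal := by
    refine (Primrec.list_foldr (f := id) (g := fun _ => 0)
      (h := fun (_ : List Bool) (x : Bool × ℕ) => (cond x.1 2 1) + 3 * x.2) Primrec.id
      (Primrec.const 0) ?_).of_eq fun l => ?_
    · exact (Primrec.nat_add.comp (Primrec.cond (Primrec.fst.comp Primrec.snd)
        (Primrec.const 2) (Primrec.const 1))
        (Primrec.nat_mul.comp (Primrec.const 3) (Primrec.snd.comp Primrec.snd))).to₂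
    · induction l with
      | nil => rfl
      | cons b l ih => simp only [id, List.foldr_cons] at ih ⊢; rw [ih, wordVal]
  have hp : Primrec fun l : List Bool => 3 ^ l.length :=
    (Primrec.list_foldr (f := id) (g := fun _ => 1)
      (h := fun (_ : List Bool) (x : Bool × ℕ) => 3 * x.2) Primrec.id (Primrec.const 1)
      (Primrec.nat_mul.comp (Primrec.const 3) (Primrec.snd.comp Primrec.snd)).to₂).of_eq fun l => by
      induction l with
      | nil => rfl
      | cons b l ih => simp only [id, List.foldr_cons, List.length_cons, pow_succ'] at ih ⊢; rw [ih]
  refine Primrec.fin_curry.2 (Primrec₂.swap ((Primrec.fin_curry₁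
    (f := fun i t => tileArray t i)).2 fun i => Primrec.fin_curry.2
    (Primrec₂.swap ((Primrec.fin_curry₁ (f := fun j t => tileArray t i j)).2 fun j => ?_))))
  have c : ∀ z : ℤ, Primrec fun _ : List Bool × List Bool => z := Primrec.const
  fin_cases i <;> fin_cases j
  · exact (primrec_intCast.comp (hp.comp Primrec.fst)).of_eq fun t => by simp [tileArray]
  · exact (c 0).of_eq fun t => by simp [tileArray]
  · exact (primrec_intCast.comp (hv.comp Primrec.fst)).of_eq fun t => by simp [tileArray]
  · exact (c 0).of_eq fun t => by simp [tileArray]
  · exact (primrec_intCast.comp (hp.comp Primrec.snd)).of_eq fun t => by simp [tileArray]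
  · exact (primrec_intCast.comp (hv.comp Primrec.snd)).of_eq fun t => by simp [tileArray]
  · exact (c 0).of_eq fun t => by simp [tileArray]
  · exact (c 0).of_eq fun t => by simp [tileArray]
  · exact (c 1).of_eq fun t => by simp [tileArray]

/-- **Paterson.** Mortality of matrices of order three is undecidable. -/
theorem not_computable_mortal :
    ¬ComputablePred fun L : List (Fin 3 → Fin 3 → ℤ) => Mortal L := by
  obtain ⟨a, b, c, T, -, e, h⟩ := exists_hard_tiles
  refine fun hC => h (ComputablePred.computable_of_manyOneReducible
    ⟨fun n => killArray e :: tileArray (a.1, a.2 ++ (List.replicate n b.2).flatten ++ c.2) ::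
      T.map tileArray, ?_, fun n => mortal_iff.symm⟩ hC)
  exact Computable.list_cons.comp (Computable.const _) (Computable.list_cons.comp
    (primrec_tileArray.to_comp.comp
      ((Computable.const a.1).pair (computable_blocks a.2 b.2 c.2)))
    (Computable.const _))

end FA.Undecidability
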