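import Mathlib.ModelTheory.Encoding
import Mathlib.ModelTheory.Satisfiability
import Fermat.Agent.Undecidability.Problems

/-!
# Words as terms of unary functions

The language has one unary function for each letter. A rule becomes a universal equation, and an
equation of two words follows from these equations if and only if the words are equivalent.
-/

set_option autoImplicit false

namespace FA.Undecidability

open FirstOrder Language

/-- The language with `m` unary function symbols. -/
def unaryLanguage (m : ℕ) : Language :=
  ⟨fun k => match k with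
    | 1 => Fin m
    | _ => Empty, fun _ => Empty⟩

variable {m : ℕ}

instance instEncodableUnaryFunctions :
    ∀ k, Encodable ((unaryLanguage m).Functions k)
  | 0 => inferInstanceAs (Encodable Empty)
  | 1 => inferInstanceAs (Encodable (Fin m))
  | _ + 2 => inferInstanceAs (Encodable Empty)

instance instEncodableUnaryRelations (k : ℕ) : Encodable ((unaryLanguage m).Relations k) :=
  inferInstanceAs (Encodable Empty)

/-- The symbol of a letter. -/
def letterSymbol (a : Fin m) : Σ i, (unaryLanguage m).Functions i := ⟨1, a⟩

/-- The term of a word. -/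
def wordTerm : List (Fin m) → (unaryLanguage m).Term (Empty ⊕ Fin 1)
  | [] => .var (.inr 0)
  | a :: w => .func (l := 1) a fun _ => wordTerm w

/-- The equation of two words. -/
def wordEquation (w t : List (Fin m)) : (unaryLanguage m).Sentence :=
  (BoundedFormula.equal (wordTerm w) (wordTerm t)).all

/-- The equations of the rules. -/
def ruleEquations (R : List (List (Fin m) × List (Fin m))) : (unaryLanguage m).Theory :=
  {φ | φ ∈ R.map fun r => wordEquation r.1 r.2}

theorem ruleEquations_finite (R : List (List (Fin m) × List (Fin m))) :
    (ruleEquations R).Finite :=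
  List.finite_toSet _

/-- The conjunction of the equations implies the equation. -/
def derivationSentence (R : List (List (Fin m) × List (Fin m))) (w t : List (Fin m)) :
    (unaryLanguage m).Sentence :=
  BoundedFormula.imp ((R.map fun r => wordEquation r.1 r.2).foldr (· ⊓ ·) ⊤) (wordEquation w t)

section Model

variable {M : Type*} [(unaryLanguage m).Structure M]

/-- The action of a word. -/
def wordAct (w : List (Fin m)) (x : M) : M :=
  w.foldr (fun a y => Structure.funMap (L := unaryLanguage m) (n := 1) a fun _ => y) x

theorem wordAct_append (u v : List (Fin m)) (x : M) :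
    wordAct (u ++ v) x = wordAct u (wordAct v x) :=
  List.foldr_append

theorem realize_wordTerm (w : List (Fin m)) (f : Empty ⊕ Fin 1 → M) :
    (wordTerm w).realize f = wordAct w (f (.inr 0)) := by
  induction w with
  | nil => rfl
  | cons a w ih =>
    exact congrArg (fun y => Structure.funMap (L := unaryLanguage m) (n := 1) a fun _ => y) ih

theorem realize_wordEquation (w t : List (Fin m)) :
    M ⊨ wordEquation w t ↔ ∀ x : M, wordAct w x = wordAct t x := by
  refine forall_congr' fun x => ?_
  change Term.realize _ _ = Term.realize _ _ ↔ _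
  simp [realize_wordTerm, Fin.snoc]

theorem act_eq_of_eqvGen {R : List (List (Fin m) × List (Fin m))} {w t : List (Fin m)}
    (hR : ∀ r ∈ R, M ⊨ wordEquation r.1 r.2) (h : Relation.EqvGen (RewriteStep R) w t) :
    ∀ x : M, wordAct w x = wordAct t x := by
  induction h with
  | rel a b h =>
    obtain @⟨u, v, l, r, hlr⟩ := h
    intro x
    simp only [wordAct_append]
    rw [(realize_wordEquation l r).1 (hR _ hlr)]
  | refl a => exact fun _ => rfl
  | symm a b _ ih => exact fun x => (ih x).symm
  | trans a b c _ _ i₁ i₂ => exact fun x => (i₁ x).trans (i₂ x)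

end Model

/-- The words up to equivalence. -/
def WordClass (R : List (List (Fin m) × List (Fin m))) :=
  Quot (Relation.EqvGen (RewriteStep R))

instance (R : List (List (Fin m) × List (Fin m))) : Nonempty (WordClass R) :=
  ⟨Quot.mk _ []⟩

theorem eqvGen_cons {R : List (List (Fin m) × List (Fin m))} (a : Fin m) {x y : List (Fin m)}
    (h : Relation.EqvGen (RewriteStep R) x y) :
    Relation.EqvGen (RewriteStep R) (a :: x) (a :: y) :=
  eqvGen_append (x := [a]) (y := [a]) (.refl _) h

instance (R : List (List (Fin m) × List (Fin m))) : (unaryLanguage m).Structure (WordClass R) where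
  funMap {k} := match k with
    | 0 => fun f _ => f.elim
    | 1 => fun (a : Fin m) xs => Quot.map (List.cons a) (fun _ _ h => eqvGen_cons a h) (xs 0)
    | _ + 2 => fun f _ => f.elim
  RelMap r _ := r.elim

theorem wordAct_mk (R : List (List (Fin m) × List (Fin m))) (w z : List (Fin m)) :
    wordAct (M := WordClass R) w (Quot.mk _ z) = Quot.mk _ (w ++ z) := by
  induction w with
  | nil => rfl
  | cons a w ih =>
    change Structure.funMap (L := unaryLanguage m) (n := 1) a (fun _ => wordAct w _) = _
    rw [ih]
    rfl

instance (R : List (List (Fin m) × List (Fin m))) : WordClass R ⊨ ruleEquations R := by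
  refine (Theory.model_iff _).2 fun φ hφ => ?_
  obtain ⟨r, hr, rfl⟩ := List.mem_map.1 hφ
  refine (realize_wordEquation _ _).2 fun x => ?_
  induction x using Quot.ind with
  | mk z =>
    rw [wordAct_mk, wordAct_mk]
    exact Quot.sound (.rel _ _ (by simpa using RewriteStep.intro [] z (l := r.1) (r := r.2) hr))

theorem eqvGen_of_models {R : List (List (Fin m) × List (Fin m))} {w t : List (Fin m)}
    (h : WordClass R ⊨ wordEquation w t) : Relation.EqvGen (RewriteStep R) w t := by
  have h1 := (realize_wordEquation w t).1 h (Quot.mk _ [])
  rw [wordAct_mk, wordAct_mk, List.append_nil, List.append_nil] at h1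
  exact (Relation.EqvGen.is_equivalence _).eqvGen_iff.1 (Quot.eqvGen_exact h1)

theorem realize_derivationSentence {M : Type*} [(unaryLanguage m).Structure M]
    (R : List (List (Fin m) × List (Fin m))) (w t : List (Fin m)) :
    M ⊨ derivationSentence R w t ↔
      ((∀ r ∈ R, M ⊨ wordEquation r.1 r.2) → M ⊨ wordEquation w t) := by
  simp only [derivationSentence, Sentence.Realize, Formula.Realize, BoundedFormula.realize_imp,
    BoundedFormula.realize_foldr_inf, List.forall_mem_map]

/-- **Validity is equivalence of words.** -/
theorem valid_iff (R : List (List (Fin m) × List (Fin m))) (w t : List (Fin m)) :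
    ((∅ : (unaryLanguage m).Theory) ⊨ᵇ derivationSentence R w t ↔
      Relation.EqvGen (RewriteStep R) w t) ∧
    (ruleEquations R ⊨ᵇ wordEquation w t ↔ Relation.EqvGen (RewriteStep R) w t) := by
  refine ⟨⟨fun h => ?_, fun h => ?_⟩, ⟨fun h => ?_, fun h => ?_⟩⟩
  · exact eqvGen_of_models ((realize_derivationSentence R w t).1
      (Theory.models_sentence_iff.1 h (Theory.ModelType.of _ (WordClass R))) fun r hr =>
        Theory.realize_sentence_of_mem (ruleEquations R) (List.mem_map.2 ⟨r, hr, rfl⟩))
  · exact Theory.models_sentence_iff.2 fun M => (realize_derivationSentence R w t).2 fun hR =>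
      (realize_wordEquation w t).2 (act_eq_of_eqvGen hR h)
  · exact eqvGen_of_models
      (Theory.models_sentence_iff.1 h (Theory.ModelType.of _ (WordClass R)))
  · exact Theory.models_sentence_iff.2 fun M => (realize_wordEquation w t).2 (act_eq_of_eqvGen
      (fun r hr => Theory.realize_sentence_of_mem (ruleEquations R)
        (List.mem_map.2 ⟨r, hr, rfl⟩)) h)

/-- The code of a sentence: Mathlib's list of symbols, with the standard encoding. -/
def sentenceCode (φ : (unaryLanguage m).Sentence) : ℕ :=
  Encodable.encode (BoundedFormula.listEncode φ)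

theorem sentenceCode_injective : Function.Injective (sentenceCode (m := m)) := by
  intro φ ψ h
  have h1 := BoundedFormula.listEncode_sigma_injective (α := Empty) (a₁ := ⟨0, φ⟩) (a₂ := ⟨0, ψ⟩)
    (Encodable.encode_injective h)
  simpa using h1

theorem listEncode_wordTerm : ∀ w : List (Fin m),
    (wordTerm w).listEncode = w.map (fun a => Sum.inr (letterSymbol a)) ++ [Sum.inl (.inr 0)]
  | [] => rfl
  | a :: w => by
    simp [wordTerm, Term.listEncode, listEncode_wordTerm w, letterSymbol, List.finRange_succ]

theorem encode_append {α : Type*} [Encodable α] (l r : List α) :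
    Encodable.encode (l ++ r) =
      (l.map Encodable.encode).foldr (fun c acc => (Nat.pair c acc).succ) (Encodable.encode r) := by
  induction l with
  | nil => rfl
  | cons a l ih => rw [List.cons_append, Encodable.encode_list_cons, ih]; rfl

theorem primrec_encode_foldr (K : List ℕ) :
    Primrec fun x : ℕ => K.foldr (fun c acc => (Nat.pair c acc).succ) x :=
  Primrec.list_foldr (f := fun _ : ℕ => K) (g := fun x => x)
    (h := fun _ p => (Nat.pair p.1 p.2).succ) (Primrec.const K) Primrec.id
    (Primrec.succ.comp (Primrec₂.natPair.comp (Primrec.fst.comp Primrec.snd)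
      (Primrec.snd.comp Primrec.snd))).to₂

theorem primrec_wordTermCode : Primrec fun w : List (Fin m) => Encodable.encode (wordTerm w) := by
  have hc : Primrec fun a : Fin m =>
      Encodable.encode (Sum.inr (letterSymbol a) : (Empty ⊕ Fin 1) ⊕ _) := Primrec.dom_finite _
  refine (Primrec.list_foldr (f := fun w : List (Fin m) => w)
    (g := fun _ => Encodable.encode [(Sum.inl (.inr 0) :
      (Empty ⊕ Fin 1) ⊕ (Σ i, (unaryLanguage m).Functions i))])
    (h := fun _ p => (Nat.pair (Encodable.encode (Sum.inr (letterSymbol p.1) :
      (Empty ⊕ Fin 1) ⊕ _)) p.2).succ) Primrec.id (Primrec.const _)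
    (Primrec.succ.comp (Primrec₂.natPair.comp (hc.comp (Primrec.fst.comp Primrec.snd))
      (Primrec.snd.comp Primrec.snd))).to₂).of_eq fun w => ?_
  change _ = Encodable.encode (wordTerm w).listEncode
  rw [listEncode_wordTerm, encode_append, List.map_map, List.foldr_map]
  rfl

/-- The code of `∀ x, w x = t x` after a fixed list of symbols. -/
theorem primrec_equationCode
    (pre : List ((Σ k, (unaryLanguage m).Term (Empty ⊕ Fin k)) ⊕
      ((Σ n, (unaryLanguage m).Relations n) ⊕ ℕ))) (t : List (Fin m)) :
    Primrec fun w : List (Fin m) =>
      Encodable.encode (pre ++ BoundedFormula.listEncode (wordEquation w t)) := by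
  have hx : Primrec fun w : List (Fin m) =>
      (Nat.pair (2 * Nat.pair 1 (Encodable.encode (wordTerm w)))
        (Encodable.encode [(Sum.inl ⟨1, wordTerm t⟩ :
          (Σ k, (unaryLanguage m).Term (Empty ⊕ Fin k)) ⊕
            ((Σ n, (unaryLanguage m).Relations n) ⊕ ℕ))])).succ :=
    Primrec.succ.comp (Primrec₂.natPair.comp (Primrec.nat_mul.comp (Primrec.const 2)
      (Primrec₂.natPair.comp (Primrec.const 1) primrec_wordTermCode)) (Primrec.const _))
  refine ((primrec_encode_foldr ((pre ++ [Sum.inr (Sum.inr 1)]).map Encodable.encode)).comp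
    hx).of_eq fun w => ?_
  have e : pre ++ BoundedFormula.listEncode (wordEquation w t) =
      (pre ++ [Sum.inr (Sum.inr 1)]) ++ [Sum.inl ⟨1, wordTerm w⟩, Sum.inl ⟨1, wordTerm t⟩] := by
    simp [wordEquation, BoundedFormula.listEncode]
  rw [e, encode_append]
  congr 1

theorem primrec_derivationCode (R : List (List (Fin m) × List (Fin m))) (t : List (Fin m)) :
    Primrec fun w => sentenceCode (derivationSentence R w t) :=
  (primrec_equationCode (Sum.inr (Sum.inr 0) :: BoundedFormula.listEncode
    ((R.map fun r => wordEquation r.1 r.2).foldr (· ⊓ ·) ⊤)) t).of_eq fun _ => rfl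

theorem primrec_wordEquationCode (t : List (Fin m)) :
    Primrec fun w => sentenceCode (wordEquation w t) :=
  (primrec_equationCode [] t).of_eq fun _ => rfl

end FA.Undecidability
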